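import Fermat.Agent.S55.Coh.FnBasic
import Fermat.Agent.S55.Coh.LES

/-!
# S55 / A2 : functoriality of `H0c`, `H1c`, `H2c`, `res0`, `res1`, `res2`  (helper8)
-/

set_option autoImplicit false

namespace Fermat.Agent.S55

section Hom

variable {G : Type*} [Group G]
variable {A B C : Type*} [AddCommGroup A] [AddCommGroup B] [AddCommGroup C]
  {ρA : G →* AddMonoid.End A} {ρB : G →* AddMonoid.End B} {ρC : G →* AddMonoid.End C}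

theorem IsHom.id (ρA : G →* AddMonoid.End A) : IsHom ρA ρA (AddMonoidHom.id A) := fun _ _ => rfl

theorem IsHom.comp {φ : A →+ B} {ψ : B →+ C} (hψ : IsHom ρB ρC ψ) (hφ : IsHom ρA ρB φ) :
    IsHom ρA ρC (ψ.comp φ) := fun g a => by
  rw [AddMonoidHom.comp_apply, hφ, hψ, AddMonoidHom.comp_apply]

theorem IsHom.zero (ρA : G →* AddMonoid.End A) (ρB : G →* AddMonoid.End B) :
    IsHom ρA ρB (0 : A →+ B) := fun g a => by simp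

theorem IsHom.add {φ ψ : A →+ B} (hφ : IsHom ρA ρB φ) (hψ : IsHom ρA ρB ψ) :
    IsHom ρA ρB (φ + ψ) := fun g a => by
  rw [AddMonoidHom.add_apply, hφ, hψ, AddMonoidHom.add_apply, map_add]

theorem IsHom.neg {φ : A →+ B} (hφ : IsHom ρA ρB φ) : IsHom ρA ρB (-φ) := fun g a => by
  rw [AddMonoidHom.neg_apply, hφ, AddMonoidHom.neg_apply, map_neg]

theorem IsHom.sub {φ ψ : A →+ B} (hφ : IsHom ρA ρB φ) (hψ : IsHom ρA ρB ψ) :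
    IsHom ρA ρB (φ - ψ) := by
  rw [sub_eq_add_neg]; exact hφ.add hψ.neg

theorem IsHom.sum {ι : Type*} (s : Finset ι) {φ : ι → A →+ B} (hφ : ∀ k, IsHom ρA ρB (φ k)) :
    IsHom ρA ρB (∑ k ∈ s, φ k) := by
  classical
  induction s using Finset.induction_on with
  | empty => simpa using IsHom.zero ρA ρB
  | insert a s ha ih => rw [Finset.sum_insert ha]; exact (hφ a).add ih

theorem IsHom.nsmul {φ : A →+ B} (hφ : IsHom ρA ρB φ) (n : ℕ) : IsHom ρA ρB (n • φ) :=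
  fun g a => by
    rw [AddMonoidHom.nsmul_apply, hφ, AddMonoidHom.nsmul_apply, map_nsmul]

end Hom

section Coeff

variable {G : Type*} [Group G] (𝓛 : Lvl G)
variable {A B C : Type*} [AddCommGroup A] [AddCommGroup B] [AddCommGroup C]
  {ρA : G →* AddMonoid.End A} {ρB : G →* AddMonoid.End B} {ρC : G →* AddMonoid.End C}

theorem H1c_mk {φ : A →+ B} (h : IsHom ρA ρB φ) (f : ↥(Z1 𝓛 ρA)) :
    H1c 𝓛 h (H1.mk 𝓛 ρA f) = H1.mk 𝓛 ρB (Z1map (LvlMap.id 𝓛) h.along f) := rfl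

theorem H2c_mk {φ : A →+ B} (h : IsHom ρA ρB φ) (f : ↥(Z2 𝓛 ρA)) :
    H2c 𝓛 h (H2.mk 𝓛 ρA f) = H2.mk 𝓛 ρB (Z2map (LvlMap.id 𝓛) h.along f) := rfl

theorem H1c_congr {φ φ' : A →+ B} (h : IsHom ρA ρB φ) (h' : IsHom ρA ρB φ') (e : φ = φ')
    (x : H1 𝓛 ρA) : H1c 𝓛 h x = H1c 𝓛 h' x := by subst e; rfl

theorem H2c_congr {φ φ' : A →+ B} (h : IsHom ρA ρB φ) (h' : IsHom ρA ρB φ') (e : φ = φ')
    (x : H2 𝓛 ρA) : H2c 𝓛 h x = H2c 𝓛 h' x := by subst e; rfl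

theorem H1c_id (x : H1 𝓛 ρA) : H1c 𝓛 (IsHom.id ρA) x = x := by
  obtain ⟨f, rfl⟩ := H1.mk_surjective 𝓛 ρA x
  rfl

theorem H2c_id (x : H2 𝓛 ρA) : H2c 𝓛 (IsHom.id ρA) x = x := by
  obtain ⟨f, rfl⟩ := H2.mk_surjective 𝓛 ρA x
  rfl

theorem H1c_comp {φ : A →+ B} {ψ : B →+ C} (hψ : IsHom ρB ρC ψ) (hφ : IsHom ρA ρB φ)
    (x : H1 𝓛 ρA) : H1c 𝓛 (hψ.comp hφ) x = H1c 𝓛 hψ (H1c 𝓛 hφ x) := by
  obtain ⟨f, rfl⟩ := H1.mk_surjective 𝓛 ρA x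
  rfl

theorem H2c_comp {φ : A →+ B} {ψ : B →+ C} (hψ : IsHom ρB ρC ψ) (hφ : IsHom ρA ρB φ)
    (x : H2 𝓛 ρA) : H2c 𝓛 (hψ.comp hφ) x = H2c 𝓛 hψ (H2c 𝓛 hφ x) := by
  obtain ⟨f, rfl⟩ := H2.mk_surjective 𝓛 ρA x
  rfl

/-- the most convenient form of functoriality -/
theorem H1c_H1c {φ : A →+ B} {ψ : B →+ C} {θ : A →+ C} (hψ : IsHom ρB ρC ψ) (hφ : IsHom ρA ρB φ)
    (hθ : IsHom ρA ρC θ) (e : ∀ a, ψ (φ a) = θ a) (x : H1 𝓛 ρA) :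
    H1c 𝓛 hψ (H1c 𝓛 hφ x) = H1c 𝓛 hθ x := by
  rw [← H1c_comp]
  exact H1c_congr 𝓛 _ _ (AddMonoidHom.ext e) x

theorem H2c_H2c {φ : A →+ B} {ψ : B →+ C} {θ : A →+ C} (hψ : IsHom ρB ρC ψ) (hφ : IsHom ρA ρB φ)
    (hθ : IsHom ρA ρC θ) (e : ∀ a, ψ (φ a) = θ a) (x : H2 𝓛 ρA) :
    H2c 𝓛 hψ (H2c 𝓛 hφ x) = H2c 𝓛 hθ x := by
  rw [← H2c_comp]
  exact H2c_congr 𝓛 _ _ (AddMonoidHom.ext e) x

theorem H1c_of_id {φ : A →+ A} (h : IsHom ρA ρA φ) (e : ∀ a, φ a = a) (x : H1 𝓛 ρA) :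
    H1c 𝓛 h x = x := by
  rw [H1c_congr 𝓛 h (IsHom.id ρA) (AddMonoidHom.ext e), H1c_id]

theorem H2c_of_id {φ : A →+ A} (h : IsHom ρA ρA φ) (e : ∀ a, φ a = a) (x : H2 𝓛 ρA) :
    H2c 𝓛 h x = x := by
  rw [H2c_congr 𝓛 h (IsHom.id ρA) (AddMonoidHom.ext e), H2c_id]

theorem H1c_zero (x : H1 𝓛 ρA) : H1c 𝓛 (IsHom.zero ρA ρB) x = 0 := by
  obtain ⟨f, rfl⟩ := H1.mk_surjective 𝓛 ρA x
  rw [H1c_mk, ← map_zero (H1.mk 𝓛 ρB)]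
  congr 1

theorem H2c_zero (x : H2 𝓛 ρA) : H2c 𝓛 (IsHom.zero ρA ρB) x = 0 := by
  obtain ⟨f, rfl⟩ := H2.mk_surjective 𝓛 ρA x
  rw [H2c_mk, ← map_zero (H2.mk 𝓛 ρB)]
  congr 1

theorem H1c_add {φ ψ : A →+ B} (hφ : IsHom ρA ρB φ) (hψ : IsHom ρA ρB ψ) (x : H1 𝓛 ρA) :
    H1c 𝓛 (hφ.add hψ) x = H1c 𝓛 hφ x + H1c 𝓛 hψ x := by
  obtain ⟨f, rfl⟩ := H1.mk_surjective 𝓛 ρA x
  rw [H1c_mk, H1c_mk, H1c_mk, ← map_add]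
  congr 1

theorem H2c_add {φ ψ : A →+ B} (hφ : IsHom ρA ρB φ) (hψ : IsHom ρA ρB ψ) (x : H2 𝓛 ρA) :
    H2c 𝓛 (hφ.add hψ) x = H2c 𝓛 hφ x + H2c 𝓛 hψ x := by
  obtain ⟨f, rfl⟩ := H2.mk_surjective 𝓛 ρA x
  rw [H2c_mk, H2c_mk, H2c_mk, ← map_add]
  congr 1

theorem H1c_neg {φ : A →+ B} (hφ : IsHom ρA ρB φ) (x : H1 𝓛 ρA) :
    H1c 𝓛 hφ.neg x = - H1c 𝓛 hφ x := by
  obtain ⟨f, rfl⟩ := H1.mk_surjective 𝓛 ρA x
  rw [H1c_mk, H1c_mk, ← map_neg]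
  congr 1

theorem H2c_neg {φ : A →+ B} (hφ : IsHom ρA ρB φ) (x : H2 𝓛 ρA) :
    H2c 𝓛 hφ.neg x = - H2c 𝓛 hφ x := by
  obtain ⟨f, rfl⟩ := H2.mk_surjective 𝓛 ρA x
  rw [H2c_mk, H2c_mk, ← map_neg]
  congr 1

theorem H1c_sub {φ ψ : A →+ B} (hφ : IsHom ρA ρB φ) (hψ : IsHom ρA ρB ψ) (x : H1 𝓛 ρA) :
    H1c 𝓛 (hφ.sub hψ) x = H1c 𝓛 hφ x - H1c 𝓛 hψ x := by
  rw [H1c_congr 𝓛 (hφ.sub hψ) (hφ.add hψ.neg) (sub_eq_add_neg _ _), H1c_add 𝓛 hφ hψ.neg,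
    H1c_neg, sub_eq_add_neg]

theorem H2c_sub {φ ψ : A →+ B} (hφ : IsHom ρA ρB φ) (hψ : IsHom ρA ρB ψ) (x : H2 𝓛 ρA) :
    H2c 𝓛 (hφ.sub hψ) x = H2c 𝓛 hφ x - H2c 𝓛 hψ x := by
  rw [H2c_congr 𝓛 (hφ.sub hψ) (hφ.add hψ.neg) (sub_eq_add_neg _ _), H2c_add 𝓛 hφ hψ.neg,
    H2c_neg, sub_eq_add_neg]

theorem H1c_sum {ι : Type*} (s : Finset ι) {φ : ι → A →+ B} (hφ : ∀ k, IsHom ρA ρB (φ k))
    (x : H1 𝓛 ρA) : H1c 𝓛 (IsHom.sum s hφ) x = ∑ k ∈ s, H1c 𝓛 (hφ k) x := by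
  classical
  induction s using Finset.induction_on with
  | empty =>
    rw [H1c_congr 𝓛 _ (IsHom.zero ρA ρB) Finset.sum_empty, H1c_zero, Finset.sum_empty]
  | insert a s ha ih =>
    rw [H1c_congr 𝓛 _ ((hφ a).add (IsHom.sum s hφ)) (Finset.sum_insert ha),
      H1c_add 𝓛 (hφ a) (IsHom.sum s hφ), ih,
      Finset.sum_insert ha]

theorem H2c_sum {ι : Type*} (s : Finset ι) {φ : ι → A →+ B} (hφ : ∀ k, IsHom ρA ρB (φ k))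
    (x : H2 𝓛 ρA) : H2c 𝓛 (IsHom.sum s hφ) x = ∑ k ∈ s, H2c 𝓛 (hφ k) x := by
  classical
  induction s using Finset.induction_on with
  | empty =>
    rw [H2c_congr 𝓛 _ (IsHom.zero ρA ρB) Finset.sum_empty, H2c_zero, Finset.sum_empty]
  | insert a s ha ih =>
    rw [H2c_congr 𝓛 _ ((hφ a).add (IsHom.sum s hφ)) (Finset.sum_insert ha),
      H2c_add 𝓛 (hφ a) (IsHom.sum s hφ), ih,
      Finset.sum_insert ha]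

theorem H2c_nsmul {φ : A →+ B} (hφ : IsHom ρA ρB φ) (n : ℕ) (x : H2 𝓛 ρA) :
    H2c 𝓛 (hφ.nsmul n) x = n • H2c 𝓛 hφ x := by
  induction n with
  | zero => rw [H2c_congr 𝓛 _ (IsHom.zero ρA ρB) (zero_smul _ _), H2c_zero, zero_nsmul]
  | succ n ih =>
    rw [H2c_congr 𝓛 _ ((hφ.nsmul n).add hφ) (succ_nsmul _ _), H2c_add 𝓛 (hφ.nsmul n) hφ, ih,
      succ_nsmul]

theorem H1c_nsmul {φ : A →+ B} (hφ : IsHom ρA ρB φ) (n : ℕ) (x : H1 𝓛 ρA) :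
    H1c 𝓛 (hφ.nsmul n) x = n • H1c 𝓛 hφ x := by
  induction n with
  | zero => rw [H1c_congr 𝓛 _ (IsHom.zero ρA ρB) (zero_smul _ _), H1c_zero, zero_nsmul]
  | succ n ih =>
    rw [H1c_congr 𝓛 _ ((hφ.nsmul n).add hφ) (succ_nsmul _ _), H1c_add 𝓛 (hφ.nsmul n) hφ, ih,
      succ_nsmul]

/-- a retraction on coefficients gives a retraction on cohomology -/
theorem H2c_retract {a : A →+ B} {b : B →+ A} (ha : IsHom ρA ρB a) (hb : IsHom ρB ρA b)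
    (hba : ∀ x, b (a x) = x) (x : H2 𝓛 ρA) : H2c 𝓛 hb (H2c 𝓛 ha x) = x := by
  rw [H2c_H2c 𝓛 hb ha (IsHom.id ρA) hba, H2c_id]

theorem H1c_retract {a : A →+ B} {b : B →+ A} (ha : IsHom ρA ρB a) (hb : IsHom ρB ρA b)
    (hba : ∀ x, b (a x) = x) (x : H1 𝓛 ρA) : H1c 𝓛 hb (H1c 𝓛 ha x) = x := by
  rw [H1c_H1c 𝓛 hb ha (IsHom.id ρA) hba, H1c_id]

variable {H : Type*} [Group H]

/-- restriction commutes with coefficient maps -/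
theorem res1_H1c (r : H →* G) {φ : A →+ B} (h : IsHom ρA ρB φ) (x : H1 𝓛 ρA) :
    res1 𝓛 ρB r (H1c 𝓛 h x) = H1c (𝓛.comap r) (h.res r) (res1 𝓛 ρA r x) := by
  obtain ⟨f, rfl⟩ := H1.mk_surjective 𝓛 ρA x
  rfl

theorem res2_H2c (r : H →* G) {φ : A →+ B} (h : IsHom ρA ρB φ) (x : H2 𝓛 ρA) :
    res2 𝓛 ρB r (H2c 𝓛 h x) = H2c (𝓛.comap r) (h.res r) (res2 𝓛 ρA r x) := by
  obtain ⟨f, rfl⟩ := H2.mk_surjective 𝓛 ρA x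
  rfl

theorem Smooth.res {ρ : G →* AddMonoid.End A} (h : Smooth 𝓛 ρ) (r : H →* G) :
    Smooth (𝓛.comap r) (ρ.comp r) := fun a => by
  obtain ⟨U, hU, hu⟩ := h a
  exact ⟨_, ⟨U, hU, rfl⟩, fun u hu' => hu (r u) hu'⟩

theorem SmoothSet.res {Sg : Type*} {π : G →* Equiv.Perm Sg} (h : SmoothSet π 𝓛) (r : H →* G) :
    SmoothSet (π.comp r) (𝓛.comap r) := by
  obtain ⟨U, hU, hu⟩ := h
  exact ⟨_, ⟨U, hU, rfl⟩, fun u hu' => hu (r u) hu'⟩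

theorem SES.res {i : A →+ B} {j : B →+ C} (S : SES ρA ρB ρC i j) (r : H →* G) :
    SES (ρA.comp r) (ρB.comp r) (ρC.comp r) i j :=
  ⟨S.hi.res r, S.hj.res r, S.inj, S.surj, S.exact⟩

/-- `delta0` commutes with restriction -/
theorem res1_delta0 {i : A →+ B} {j : B →+ C} (S : SES ρA ρB ρC i j) (hB : Smooth 𝓛 ρB)
    (r : H →* G) (c : ↥(H0 ρC)) :
    res1 𝓛 ρA r (delta0 S hB c) = delta0 (S.res r) (hB.res 𝓛 r) (res0 ρC r c) :=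
  delta0_natural S hB (S.res r) (hB.res 𝓛 r) (LvlMap.comap 𝓛 r) (isHomAlong_res ρA r)
    (isHomAlong_res ρB r) (isHomAlong_res ρC r) (fun _ => rfl) (fun _ => rfl) c

/-- `delta1` commutes with restriction -/
theorem res2_delta1 {i : A →+ B} {j : B →+ C} (S : SES ρA ρB ρC i j) (hB : Smooth 𝓛 ρB)
    (r : H →* G) (c : H1 𝓛 ρC) :
    res2 𝓛 ρA r (delta1 S hB c) = delta1 (S.res r) (hB.res 𝓛 r) (res1 𝓛 ρC r c) :=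
  delta1_natural S hB (S.res r) (hB.res 𝓛 r) (LvlMap.comap 𝓛 r) (isHomAlong_res ρA r)
    (isHomAlong_res ρB r) (isHomAlong_res ρC r) (fun _ => rfl) (fun _ => rfl) c

end Coeff

end Fermat.Agent.S55
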