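import Fermat.Agent.S55.A.RE

/-!
# S55 / A3 : coinduced modules  (key `S55/A-COIND`)

`H ≤ G`, `β : H →* End B`.  `CoInd H β = {f : G → B | f (g h) = h⁻¹ f(g)}`, `(x f)(g) = f (x⁻¹ g)`.

* exact functor (`ses_coind`; surjectivity: lift the values at the representatives `s.out`, `s : G ⧸ H`, and extend by
  `f (s.out * h) = h⁻¹ (lift)`);
* finite/smooth (`finMod_coind`: `f` is determined by its values at the `s.out`; a normal `N ≤ H` acting trivially on `B`
  acts trivially on `CoInd`: `(n f)(g) = f (g (g⁻¹ n⁻¹ g)) = f g`);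
* `X` is a retract up to the index of `CoInd H (Res X)` : `coindUnit x = (g ↦ g⁻¹ x)`, `coindTr f = ∑_{s} s.out f(s.out)`
  (independent of the representatives), `coindTr (coindUnit x) = [G : H] x`;
* `CoInd H (trivial ZMod p) ≅ Fn(G/H, T)` if `χ = 1` on `H` : `f ↦ (gH ↦ χ(g) f(g))`.
-/

set_option autoImplicit false

noncomputable section

namespace Fermat.Agent.S55

variable {G : Type*} [Group G] (H : Subgroup G)

section Defs

variable {B : Type*} [AddCommGroup B] (β : H →* AddMonoid.End B)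

/-- the coinduced module -/
def CoInd : AddSubgroup (G → B) where
  carrier := {f | ∀ (g : G) (h : H), f (g * h) = β h⁻¹ (f g)}
  add_mem' := fun ha hb g h => by simp only [Pi.add_apply, ha g h, hb g h, map_add]
  zero_mem' := fun g h => by simp
  neg_mem' := fun ha g h => by simp only [Pi.neg_apply, ha g h, map_neg]

/-- left translation -/
def coindRho : G →* AddMonoid.End (CoInd H β) where
  toFun x :=
    { toFun := fun f => ⟨fun g => f.1 (x⁻¹ * g), fun g h => by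
        change f.1 (x⁻¹ * (g * h)) = β h⁻¹ (f.1 (x⁻¹ * g))
        rw [← mul_assoc]; exact f.2 (x⁻¹ * g) h⟩
      map_zero' := rfl
      map_add' := fun _ _ => rfl }
  map_one' := by
    ext f g
    change f.1 (1⁻¹ * g) = f.1 g
    simp
  map_mul' x y := by
    ext f g
    change f.1 ((x * y)⁻¹ * g) = f.1 (y⁻¹ * (x⁻¹ * g))
    simp [mul_assoc]

@[simp] theorem coindRho_apply (x : G) (f : CoInd H β) (g : G) :
    (coindRho H β x f).1 g = f.1 (x⁻¹ * g) := rfl

end Defs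

section Functor

variable {B B' B'' : Type*} [AddCommGroup B] [AddCommGroup B'] [AddCommGroup B'']
  {β : H →* AddMonoid.End B} {β' : H →* AddMonoid.End B'} {β'' : H →* AddMonoid.End B''}

/-- functoriality -/
def coindMap {φ : B →+ B'} (hφ : IsHom β β' φ) : CoInd H β →+ CoInd H β' where
  toFun f := ⟨fun g => φ (f.1 g), fun g h => by
    change φ (f.1 (g * h)) = β' h⁻¹ (φ (f.1 g))
    rw [f.2 g h, hφ]⟩
  map_zero' := by
    apply Subtype.ext
    funext g
    exact map_zero φ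
  map_add' a b := by
    apply Subtype.ext
    funext g
    exact map_add φ _ _

@[simp] theorem coindMap_apply {φ : B →+ B'} (hφ : IsHom β β' φ) (f : CoInd H β) (g : G) :
    (coindMap H hφ f).1 g = φ (f.1 g) := rfl

theorem isHom_coindMap {φ : B →+ B'} (hφ : IsHom β β' φ) :
    IsHom (coindRho H β) (coindRho H β') (coindMap H hφ) := fun _ _ => rfl

theorem ses_coind {i : B →+ B'} {q : B' →+ B''} (S : SES β β' β'' i q) :
    SES (coindRho H β) (coindRho H β') (coindRho H β'') (coindMap H S.hi) (coindMap H S.hj) where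
  hi := isHom_coindMap H S.hi
  hj := isHom_coindMap H S.hj
  inj := by
    intro f f' hff
    apply Subtype.ext
    funext g
    apply S.inj
    have := congrArg (fun F : CoInd H β' => F.1 g) hff
    exact this
  surj := by
    intro f
    choose lift hlift using S.surj
    -- the element `h_g = (mk g).out⁻¹ * g` of `H`
    have hmem : ∀ g : G, ((g : G ⧸ H).out)⁻¹ * g ∈ H := fun g =>
      QuotientGroup.eq.1 (QuotientGroup.out_eq' (g : G ⧸ H))
    refine ⟨⟨fun g => β' (⟨_, hmem g⟩ : H)⁻¹ (lift (f.1 (g : G ⧸ H).out)), ?_⟩, ?_⟩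
    · intro g h
      have h1 : ((g * h : G) : G ⧸ H) = (g : G ⧸ H) := QuotientGroup.mk_mul_of_mem g h.2
      have h2 : (⟨_, hmem (g * h)⟩ : H) = (⟨_, hmem g⟩ : H) * h := by
        apply Subtype.ext
        change ((g * h : G) : G ⧸ H).out⁻¹ * (g * h) = (g : G ⧸ H).out⁻¹ * g * h
        rw [h1, mul_assoc]
      change β' (⟨_, hmem (g * h)⟩ : H)⁻¹ (lift (f.1 ((g * h : G) : G ⧸ H).out)) =
        β' h⁻¹ (β' (⟨_, hmem g⟩ : H)⁻¹ (lift (f.1 (g : G ⧸ H).out)))
      rw [h2, h1, mul_inv_rev, map_mul]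
      rfl
    · apply Subtype.ext
      funext g
      change q (β' (⟨_, hmem g⟩ : H)⁻¹ (lift (f.1 (g : G ⧸ H).out))) = f.1 g
      rw [S.hj, hlift, ← f.2]
      change f.1 ((g : G ⧸ H).out * ((g : G ⧸ H).out⁻¹ * g)) = f.1 g
      rw [mul_inv_cancel_left]
  exact := by
    intro f
    constructor
    · intro h0
      have h0' : ∀ g, q (f.1 g) = 0 := fun g => congrArg (fun F : CoInd H β'' => F.1 g) h0
      refine ⟨⟨fun g => Function.invFun i (f.1 g), ?_⟩, ?_⟩
      · intro g h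
        apply S.inj
        change i (Function.invFun i (f.1 (g * h))) = i (β h⁻¹ (Function.invFun i (f.1 g)))
        rw [S.i_invFun (h0' _), S.hi, S.i_invFun (h0' _), f.2]
      · apply Subtype.ext
        funext g
        exact S.i_invFun (h0' g)
    · rintro ⟨a, rfl⟩
      apply Subtype.ext
      funext g
      exact S.comp_eq_zero _

end Functor

section Fin

variable {B : Type*} [AddCommGroup B] {β : H →* AddMonoid.End B} {p : ℕ} {𝓛 : Lvl G}

theorem finMod_coind [Finite B] (hp : ∀ b : B, p • b = 0) {N : Subgroup G} (hN : N ∈ 𝓛.sets)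
    (hn : N.Normal) (hNH : N ≤ H) (htriv : ∀ h : H, (h : G) ∈ N → ∀ b, β h b = b) :
    FinMod p 𝓛 (coindRho H β) where
  fin := by
    have := 𝓛.fin N hN
    have hfi : H.FiniteIndex := Subgroup.finiteIndex_of_le hNH
    have : Finite (G ⧸ H) := Subgroup.finite_quotient_of_finiteIndex
    refine Finite.of_injective (fun (f : CoInd H β) (s : G ⧸ H) => f.1 s.out) ?_
    intro f f' hff
    apply Subtype.ext
    funext g
    have hmem : ((g : G ⧸ H).out)⁻¹ * g ∈ H :=
      QuotientGroup.eq.1 (QuotientGroup.out_eq' (g : G ⧸ H))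
    have hg : g = (g : G ⧸ H).out * ((⟨_, hmem⟩ : H) : G) := by
      change g = (g : G ⧸ H).out * ((g : G ⧸ H).out⁻¹ * g)
      rw [mul_inv_cancel_left]
    have h1 := congrFun hff (g : G ⧸ H)
    rw [hg, f.2, f'.2]
    exact congrArg _ h1
  tors f := by
    apply Subtype.ext
    funext g
    exact hp _
  smooth f := by
    refine ⟨N, hN, fun n hn' => ?_⟩
    apply Subtype.ext
    funext g
    have h1 : g⁻¹ * n⁻¹ * g ∈ N := by
      have := hn.conj_mem n⁻¹ (N.inv_mem hn') g⁻¹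
      simpa using this
    have h2 : n⁻¹ * g = g * ((⟨g⁻¹ * n⁻¹ * g, hNH h1⟩ : H) : G) := by
      change n⁻¹ * g = g * (g⁻¹ * n⁻¹ * g)
      group
    rw [coindRho_apply, h2, f.2]
    exact htriv _ (N.inv_mem h1) _

theorem subsingleton_coind [Subsingleton B] : Subsingleton (CoInd H β) :=
  ⟨fun f g => Subtype.ext (funext fun _ => Subsingleton.elim _ _)⟩

end Fin

section Retract

variable {X : Type*} [AddCommGroup X] (ρ : G →* AddMonoid.End X)

/-- `x ↦ (g ↦ g⁻¹ x)` -/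
def coindUnit : X →+ CoInd H (ρ.comp H.subtype) where
  toFun x := ⟨fun g => ρ g⁻¹ x, fun g h => by
    change ρ (g * h)⁻¹ x = ρ ((h⁻¹ : H) : G) (ρ g⁻¹ x)
    simp [mul_inv_rev]⟩
  map_zero' := by
    apply Subtype.ext
    funext g
    exact map_zero _
  map_add' a b := by
    apply Subtype.ext
    funext g
    exact map_add _ _ _

theorem isHom_coindUnit : IsHom ρ (coindRho H (ρ.comp H.subtype)) (coindUnit H ρ) := by
  intro x a
  apply Subtype.ext
  funext g
  change ρ g⁻¹ (ρ x a) = ρ (x⁻¹ * g)⁻¹ a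
  rw [mul_inv_rev, inv_inv, map_mul]
  rfl

/-- `g ↦ g f(g)` is right `H`-invariant -/
theorem coind_smul_out (f : CoInd H (ρ.comp H.subtype)) (g : G) :
    ρ (g : G ⧸ H).out (f.1 (g : G ⧸ H).out) = ρ g (f.1 g) := by
  obtain ⟨h, hh⟩ := QuotientGroup.mk_out_eq_mul H g
  rw [hh, f.2, map_mul]
  change ρ g (ρ (h : G) (ρ ((h⁻¹ : H) : G) (f.1 g))) = ρ g (f.1 g)
  congr 1
  rw [← End_mul_apply, ← map_mul]
  simp

/-- `f ↦ ∑_{s ∈ G/H} s f(s)` -/
def coindTr [Fintype (G ⧸ H)] : CoInd H (ρ.comp H.subtype) →+ X where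
  toFun f := ∑ s : G ⧸ H, ρ s.out (f.1 s.out)
  map_zero' := by simp
  map_add' a b := by simp [Finset.sum_add_distrib]

theorem isHom_coindTr [Fintype (G ⧸ H)] :
    IsHom (coindRho H (ρ.comp H.subtype)) ρ (coindTr H ρ) := by
  intro x f
  change ∑ s : G ⧸ H, ρ s.out (f.1 (x⁻¹ * s.out)) = ρ x (∑ s : G ⧸ H, ρ s.out (f.1 s.out))
  rw [map_sum]
  refine Fintype.sum_equiv (MulAction.toPerm (x⁻¹ : G)) _ _ (fun s => ?_)
  have h1 : (MulAction.toPerm (x⁻¹ : G) : Equiv.Perm (G ⧸ H)) s = ((x⁻¹ * s.out : G) : G ⧸ H) := by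
    conv_lhs => rw [← QuotientGroup.out_eq' s]
    rfl
  rw [h1, coind_smul_out, ← End_mul_apply, ← map_mul, mul_inv_cancel_left]

theorem coindTr_coindUnit [Fintype (G ⧸ H)] (x : X) :
    coindTr H ρ (coindUnit H ρ x) = Fintype.card (G ⧸ H) • x := by
  change ∑ s : G ⧸ H, ρ s.out (ρ s.out⁻¹ x) = _
  have : ∀ s : G ⧸ H, ρ s.out (ρ s.out⁻¹ x) = x := by
    intro s
    rw [← End_mul_apply, ← map_mul, mul_inv_cancel, map_one]
    rfl
  simp only [this, Finset.sum_const, Finset.card_univ]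

end Retract

section Triv

variable {p : ℕ} (χ : G →* (ZMod p)ˣ)

/-- `f ↦ (gH ↦ χ(g) f(g))` -/
def coindToFn : CoInd H (rhoTriv H (ZMod p)) →+ (G ⧸ H → ZMod p) where
  toFun f s := (χ s.out : ZMod p) * f.1 s.out
  map_zero' := by ext; simp
  map_add' a b := by ext; simp [mul_add]

/-- `F ↦ (g ↦ χ(g)⁻¹ F(gH))` -/
def fnToCoind (hχ : ∀ h ∈ H, χ h = 1) : (G ⧸ H → ZMod p) →+ CoInd H (rhoTriv H (ZMod p)) where
  toFun F := ⟨fun g => (((χ g)⁻¹ : (ZMod p)ˣ) : ZMod p) * F (g : G ⧸ H), fun g h => by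
    have h1 : ((g * h : G) : G ⧸ H) = (g : G ⧸ H) := QuotientGroup.mk_mul_of_mem g h.2
    change (((χ (g * h))⁻¹ : (ZMod p)ˣ) : ZMod p) * F ((g * h : G) : G ⧸ H) =
      (((χ g)⁻¹ : (ZMod p)ˣ) : ZMod p) * F (g : G ⧸ H)
    rw [h1, map_mul, hχ h h.2, mul_one]⟩
  map_zero' := by
    apply Subtype.ext
    funext g
    simp
  map_add' a b := by
    apply Subtype.ext
    funext g
    simp [mul_add]

variable {χ}

theorem coindToFn_mk (hχ : ∀ h ∈ H, χ h = 1) (f : CoInd H (rhoTriv H (ZMod p))) (g : G) :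
    coindToFn H χ f (g : G ⧸ H) = (χ g : ZMod p) * f.1 g := by
  obtain ⟨h, hh⟩ := QuotientGroup.mk_out_eq_mul H g
  change (χ (g : G ⧸ H).out : ZMod p) * f.1 (g : G ⧸ H).out = _
  rw [hh, f.2, map_mul, hχ h h.2, mul_one]
  rfl

theorem isHom_coindToFn (hχ : ∀ h ∈ H, χ h = 1) :
    IsHom (coindRho H (rhoTriv H (ZMod p))) (Fn (cosetPerm H) (rhoChi χ)) (coindToFn H χ) := by
  intro x f
  funext s
  obtain ⟨g, rfl⟩ := QuotientGroup.mk_surjective s
  have h1 : (cosetPerm H x)⁻¹ (g : G ⧸ H) = ((x⁻¹ * g : G) : G ⧸ H) := by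
    rw [← map_inv]; rfl
  rw [Fn_apply, h1, coindToFn_mk H hχ, coindToFn_mk H hχ, rhoChi_apply, coindRho_apply,
    ← mul_assoc, ← Units.val_mul, ← map_mul, mul_inv_cancel_left]

theorem isHom_fnToCoind (hχ : ∀ h ∈ H, χ h = 1) :
    IsHom (Fn (cosetPerm H) (rhoChi χ)) (coindRho H (rhoTriv H (ZMod p))) (fnToCoind H χ hχ) := by
  intro x F
  apply Subtype.ext
  funext g
  have h1 : (cosetPerm H x)⁻¹ (g : G ⧸ H) = ((x⁻¹ * g : G) : G ⧸ H) := by
    rw [← map_inv]; rfl
  change (((χ g)⁻¹ : (ZMod p)ˣ) : ZMod p) * ((χ x : ZMod p) * F ((cosetPerm H x)⁻¹ (g : G ⧸ H))) =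
    (((χ (x⁻¹ * g))⁻¹ : (ZMod p)ˣ) : ZMod p) * F ((x⁻¹ * g : G) : G ⧸ H)
  rw [h1, ← mul_assoc, ← Units.val_mul, map_mul, map_inv, mul_inv_rev, inv_inv]

theorem fnToCoind_coindToFn (hχ : ∀ h ∈ H, χ h = 1) (f : CoInd H (rhoTriv H (ZMod p))) :
    fnToCoind H χ hχ (coindToFn H χ f) = f := by
  apply Subtype.ext
  funext g
  change (((χ g)⁻¹ : (ZMod p)ˣ) : ZMod p) * coindToFn H χ f (g : G ⧸ H) = f.1 g
  rw [coindToFn_mk H hχ, ← mul_assoc, ← Units.val_mul, inv_mul_cancel, Units.val_one, one_mul]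

end Triv

end Fermat.Agent.S55
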