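import Fermat.Agent.S55.A.Tw

/-!
# S55 / A4 : the dual module `dualRho χ ρ` on `A →+ ZMod p`  (key `S55/A-DUAL`)

`H0 (dualRho χ ρ) = Hom_G(A, T)`, `T = rhoChi χ`.  The dual of a short exact sequence of modules killed by `p` is exact
(`LA.exists_extend_of_injective` for the surjectivity; for the exactness in the middle: a functional killing `i(A)` factors
through `j`: `φ̄ c = φ (S.sec c)` is additive because `φ` kills `ker j`).
`(Fn π T)' ≅ Fn π 𝔽_p` : `φ ↦ (s ↦ φ (Pi.single s 1))`, inverse `a ↦ (f ↦ ∑ s, a s * f s)`.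
-/

set_option autoImplicit false

noncomputable section

namespace Fermat.Agent.S55

variable {G : Type*} [Group G] {p : ℕ} (χ : G →* (ZMod p)ˣ)

section Basic

variable {A B C : Type*} [AddCommGroup A] [AddCommGroup B] [AddCommGroup C]
  {ρA : G →* AddMonoid.End A} {ρB : G →* AddMonoid.End B} {ρC : G →* AddMonoid.End C}

variable {χ}

theorem mem_H0_dualRho {φ : A →+ ZMod p} :
    φ ∈ H0 (dualRho χ ρA) ↔ IsHom ρA (rhoChi χ) φ := by
  rw [mem_H0]
  constructor
  · intro h g a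
    have h1 := DFunLike.congr_fun (h g) (ρA g a)
    rw [dualRho_apply, rho_inv_apply_aux] at h1
    rw [rhoChi_apply, h1]
  · intro h g
    ext a
    rw [dualRho_apply, ← rhoChi_apply, ← h, rho_apply_inv_aux]

theorem isHom_of_mem {φ : A →+ ZMod p} (h : φ ∈ H0 (dualRho χ ρA)) : IsHom ρA (rhoChi χ) φ :=
  mem_H0_dualRho.1 h

/-- transpose -/
def dualMap (p : ℕ) (i : A →+ B) : (B →+ ZMod p) →+ (A →+ ZMod p) where
  toFun φ := φ.comp i
  map_zero' := rfl
  map_add' _ _ := rfl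

@[simp] theorem dualMap_apply (i : A →+ B) (φ : B →+ ZMod p) (a : A) :
    dualMap p i φ a = φ (i a) := rfl

theorem isHom_dualMap {i : A →+ B} (hi : IsHom ρA ρB i) :
    IsHom (dualRho χ ρB) (dualRho χ ρA) (dualMap p i) := by
  intro g φ
  ext a
  simp only [dualMap_apply, dualRho_apply]
  rw [hi]

theorem nsmul_dual_eq_zero (φ : A →+ ZMod p) : p • φ = 0 := by
  ext a
  rw [AddMonoidHom.nsmul_apply, nsmul_eq_mul, ZMod.natCast_self, zero_mul]
  rfl

theorem smooth_dualRho {𝓛 : Lvl G} (hχ : Smooth 𝓛 (rhoChi χ)) (hA : FinMod p 𝓛 ρA) :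
    Smooth 𝓛 (dualRho χ ρA) := by
  intro φ
  obtain ⟨U, hU, -, hu⟩ := hA.exists_trivial
  obtain ⟨V, hV, hv⟩ := hχ 1
  obtain ⟨W, hW, hWU⟩ := 𝓛.inter U hU V hV
  refine ⟨W, hW, fun w hw => ?_⟩
  ext a
  have h1 := hv w (hWU hw).2
  rw [rhoChi_apply, mul_one] at h1
  rw [dualRho_apply, h1, one_mul, hu w⁻¹ (U.inv_mem (hWU hw).1)]

theorem FinMod.dual [Fact p.Prime] {𝓛 : Lvl G} (hχ : Smooth 𝓛 (rhoChi χ)) (hA : FinMod p 𝓛 ρA) :
    FinMod p 𝓛 (dualRho χ ρA) :=
  ⟨by have := hA.fin; exact LA.finite_dual, nsmul_dual_eq_zero, smooth_dualRho hχ hA⟩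

/-- a functional killing `i(A)` factors through `j` -/
theorem SES.exists_factor_aux {i : A →+ B} {j : B →+ C} (S : SES ρA ρB ρC i j) {φ : B →+ ZMod p}
    (h0 : ∀ a, φ (i a) = 0) : ∃ ψ : C →+ ZMod p, ∀ b, ψ (j b) = φ b := by
  have hker : j.ker ≤ φ.ker := by
    intro b hb
    obtain ⟨a, rfl⟩ := (S.exact b).1 hb
    exact h0 a
  refine ⟨AddMonoidHom.liftOfRightInverse j (Function.surjInv S.surj)
    (Function.rightInverse_surjInv S.surj) ⟨φ, hker⟩, fun b => ?_⟩
  exact AddMonoidHom.liftOfRightInverse_comp_apply j _ _ ⟨φ, hker⟩ b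

/-- the dual of a short exact sequence -/
theorem SES.dual [Fact p.Prime] {i : A →+ B} {j : B →+ C} (S : SES ρA ρB ρC i j)
    (hB : ∀ b : B, p • b = 0) :
    SES (dualRho χ ρC) (dualRho χ ρB) (dualRho χ ρA) (dualMap p j) (dualMap p i) where
  hi := isHom_dualMap S.hj
  hj := isHom_dualMap S.hi
  inj := by
    intro φ ψ h
    ext c
    obtain ⟨b, rfl⟩ := S.surj c
    exact DFunLike.congr_fun h b
  surj := by
    intro l
    obtain ⟨m, hm⟩ := LA.exists_extend_of_injective hB i S.inj l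
    exact ⟨m, by ext a; exact hm a⟩
  exact := by
    intro φ
    constructor
    · intro h
      obtain ⟨ψ, hψ⟩ := S.exists_factor_aux (φ := φ) (fun a => DFunLike.congr_fun h a)
      exact ⟨ψ, by ext b; exact hψ b⟩
    · rintro ⟨ψ, rfl⟩
      ext a
      rw [dualMap_apply, dualMap_apply, S.comp_eq_zero, map_zero]
      rfl

/-- an equivariant functional killing `i(A)` factors equivariantly through `j` -/
theorem SES.exists_factor {i : A →+ B} {j : B →+ C} (S : SES ρA ρB ρC i j) {φ : B →+ ZMod p}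
    (hφ : IsHom ρB (rhoChi χ) φ) (h0 : ∀ a, φ (i a) = 0) :
    ∃ ψ : C →+ ZMod p, IsHom ρC (rhoChi χ) ψ ∧ ∀ b, ψ (j b) = φ b := by
  obtain ⟨ψ, hψ⟩ := S.exists_factor_aux h0
  refine ⟨ψ, fun g c => ?_, hψ⟩
  obtain ⟨b, rfl⟩ := S.surj c
  rw [← S.hj, hψ, hψ, hφ]

end Basic

section FnDual

variable {Sg : Type*} [Fintype Sg] (π : G →* Equiv.Perm Sg)

open Classical in
/-- `φ ↦ (s ↦ φ (δ_s))` -/
def dualToFn (Sg : Type*) (p : ℕ) : ((Sg → ZMod p) →+ ZMod p) →+ (Sg → ZMod p) where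
  toFun φ s := φ (Pi.single s 1)
  map_zero' := rfl
  map_add' _ _ := rfl

/-- `a ↦ (f ↦ ∑ s, a s * f s)` -/
def fnToDual (Sg : Type*) [Fintype Sg] (p : ℕ) : (Sg → ZMod p) →+ ((Sg → ZMod p) →+ ZMod p) where
  toFun a :=
    { toFun := fun f => ∑ s, a s * f s
      map_zero' := by simp
      map_add' := fun f g => by simp [mul_add, Finset.sum_add_distrib] }
  map_zero' := by ext; simp
  map_add' a b := by
    ext f
    simp [add_mul, Finset.sum_add_distrib]

open Classical in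
theorem dualToFn_apply (φ : (Sg → ZMod p) →+ ZMod p) (s : Sg) :
    dualToFn Sg p φ s = φ (Pi.single s 1) := rfl

theorem fnToDual_apply (a f : Sg → ZMod p) : fnToDual Sg p a f = ∑ s, a s * f s := rfl

open Classical in
theorem map_single_aux (φ : (Sg → ZMod p) →+ ZMod p) (s : Sg) (c : ZMod p) :
    φ (Pi.single s c) = c * φ (Pi.single s 1) := by
  have h1 : (Pi.single s c : Sg → ZMod p) = c • Pi.single s 1 := by
    rw [← Pi.single_smul, smul_eq_mul, mul_one]
  rw [h1, ZMod.map_smul, smul_eq_mul]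

theorem isHom_dualToFn :
    IsHom (dualRho χ (Fn π (rhoChi χ))) (Fn π (rhoTriv G (ZMod p))) (dualToFn Sg p) := by
  classical
  intro g φ
  funext s
  have h1 : Fn π (rhoChi χ) g⁻¹ (Pi.single s 1) =
      Pi.single ((π g)⁻¹ s) (((χ g⁻¹ : (ZMod p)ˣ) : ZMod p)) := by
    funext t
    rw [Fn_apply, rhoChi_apply, map_inv π, inv_inv]
    by_cases ht : t = (π g)⁻¹ s
    · subst ht
      simp
    · have ht' : π g t ≠ s := by
        intro h
        apply ht
        rw [← h]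
        simp
      rw [Pi.single_eq_of_ne ht, Pi.single_eq_of_ne ht', mul_zero]
  rw [dualToFn_apply, dualRho_apply, h1, map_single_aux, ← mul_assoc, ← Units.val_mul, ← map_mul,
    mul_inv_cancel, map_one, Units.val_one, one_mul, Fn_apply, dualToFn_apply]
  rfl

theorem isHom_fnToDual :
    IsHom (Fn π (rhoTriv G (ZMod p))) (dualRho χ (Fn π (rhoChi χ))) (fnToDual Sg p) := by
  intro g a
  refine AddMonoidHom.ext (fun f => ?_)
  rw [dualRho_apply, fnToDual_apply, fnToDual_apply, Finset.mul_sum]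
  refine Fintype.sum_equiv (π g)⁻¹ _ _ (fun s => ?_)
  rw [Fn_apply, Fn_apply, rhoChi_apply, map_inv π, inv_inv]
  have h1 : π g ((π g)⁻¹ s) = s := by simp
  rw [h1]
  change a ((π g)⁻¹ s) * f s = _
  have h2 : ((χ g : (ZMod p)ˣ) : ZMod p) * ((χ g⁻¹ : (ZMod p)ˣ) : ZMod p) = 1 := by
    rw [← Units.val_mul, ← map_mul, mul_inv_cancel, map_one, Units.val_one]
  calc a ((π g)⁻¹ s) * f s
      = (((χ g : (ZMod p)ˣ) : ZMod p) * ((χ g⁻¹ : (ZMod p)ˣ) : ZMod p)) * (a ((π g)⁻¹ s) * f s) := by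
        rw [h2, one_mul]
    _ = _ := by ring

theorem fnToDual_dualToFn (φ : (Sg → ZMod p) →+ ZMod p) :
    fnToDual Sg p (dualToFn Sg p φ) = φ := by
  classical
  refine AddMonoidHom.ext (fun f => ?_)
  rw [fnToDual_apply]
  conv_rhs => rw [← Finset.univ_sum_single f, map_sum]
  refine Finset.sum_congr rfl (fun s _ => ?_)
  rw [map_single_aux, dualToFn_apply, mul_comm]

/-- equivariant functionals on `Fn π T`, `π` transitive, are multiples of `eps` -/
theorem exists_eq_nsmul_eps [NeZero p] (hπ : IsTrans π) {φ : (Sg → ZMod p) →+ ZMod p}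
    (hφ : IsHom (Fn π (rhoChi χ)) (rhoChi χ) φ) : ∃ c : ℕ, φ = c • eps Sg (ZMod p) := by
  obtain ⟨⟨s₀⟩, htr⟩ := hπ
  have hinv : ∀ g, Fn π (rhoTriv G (ZMod p)) g (dualToFn Sg p φ) = dualToFn Sg p φ := by
    intro g
    rw [← isHom_dualToFn χ π, mem_H0_dualRho.2 hφ g]
  have hconst : ∀ s, dualToFn Sg p φ s = dualToFn Sg p φ s₀ := by
    intro s
    obtain ⟨g, hg⟩ := htr s₀ s
    have h1 := congrFun (hinv g) s
    rw [Fn_apply, ← hg] at h1
    have h2 : (π g)⁻¹ (π g s₀) = s₀ := by simp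
    rw [h2] at h1
    rw [← hg, ← h1]
    rfl
  refine ⟨(dualToFn Sg p φ s₀).val, ?_⟩
  refine AddMonoidHom.ext (fun f => ?_)
  conv_lhs => rw [← fnToDual_dualToFn φ]
  rw [fnToDual_apply, AddMonoidHom.nsmul_apply, eps_apply, nsmul_eq_mul, ZMod.natCast_zmod_val,
    Finset.mul_sum]
  exact Finset.sum_congr rfl (fun s _ => by rw [hconst s])

end FnDual

end Fermat.Agent.S55
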