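import Fermat.Agent.S55.Coh.FnBasic
import Fermat.Agent.S55.E.Abs

/-!
# S55 / A-EFF : effaceability of `H¹` and `H²` in `Fn(G/V, ·)`  (helper29)

* `f ∈ Z¹`, `b(sV) = - f(s)` satisfies `d⁰ b = η ∘ f`.
* `z ∈ Z²`, `b(g)(sV) = s z(s⁻¹, g)` satisfies `d¹ b = η ∘ z` (cocycle identity for `(s⁻¹, g, h)`).
-/

set_option autoImplicit false

noncomputable section

namespace Fermat.Agent.S55.Eff

open Fermat.Agent.S55

variable {G : Type*} [Group G] {𝓛 : Lvl G} {A : Type*} [AddCommGroup A]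
  {ρ : G →* AddMonoid.End A}

theorem cosetPerm_inv_mk (V : Subgroup G) (g t : G) :
    (cosetPerm V g)⁻¹ (t : G ⧸ V) = ((g⁻¹ * t : G) : G ⧸ V) := by
  rw [← map_inv]
  rfl

theorem out_eq_mul (V : Subgroup G) (t : G) : ∃ v ∈ V, (t : G ⧸ V).out = t * v := by
  obtain ⟨v, hv⟩ := QuotientGroup.mk_out_eq_mul V t
  exact ⟨v, v.2, hv⟩

theorem rho_mul_apply (g h : G) (a : A) : ρ (g * h) a = ρ g (ρ h a) := by
  rw [map_mul]; rfl

theorem rho_inv_apply (g : G) (a : A) : ρ g (ρ g⁻¹ a) = a := by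
  rw [← rho_mul_apply, mul_inv_cancel, map_one]
  rfl

/-- effaceability of `H¹` -/
theorem exists_eta_H1_eq_zero (x : H1 𝓛 ρ) :
    ∃ U ∈ 𝓛.sets, ∀ V : Subgroup G, V ≤ U → H1c 𝓛 (isHom_eta (cosetPerm V) ρ) x = 0 := by
  obtain ⟨f, rfl⟩ := H1.mk_surjective 𝓛 ρ x
  obtain ⟨⟨U, hU, hfU⟩, hf⟩ := f.2
  refine ⟨U, hU, fun V hV => ?_⟩
  rw [H1c, H1map_mk, H1.mk_eq_zero_iff]
  refine ⟨(Z1map (LvlMap.id 𝓛) (isHom_eta (cosetPerm V) ρ).along f).2.1,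
    fun s => - (f : G → A) s.out, ?_⟩
  have hb : ∀ t : G, (f : G → A) (t : G ⧸ V).out = (f : G → A) t := by
    intro t
    obtain ⟨v, hv, e⟩ := out_eq_mul V t
    rw [e, hfU t v (hV hv)]
  funext g s
  obtain ⟨t, rfl⟩ := QuotientGroup.mk_surjective s
  simp only [coe_Z1map, pp1_apply, MonoidHom.id_apply, eta_apply, d0_apply, Pi.sub_apply,
    Fn_apply, cosetPerm_inv_mk, hb, map_neg]
  have := hf g (g⁻¹ * t)
  rw [mul_inv_cancel_left] at this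
  rw [this]
  abel

/-- effaceability of `H²` -/
theorem exists_eta_H2_eq_zero (hρ : Smooth 𝓛 ρ) (x : H2 𝓛 ρ) :
    ∃ U ∈ 𝓛.sets, ∀ V : Subgroup G, V ≤ U → H2c 𝓛 (isHom_eta (cosetPerm V) ρ) x = 0 := by
  classical
  obtain ⟨z, rfl⟩ := H2.mk_surjective 𝓛 ρ x
  obtain ⟨⟨U0, hU0, hzU⟩, hz⟩ := z.2
  have hfin := 𝓛.fin U0 hU0
  have : Finite (G ⧸ U0) := Subgroup.finite_quotient_of_finiteIndex
  have := Fintype.ofFinite (G ⧸ U0)
  -- the finitely many values of `z`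
  let vals : Finset A := (Finset.univ : Finset ((G ⧸ U0) × (G ⧸ U0))).image
    fun c => (z : G → G → A) c.1.out c.2.out
  have hvals : ∀ g h, (z : G → G → A) g h ∈ vals := by
    intro g h
    refine Finset.mem_image.2 ⟨((g : G ⧸ U0), (h : G ⧸ U0)), Finset.mem_univ _, ?_⟩
    obtain ⟨u, hu, e⟩ := out_eq_mul U0 g
    obtain ⟨u', hu', e'⟩ := out_eq_mul U0 h
    simp only [e, e', hzU g h u hu u' hu']
  obtain ⟨U1, hU1, hfix⟩ := E.exists_level_finset hρ vals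
  obtain ⟨U2, hU2, hU2le⟩ := 𝓛.inter U0 hU0 U1 hU1
  obtain ⟨U, hU, hUle, hUn⟩ := 𝓛.normal U2 hU2
  refine ⟨U, hU, fun V hV => ?_⟩
  rw [H2c, H2map_mk, H2.mk_eq_zero_iff]
  let b : G → (G ⧸ V → A) := fun g s => ρ s.out ((z : G → G → A) s.out⁻¹ g)
  have hb : ∀ g t : G, b g (t : G ⧸ V) = ρ t ((z : G → G → A) t⁻¹ g) := by
    intro g t
    obtain ⟨v, hv, e⟩ := out_eq_mul V t
    have hvU : v ∈ U := hV hv
    have h1 : (t * v)⁻¹ = t⁻¹ * (t * v⁻¹ * t⁻¹) := by group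
    have h2 : t * v⁻¹ * t⁻¹ ∈ U0 :=
      (hU2le (hUle (hUn.conj_mem _ (U.inv_mem hvU) t))).1
    have h3 : (z : G → G → A) (t * v)⁻¹ g = (z : G → G → A) t⁻¹ g := by
      have := hzU t⁻¹ g _ h2 1 U0.one_mem
      rw [mul_one] at this
      rw [h1, this]
    show ρ (t : G ⧸ V).out ((z : G → G → A) (t : G ⧸ V).out⁻¹ g) = _
    rw [e, h3, rho_mul_apply, hfix v (hU2le (hUle hvU)).2 _ (hvals _ _)]
  refine ⟨b, ⟨U0, hU0, fun g u hu => ?_⟩, ?_⟩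
  · funext s
    have := hzU s.out⁻¹ g 1 U0.one_mem u hu
    rw [mul_one] at this
    show ρ s.out ((z : G → G → A) s.out⁻¹ (g * u)) = ρ s.out ((z : G → G → A) s.out⁻¹ g)
    rw [this]
  · funext g h s
    obtain ⟨t, rfl⟩ := QuotientGroup.mk_surjective s
    simp only [coe_Z2map, pp2_apply, MonoidHom.id_apply, eta_apply, d1_apply, Pi.sub_apply,
      Pi.add_apply, Fn_apply, cosetPerm_inv_mk, hb]
    have h1 := hz t⁻¹ g h
    have h2 : (g⁻¹ * t)⁻¹ = t⁻¹ * g := by group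
    have h3 : ρ g (ρ (g⁻¹ * t) ((z : G → G → A) (t⁻¹ * g) h)) =
        ρ t ((z : G → G → A) (t⁻¹ * g) h) := by
      rw [← rho_mul_apply, mul_inv_cancel_left]
    rw [h2, h3, ← map_sub, ← map_add]
    have h4 : (z : G → G → A) (t⁻¹ * g) h - (z : G → G → A) t⁻¹ (g * h) + (z : G → G → A) t⁻¹ g =
        ρ t⁻¹ ((z : G → G → A) g h) := by
      have : (z : G → G → A) (t⁻¹ * g) h = ρ t⁻¹ ((z : G → G → A) g h) +
          (z : G → G → A) t⁻¹ (g * h) - (z : G → G → A) t⁻¹ g := by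
        rw [← h1]; abel
      rw [this]; abel
    rw [h4, rho_inv_apply]

end Fermat.Agent.S55.Eff
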