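import Fermat.Agent.S55.A.Local
import Fermat.Agent.S55.Dual.Datum

/-!
# S55 / A4 : the global statements for all finite modules
(keys `S55/A-GLOB0` = section `Pairing`, `S55/A-GLOB1` = section `Base`, `S55/A-GLOB2` = section `All`)

`dat : Datum p 𝓛 χ D`.  `dat.loc v : LocDatum` at the place `v`.  A *family* is `z : ∀ v, H²(D_v, X)`, `FS z` : finite support.
`dat.gp ρ z φ = ∑ᶠ v, t_v (φ_* z_v)` for `φ ∈ H0 (dualRho χ ρ) = Hom_G(X, T)`.  `locAll ρ x = (res_v x)_v`.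

## GLOB0 : formal properties of `gp` (`finsum_add_distrib`, `finsum_eq_single`, `LocDatum.pair_H2c`, `res2_H2c`).
`recip'` : `t_v (φ_* res_v x) = t_v (res_v (φ_* x))` (`res2_H2c`), `dat.recip`.
## GLOB1 : from transitive `π` to all finite smooth `π` (orbit decomposition over `G`), then to retracts (`IsInd`)
* `fin_Fn`, `hasse_Fn` : `pullO`, `res2_H2c`, `H2_ext_orb` / `H2_orb_decomp`.
* `ex_Fn` : for each `G`-orbit `o` the family `(pull incl_o)_* y_v` has `∑ t_v (eps_* ·) = gp y (eps ∘ pull incl_o) = 0`; `dat.ex` gives `x_o`;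
  `x = ∑_o pushO x_o`.
* `*_ind` : `X --a--> Fn π T --b--> X`.
* `cs0` : reduce to transitive `Σ' → Σ` as in `LocDatum.cs0`.  Then `x_v = res_v x = (push u)_* y_v` (`(dat.loc v).cs0` for the restricted
  `D_v`-sets), `y_v = 0` if `x_v = 0` (`dat.fin`); `∑ t_v (eps_* y_v) = ∑ t_v (eps_* x_v) = ∑ t_v (res_v (eps_* x)) = 0` (`dat.recip`); `dat.ex`: `y`;
  `(push u)_* y - x` is locally trivial, `dat.hasse`.
## GLOB2
`P = Fn(G/U, X) --eps--> X`, `K = ker`.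
* `fin_all` : `x = eps_* w` (`re`), `fin_ind`.
* `exists_fam` : one place `v₀` suffices: `φ ↦ res_{v₀} φ` is injective, so the pairing `H²(D_{v₀}, X) × Hom_G(X,T) → 𝔽_p` has trivial right kernel
  (`LocDatum.nondeg`); `LA.exists_of_nondegenerate`; `z = Pi.single v₀ y`.
* `glob` (**G0'**) : `z_v = eps_* w_v` (`(dat.loc v).re`), `w_v = 0` if `z_v = 0`.  `λ = gp P w` kills `{φ ∘ eps}` = kernel of the restriction
  `R : Hom_G(P,T) → Hom_G(K,T)`; `λ = μ ∘ R` (`LA.exists_factor_through`); `μ = gp K u` (`exists_fam`); `w' = w - i_* u` is orthogonal to `Hom_G(P,T)`;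
  `ex_ind` : `w' = locAll w₀`; `x = eps_* w₀`.
-/

set_option autoImplicit false

noncomputable section

namespace Fermat.Agent.S55

variable {p : ℕ} [Fact p.Prime] {G : Type} [Group G] {𝓛 : Lvl G} {χ : G →* (ZMod p)ˣ}
  {Q : Type} {D : Q → Subgroup G}

/-- the local datum at `v` -/
def Datum.loc (dat : Datum p 𝓛 χ D) (v : Q) : LocDatum p (lv 𝓛 D v) (χ.comp (D v).subtype) :=
  ⟨dat.t v, dat.lb v⟩

/-- finite support -/
def FS {X : Type*} [AddCommGroup X] {ρ : G →* AddMonoid.End X}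
    (z : ∀ v, H2 (lv 𝓛 D v) (rv D ρ v)) : Prop := {v | z v ≠ 0}.Finite

/-- all localisations of a global class -/
def locAll (𝓛 : Lvl G) (D : Q → Subgroup G) {X : Type*} [AddCommGroup X]
    (ρ : G →* AddMonoid.End X) (x : H2 𝓛 ρ) : ∀ v, H2 (lv 𝓛 D v) (rv D ρ v) :=
  fun v => res2 𝓛 ρ (D v).subtype x

/-- a coefficient map applied to a family -/
def famMap {X Y : Type*} [AddCommGroup X] [AddCommGroup Y] {ρX : G →* AddMonoid.End X}
    {ρY : G →* AddMonoid.End Y} {u : X →+ Y} (hu : IsHom ρX ρY u)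
    (z : ∀ v, H2 (lv 𝓛 D v) (rv D ρX v)) : ∀ v, H2 (lv 𝓛 D v) (rv D ρY v) :=
  fun v => H2c (lv 𝓛 D v) (hu.res (D v).subtype) (z v)

section FSsec

variable {X Y : Type*} [AddCommGroup X] [AddCommGroup Y] {ρ : G →* AddMonoid.End X}
  {ρY : G →* AddMonoid.End Y}

theorem FS.add {z z' : ∀ v, H2 (lv 𝓛 D v) (rv D ρ v)} (h : FS z) (h' : FS z') : FS (z + z') := by
  refine (h.union h').subset (fun v hv => ?_)
  by_contra hn
  rw [Set.mem_union, not_or] at hn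
  apply hv
  have h1 : z v = 0 := by_contra hn.1
  have h2 : z' v = 0 := by_contra hn.2
  rw [Pi.add_apply, h1, h2, add_zero]

theorem FS.neg {z : ∀ v, H2 (lv 𝓛 D v) (rv D ρ v)} (h : FS z) : FS (-z) := by
  refine h.subset (fun v hv hz => hv ?_)
  rw [Pi.neg_apply, hz, neg_zero]

theorem FS.sub {z z' : ∀ v, H2 (lv 𝓛 D v) (rv D ρ v)} (h : FS z) (h' : FS z') : FS (z - z') := by
  rw [sub_eq_add_neg]
  exact h.add h'.neg

theorem FS.famMap {u : X →+ Y} (hu : IsHom ρ ρY u) {z : ∀ v, H2 (lv 𝓛 D v) (rv D ρ v)}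
    (h : FS z) : FS (famMap hu z) := by
  refine h.subset (fun v hv hz => hv ?_)
  rw [Fermat.Agent.S55.famMap, hz, map_zero]

open Classical in
theorem FS_single (v₀ : Q) (y : H2 (lv 𝓛 D v₀) (rv D ρ v₀)) :
    FS (ρ := ρ) (Pi.single v₀ y : ∀ v, H2 (lv 𝓛 D v) (rv D ρ v)) := by
  refine (Set.finite_singleton v₀).subset (fun v hv => ?_)
  by_contra hne
  apply hv
  rw [Pi.single_eq_of_ne hne]

end FSsec

variable (dat : Datum p 𝓛 χ D)

/-- the local term of the global pairing -/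
def Datum.lp {X : Type*} [AddCommGroup X] (ρ : G →* AddMonoid.End X) (v : Q) :
    H2 (lv 𝓛 D v) (rv D ρ v) →+ ↥(H0 (dualRho χ ρ)) →+ ZMod p :=
  AddMonoidHom.mk' (fun y => ((dat.loc v).pair (rv D ρ v) y).comp
      (res0 (dualRho χ ρ) (D v).subtype))
    (fun y y' => by
      ext φ
      simp)

/-- the global pairing `⨁_v H²(D_v, X) × Hom_G(X, T) → 𝔽_p` -/
def Datum.gp {X : Type*} [AddCommGroup X] (ρ : G →* AddMonoid.End X)
    (z : ∀ v, H2 (lv 𝓛 D v) (rv D ρ v)) (φ : ↥(H0 (dualRho χ ρ))) : ZMod p :=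
  ∑ᶠ v, dat.lp ρ v (z v) φ

namespace Datum

section Pairing

variable {X Y : Type*} [AddCommGroup X] [AddCommGroup Y] {ρ : G →* AddMonoid.End X}
  {ρY : G →* AddMonoid.End Y}

theorem lp_apply (v : Q) (y : H2 (lv 𝓛 D v) (rv D ρ v)) (φ : ↥(H0 (dualRho χ ρ))) :
    dat.lp ρ v y φ = dat.t v (H2c (lv 𝓛 D v) ((isHom_of_mem φ.2).res (D v).subtype) y) := rfl

theorem lp_H2c {u : X →+ Y} (hu : IsHom ρ ρY u) (v : Q) (y : H2 (lv 𝓛 D v) (rv D ρ v))
    (φ : ↥(H0 (dualRho χ ρY))) :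
    dat.lp ρY v (H2c (lv 𝓛 D v) (hu.res (D v).subtype) y) φ =
      dat.lp ρ v y (H0c (isHom_dualMap (χ := χ) hu) φ) := by
  rw [lp_apply, lp_apply]
  congr 1
  exact H2c_H2c _ _ _ _ (fun _ => rfl) y

theorem support_lp_finite {z : ∀ v, H2 (lv 𝓛 D v) (rv D ρ v)} (h : FS z)
    (φ : ↥(H0 (dualRho χ ρ))) : (Function.support fun v => dat.lp ρ v (z v) φ).Finite := by
  refine h.subset (fun v hv hz => hv ?_)
  change dat.lp ρ v (z v) φ = 0
  rw [hz, map_zero]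
  rfl

theorem gp_add {z z' : ∀ v, H2 (lv 𝓛 D v) (rv D ρ v)} (h : FS z) (h' : FS z')
    (φ : ↥(H0 (dualRho χ ρ))) : dat.gp ρ (z + z') φ = dat.gp ρ z φ + dat.gp ρ z' φ := by
  rw [gp, gp, gp, ← finsum_add_distrib (dat.support_lp_finite h φ) (dat.support_lp_finite h' φ)]
  refine finsum_congr (fun v => ?_)
  rw [Pi.add_apply, map_add]
  rfl

theorem gp_sub {z z' : ∀ v, H2 (lv 𝓛 D v) (rv D ρ v)} (h : FS z) (h' : FS z')
    (φ : ↥(H0 (dualRho χ ρ))) : dat.gp ρ (z - z') φ = dat.gp ρ z φ - dat.gp ρ z' φ := by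
  rw [gp, gp, gp, ← finsum_sub_distrib (dat.support_lp_finite h φ) (dat.support_lp_finite h' φ)]
  refine finsum_congr (fun v => ?_)
  rw [Pi.sub_apply, map_sub]
  rfl

theorem gp_add_right {z : ∀ v, H2 (lv 𝓛 D v) (rv D ρ v)} (h : FS z)
    (φ ψ : ↥(H0 (dualRho χ ρ))) : dat.gp ρ z (φ + ψ) = dat.gp ρ z φ + dat.gp ρ z ψ := by
  rw [gp, gp, gp, ← finsum_add_distrib (dat.support_lp_finite h φ) (dat.support_lp_finite h ψ)]
  refine finsum_congr (fun v => ?_)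
  rw [map_add]

/-- `gp ρ z` as a functional -/
def gpHom (ρ : G →* AddMonoid.End X) (z : ∀ v, H2 (lv 𝓛 D v) (rv D ρ v)) (h : FS z) :
    ↥(H0 (dualRho χ ρ)) →+ ZMod p :=
  AddMonoidHom.mk' (dat.gp ρ z) (dat.gp_add_right h)

theorem gp_famMap {u : X →+ Y} (hu : IsHom ρ ρY u) (z : ∀ v, H2 (lv 𝓛 D v) (rv D ρ v))
    (φ : ↥(H0 (dualRho χ ρY))) :
    dat.gp ρY (famMap hu z) φ = dat.gp ρ z (H0c (isHom_dualMap (χ := χ) hu) φ) := by
  rw [gp, gp]
  exact finsum_congr (fun v => dat.lp_H2c hu v (z v) φ)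

open Classical in
theorem gp_single (v₀ : Q) (y : H2 (lv 𝓛 D v₀) (rv D ρ v₀)) (φ : ↥(H0 (dualRho χ ρ))) :
    dat.gp ρ (Pi.single v₀ y) φ = dat.lp ρ v₀ y φ := by
  rw [gp, finsum_eq_single _ v₀, Pi.single_eq_same]
  intro v hv
  rw [Pi.single_eq_of_ne hv, map_zero]
  rfl

theorem locAll_H2c {u : X →+ Y} (hu : IsHom ρ ρY u) (x : H2 𝓛 ρ) :
    locAll 𝓛 D ρY (H2c 𝓛 hu x) = famMap hu (locAll 𝓛 D ρ x) :=
  funext fun v => res2_H2c 𝓛 (D v).subtype hu x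

/-- reciprocity for all modules -/
theorem recip' (x : H2 𝓛 ρ) (φ : ↥(H0 (dualRho χ ρ))) : dat.gp ρ (locAll 𝓛 D ρ x) φ = 0 := by
  rw [gp, ← dat.recip (H2c 𝓛 (isHom_of_mem φ.2) x)]
  refine finsum_congr (fun v => ?_)
  rw [lp_apply, res2_H2c]
  rfl

end Pairing

section Base

/-- the decomposition into `G`-orbits, on the cohomology of `D_v` -/
theorem decomp_res {Sg : Type} [Fintype Sg] (π : G →* Equiv.Perm Sg) (v : Q)
    (z : H2 (lv 𝓛 D v) (rv D (Fn π (rhoChi χ)) v)) :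
    ∑ o : Orb π, H2c (lv 𝓛 D v) ((isHom_push (rhoChi χ) (isSetMap_incl π o)).res (D v).subtype)
      (H2c (lv 𝓛 D v) ((isHom_pull (rhoChi χ) (isSetMap_incl π o)).res (D v).subtype) z) = z := by
  have h1 : ∀ o : Orb π, IsHom (rv D (Fn π (rhoChi χ)) v) (rv D (Fn π (rhoChi χ)) v)
      ((push (ZMod p) OrbPts.incl).comp (pull (ZMod p) (OrbPts.incl (o := o)))) := fun o =>
    ((isHom_push (rhoChi χ) (isSetMap_incl π o)).res (D v).subtype).comp
      ((isHom_pull (rhoChi χ) (isSetMap_incl π o)).res (D v).subtype)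
  have h2 : ∀ o : Orb π,
      H2c (lv 𝓛 D v) ((isHom_push (rhoChi χ) (isSetMap_incl π o)).res (D v).subtype)
      (H2c (lv 𝓛 D v) ((isHom_pull (rhoChi χ) (isSetMap_incl π o)).res (D v).subtype) z) =
        H2c (lv 𝓛 D v) (h1 o) z := fun o => (H2c_comp _ _ _ z).symm
  simp only [h2]
  rw [← H2c_sum (lv 𝓛 D v) Finset.univ h1 z]
  apply H2c_of_id
  intro f
  rw [AddMonoidHom.finsetSum_apply]
  exact sum_push_pull_orb π f

include dat in
theorem fin_Fn {Sg : Type} [Fintype Sg] {π : G →* Equiv.Perm Sg} (hπ : SmoothSet π 𝓛)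
    (x : H2 𝓛 (Fn π (rhoChi χ))) : FS (locAll 𝓛 D _ x) := by
  refine (Set.finite_iUnion fun o : Orb π => dat.fin (orbPerm π o) (smoothSet_orbPerm π hπ o)
    (isTrans_orbPerm π o) (H2pullO π 𝓛 (rhoChi χ) o x)).subset ?_
  intro v hv
  by_contra hcon
  apply hv
  have h0 : ∀ o : Orb π, H2c (lv 𝓛 D v)
      ((isHom_pull (rhoChi χ) (isSetMap_incl π o)).res (D v).subtype) (locAll 𝓛 D _ x v) = 0 := by
    intro o
    by_contra ho
    apply hcon
    rw [Set.mem_iUnion]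
    refine ⟨o, ?_⟩
    change res2 𝓛 _ (D v).subtype (H2pullO π 𝓛 (rhoChi χ) o x) ≠ 0
    rw [H2pullO, res2_H2c]
    exact ho
  rw [← decomp_res π v (locAll 𝓛 D _ x v)]
  exact Finset.sum_eq_zero fun o _ => by rw [h0 o, map_zero]

include dat in
theorem hasse_Fn {Sg : Type} [Fintype Sg] {π : G →* Equiv.Perm Sg} (hπ : SmoothSet π 𝓛)
    (x : H2 𝓛 (Fn π (rhoChi χ))) (h : locAll 𝓛 D _ x = 0) : x = 0 := by
  apply H2_ext_orb π 𝓛 _
  intro o
  apply dat.hasse (orbPerm π o) (smoothSet_orbPerm π hπ o) (isTrans_orbPerm π o)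
  intro v
  have h1 : res2 𝓛 (Fn π (rhoChi χ)) (D v).subtype x = 0 := congrFun h v
  rw [H2pullO, res2_H2c, h1, map_zero]

theorem ex_Fn {Sg : Type} [Fintype Sg] {π : G →* Equiv.Perm Sg} (hπ : SmoothSet π 𝓛)
    (y : ∀ v, H2 (lv 𝓛 D v) (rv D (Fn π (rhoChi χ)) v)) (hy : FS y)
    (h : ∀ φ, dat.gp _ y φ = 0) : ∃ x, locAll 𝓛 D _ x = y := by
  have key : ∀ o : Orb π, ∃ xo : H2 𝓛 (Fn (orbPerm π o) (rhoChi χ)), ∀ v,
      res2 𝓛 (Fn (orbPerm π o) (rhoChi χ)) (D v).subtype xo =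
        H2c (lv 𝓛 D v) ((isHom_pull (rhoChi χ) (isSetMap_incl π o)).res (D v).subtype) (y v) := by
    intro o
    apply dat.ex (orbPerm π o) (smoothSet_orbPerm π hπ o) (isTrans_orbPerm π o)
    · refine hy.subset fun v hv h0 => hv ?_
      change H2c (lv 𝓛 D v) _ (y v) = 0
      rw [h0, map_zero]
    · have hφ : IsHom (Fn π (rhoChi χ)) (rhoChi χ)
          ((eps (OrbPts π o) (ZMod p)).comp (pull (ZMod p) OrbPts.incl)) :=
        (isHom_eps (orbPerm π o) (rhoChi χ)).comp (isHom_pull (rhoChi χ) (isSetMap_incl π o))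
      rw [← h ⟨_, mem_H0_dualRho.2 hφ⟩]
      refine finsum_congr fun v => ?_
      rw [lp_apply]
      congr 1
      exact H2c_H2c _ _ _ _ (fun _ => rfl) _
  choose xo hxo using key
  refine ⟨∑ o, H2pushO π 𝓛 (rhoChi χ) o (xo o), funext fun v => ?_⟩
  change res2 𝓛 _ (D v).subtype _ = y v
  rw [map_sum, ← decomp_res π v (y v)]
  refine Finset.sum_congr rfl fun o _ => ?_
  rw [H2pushO, res2_H2c, hxo]

include dat in
theorem fin_ind {X : Type} [AddCommGroup X] {ρ : G →* AddMonoid.End X} (hX : IsInd 𝓛 χ ρ)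
    (x : H2 𝓛 ρ) : FS (locAll 𝓛 D ρ x) := by
  obtain ⟨Sg, _, π, a, b, hπ, ha, hb, hab⟩ := hX
  refine (dat.fin_Fn hπ (H2c 𝓛 ha x)).subset fun v hv h0 => hv ?_
  have h1 : H2c (lv 𝓛 D v) (ha.res (D v).subtype) (locAll 𝓛 D ρ x v) = 0 := by
    rw [← h0]
    exact (res2_H2c 𝓛 (D v).subtype ha x).symm
  rw [← H2c_retract (lv 𝓛 D v) (ha.res (D v).subtype) (hb.res (D v).subtype) hab
    (locAll 𝓛 D ρ x v), h1, map_zero]

include dat in
/-- **Hasse principle for induced modules** -/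
theorem hasse_ind {X : Type} [AddCommGroup X] {ρ : G →* AddMonoid.End X} (hX : IsInd 𝓛 χ ρ)
    (x : H2 𝓛 ρ) (h : locAll 𝓛 D ρ x = 0) : x = 0 := by
  obtain ⟨Sg, _, π, a, b, hπ, ha, hb, hab⟩ := hX
  rw [← H2c_retract 𝓛 ha hb hab x]
  have h1 : H2c 𝓛 ha x = 0 := by
    apply dat.hasse_Fn hπ
    rw [locAll_H2c, h]
    funext v
    exact map_zero _
  rw [h1, map_zero]

theorem ex_ind {X : Type} [AddCommGroup X] {ρ : G →* AddMonoid.End X} (hX : IsInd 𝓛 χ ρ)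
    (y : ∀ v, H2 (lv 𝓛 D v) (rv D ρ v)) (hy : FS y) (h : ∀ φ, dat.gp ρ y φ = 0) :
    ∃ x, locAll 𝓛 D ρ x = y := by
  obtain ⟨Sg, _, π, a, b, hπ, ha, hb, hab⟩ := hX
  obtain ⟨w, hw⟩ := dat.ex_Fn hπ (famMap ha y) (hy.famMap ha) (fun φ => by
    rw [gp_famMap]; exact h _)
  refine ⟨H2c 𝓛 hb w, ?_⟩
  rw [locAll_H2c, hw]
  funext v
  exact H2c_retract (lv 𝓛 D v) (ha.res (D v).subtype) (hb.res (D v).subtype) hab (y v)

include dat in
theorem push_surjective_trans {Sg Sg' : Type} [Fintype Sg] [Fintype Sg'] {π : G →* Equiv.Perm Sg}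
    {π' : G →* Equiv.Perm Sg'} (hπ : SmoothSet π 𝓛) (hπ' : SmoothSet π' 𝓛) (ht : IsTrans π)
    (ht' : IsTrans π') {u : Sg' → Sg} (hu : IsSetMap π π' u) :
    Function.Surjective (H2c 𝓛 (isHom_push (rhoChi χ) hu)) := by
  classical
  intro x
  have hsurj : Function.Surjective u := by
    intro s
    obtain ⟨s'⟩ := ht'.1
    obtain ⟨g, hg⟩ := ht.2 (u s') s
    exact ⟨π' g s', by rw [hu, hg]⟩
  have hloc : ∀ v, ∃ yv : H2 (lv 𝓛 D v) (rv D (Fn π' (rhoChi χ)) v),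
      H2c (lv 𝓛 D v) ((isHom_push (rhoChi χ) hu).res (D v).subtype) yv =
        res2 𝓛 (Fn π (rhoChi χ)) (D v).subtype x := fun v =>
    (dat.loc v).cs0 Sg Sg' (π.comp (D v).subtype) (π'.comp (D v).subtype) u
      (fun g s => hu g s) (hπ.res 𝓛 _) (hπ'.res 𝓛 _) hsurj _
  choose y₀ hy₀ using hloc
  let y : ∀ v, H2 (lv 𝓛 D v) (rv D (Fn π' (rhoChi χ)) v) := fun v =>
    if res2 𝓛 (Fn π (rhoChi χ)) (D v).subtype x = 0 then 0 else y₀ v
  have hy : ∀ v, H2c (lv 𝓛 D v) ((isHom_push (rhoChi χ) hu).res (D v).subtype) (y v) =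
      res2 𝓛 (Fn π (rhoChi χ)) (D v).subtype x := by
    intro v
    by_cases h0 : res2 𝓛 (Fn π (rhoChi χ)) (D v).subtype x = 0
    · simp only [y, if_pos h0, map_zero]
      exact h0.symm
    · simp only [y, if_neg h0, hy₀]
  have hfs : {v | y v ≠ 0}.Finite := by
    refine (dat.fin π hπ ht x).subset fun v hv h0 => hv ?_
    simp only [y, if_pos h0]
  obtain ⟨w, hw⟩ := dat.ex π' hπ' ht' y hfs (by
    rw [← dat.recip (H2c 𝓛 (isHom_eps π (rhoChi χ)) x)]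
    refine finsum_congr fun v => ?_
    rw [res2_H2c, ← hy v]
    congr 1
    exact (H2c_H2c _ _ _ _ (fun f => eps_push u f) _).symm)
  refine ⟨w, ?_⟩
  rw [← sub_eq_zero]
  apply dat.hasse π hπ ht
  intro v
  rw [map_sub, res2_H2c, hw, hy, sub_self]

include dat in
theorem cs0 : CS0 p 𝓛 χ := by
  intro Sg Sg' _ _ π π' u hu hπ hπ' hsurj x
  have key : ∀ o : Orb π, ∃ w : H2 𝓛 (Fn π' (rhoChi χ)),
      H2c 𝓛 (isHom_push (rhoChi χ) hu) w =
        H2pushO π 𝓛 (rhoChi χ) o (H2pullO π 𝓛 (rhoChi χ) o x) := by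
    intro o
    obtain ⟨s, rfl⟩ := orbOf_surjective π o
    obtain ⟨s', rfl⟩ := hsurj s
    obtain ⟨x', hx'⟩ := dat.push_surjective_trans (smoothSet_orbPerm π hπ _)
      (smoothSet_orbPerm π' hπ' _) (isTrans_orbPerm π _) (isTrans_orbPerm π' _)
      (isSetMap_orbMap hu s') (H2pullO π 𝓛 (rhoChi χ) _ x)
    refine ⟨H2pushO π' 𝓛 (rhoChi χ) _ x', ?_⟩
    rw [← hx']
    have hset : IsSetMap π (orbPerm π' (orbOf π' s')) (u ∘ OrbPts.incl) :=
      fun g y => hu g y.incl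
    rw [H2pushO, H2pushO, H2c_H2c 𝓛 _ _ (isHom_push (rhoChi χ) hset)
      (fun f => push_comp u OrbPts.incl f),
      H2c_H2c 𝓛 _ _ (isHom_push (rhoChi χ) hset)
      (fun f => push_comp OrbPts.incl (orbMap hu s') f)]
  choose w hw using key
  refine ⟨∑ o, w o, ?_⟩
  rw [map_sum]
  simp only [hw]
  exact H2_orb_decomp π 𝓛 _ x

end Base

section All

variable (hχ : Smooth 𝓛 (rhoChi χ))
include hχ

include dat in
/-- global right exactness -/
theorem re {X : Type} [AddCommGroup X] {ρ : G →* AddMonoid.End X} (hX : FinMod p 𝓛 ρ) :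
    RE p 𝓛 ρ := RE_of_CS0 hχ (cs0 dat) hX

include dat in
theorem fin_all {X : Type} [AddCommGroup X] {ρ : G →* AddMonoid.End X} (hX : FinMod p 𝓛 ρ)
    (x : H2 𝓛 ρ) : FS (locAll 𝓛 D ρ x) := by
  classical
  obtain ⟨U, hU, -, h1, h2⟩ := exists_trivOn hχ hX
  have := 𝓛.fin U hU
  have : Fintype (G ⧸ U) := Fintype.ofFinite _
  have hs : Function.Surjective (eps (G ⧸ U) X) := fun a =>
    ⟨Pi.single ((1 : G) : G ⧸ U) a, by simp⟩
  obtain ⟨w, rfl⟩ := dat.re hχ hX _ _ (hX.fn (smoothSet_cosetPerm hU)) _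
    (isHom_eps (cosetPerm U) ρ) hs x
  rw [locAll_H2c]
  exact (dat.fin_ind (isInd_Fn_coset hX hU h1 h2) w).famMap _

/-- every functional on `Hom_G(X, T)` is given by a family -/
theorem exists_fam [Nonempty Q] {X : Type} [AddCommGroup X] {ρ : G →* AddMonoid.End X}
    (hX : FinMod p 𝓛 ρ) (m : ↥(H0 (dualRho χ ρ)) →+ ZMod p) :
    ∃ z : ∀ v, H2 (lv 𝓛 D v) (rv D ρ v), FS z ∧ ∀ φ, dat.gp ρ z φ = m φ := by
  classical
  obtain ⟨v₀⟩ := ‹Nonempty Q›
  have hfin : Finite ↥(H0 (dualRho χ ρ)) := by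
    have := hX.fin
    have : Finite (X →+ ZMod p) := LA.finite_dual
    infer_instance
  have hV : ∀ φ : ↥(H0 (dualRho χ ρ)), p • φ = 0 := fun φ =>
    Subtype.ext (nsmul_dual_eq_zero φ.1)
  obtain ⟨y, hy⟩ := LA.exists_of_nondegenerate hV (dat.lp ρ v₀) (fun φ h => by
    have h1 := (dat.loc v₀).nondeg (hχ.res 𝓛 _) (hX.res _)
      (res0 (dualRho χ ρ) (D v₀).subtype φ) (fun y => h y)
    have h2 : (φ : X →+ ZMod p) = 0 := congrArg Subtype.val h1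
    exact Subtype.ext h2) m
  exact ⟨Pi.single v₀ y, FS_single v₀ y, fun φ => by rw [gp_single, hy]⟩

/-- **G0'** : a family orthogonal to `Hom_G(X, T)` is global -/
theorem glob [Nonempty Q] {X : Type} [AddCommGroup X] {ρ : G →* AddMonoid.End X}
    (hX : FinMod p 𝓛 ρ) (z : ∀ v, H2 (lv 𝓛 D v) (rv D ρ v)) (hz : FS z)
    (h : ∀ φ, dat.gp ρ z φ = 0) : ∃ x, locAll 𝓛 D ρ x = z := by
  classical
  obtain ⟨U, hU, -, h1, h2⟩ := exists_trivOn hχ hX
  have := 𝓛.fin U hU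
  have : Fintype (G ⧸ U) := Fintype.ofFinite _
  have hs : Function.Surjective (eps (G ⧸ U) X) := fun a =>
    ⟨Pi.single ((1 : G) : G ⧸ U) a, by simp⟩
  have hP : FinMod p 𝓛 (Fn (cosetPerm U) ρ) := hX.fn (smoothSet_cosetPerm hU)
  have hInd : IsInd 𝓛 χ (Fn (cosetPerm U) ρ) := isInd_Fn_coset hX hU h1 h2
  have S := ses_ker (isHom_eps (cosetPerm U) ρ) hs
  have hK := S.finModA hP
  have hloc : ∀ v, ∃ w : H2 (lv 𝓛 D v) (rv D (Fn (cosetPerm U) ρ) v),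
      H2c (lv 𝓛 D v) (S.hj.res (D v).subtype) w = z v := fun v =>
    (dat.loc v).re (hχ.res 𝓛 _) (hX.res _) _ _ (hP.res _) _ (S.hj.res (D v).subtype) hs (z v)
  choose w₀ hw₀ using hloc
  let w : ∀ v, H2 (lv 𝓛 D v) (rv D (Fn (cosetPerm U) ρ) v) := fun v =>
    if z v = 0 then 0 else w₀ v
  have hw : famMap S.hj w = z := by
    funext v
    change H2c (lv 𝓛 D v) (S.hj.res (D v).subtype) (w v) = z v
    by_cases h0 : z v = 0
    · simp only [w, if_pos h0, map_zero]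
      exact h0.symm
    · simp only [w, if_neg h0, hw₀]
  have hwfs : FS w := by
    refine hz.subset fun v hv h0 => hv ?_
    simp only [w, if_pos h0]
  have hker : ∀ φ, H0c (isHom_dualMap (χ := χ) S.hi) φ = 0 → dat.gpHom _ w hwfs φ = 0 := by
    intro φ hφ
    obtain ⟨ψ, hψ, hψe⟩ := S.exists_factor (isHom_of_mem φ.2) (fun a => by
      have := congrArg (fun f : ↥(H0 (dualRho χ _)) => f.1 a) hφ
      exact this)
    have h3 : φ = H0c (isHom_dualMap (χ := χ) S.hj) ⟨ψ, mem_H0_dualRho.2 hψ⟩ :=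
      Subtype.ext (AddMonoidHom.ext fun b => (hψe b).symm)
    change dat.gp _ w φ = 0
    rw [h3, ← gp_famMap dat S.hj, hw]
    exact h _
  obtain ⟨μ, hμ⟩ := LA.exists_factor_through
    (fun φ => Subtype.ext (nsmul_dual_eq_zero φ.1)) _ _ hker
  obtain ⟨u, hufs, hu⟩ := dat.exists_fam hχ hK μ
  obtain ⟨w₁, hw₁⟩ := dat.ex_ind hInd (w - famMap S.hi u) (hwfs.sub (hufs.famMap _)) (fun φ => by
    rw [gp_sub _ hwfs (hufs.famMap _), gp_famMap, hu, hμ]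
    exact sub_self _)
  refine ⟨H2c 𝓛 S.hj w₁, ?_⟩
  rw [locAll_H2c, hw₁]
  funext v
  change H2c (lv 𝓛 D v) (S.hj.res (D v).subtype)
    (w v - H2c (lv 𝓛 D v) (S.hi.res (D v).subtype) (u v)) = z v
  rw [map_sub, H2c_H2c _ _ _ (IsHom.zero _ _) (fun a => S.comp_eq_zero a), H2c_zero, sub_zero]
  exact congrFun hw v

end All

end Datum

end Fermat.Agent.S55
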