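import Mathlib

/-!
# S55 / A : linear algebra over `𝔽_p` in the language of additive groups killed by `p`
(key `S55/A-LA`, Mathlib only)

All groups `V` are additive commutative groups with `hV : ∀ v, p • v = 0`; functionals are `V →+ ZMod p`.
Recipe: `letI := AddCommGroup.zmodModule hV` makes `V` a `ZMod p`-vector space, additive maps are linear
(`AddMonoidHom.toZModLinearMap`), then use `Submodule.exists_isCompl`, `LinearMap.exists_extend`,
`Module.Dual`, `Subspace.dualAnnihilator…`, `Subspace.dual_finrank_eq`, `Module.card_eq_pow_finrank`.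
-/

set_option autoImplicit false

namespace Fermat.Agent.S55.LA

variable {p : ℕ} [Fact p.Prime]

/-- (LA1') functionals extend along injective maps -/
theorem exists_extend_of_injective {V W : Type*} [AddCommGroup V] [AddCommGroup W]
    (hV : ∀ v : V, p • v = 0) (i : W →+ V) (hi : Function.Injective i) (l : W →+ ZMod p) :
    ∃ m : V →+ ZMod p, ∀ w : W, m (i w) = l w := by
  have hW : ∀ w : W, p • w = 0 := fun w => hi (by rw [map_nsmul, hV, map_zero])
  obtain ⟨_⟩ : Nonempty (Module (ZMod p) V) := ⟨AddCommGroup.zmodModule hV⟩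
  obtain ⟨_⟩ : Nonempty (Module (ZMod p) W) := ⟨AddCommGroup.zmodModule hW⟩
  obtain ⟨g, hg⟩ := LinearMap.exists_leftInverse_of_injective (i.toZModLinearMap p)
    (LinearMap.ker_eq_bot.2 hi)
  refine ⟨l.comp g.toAddMonoidHom, fun w => ?_⟩
  have := LinearMap.congr_fun hg w
  simp only [LinearMap.comp_apply, AddMonoidHom.coe_toZModLinearMap, LinearMap.id_apply] at this
  simp [this]

/-- (LA1) functionals extend -/
theorem exists_extend {V : Type*} [AddCommGroup V] (hV : ∀ v : V, p • v = 0) (W : AddSubgroup V)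
    (l : W →+ ZMod p) : ∃ m : V →+ ZMod p, ∀ w : W, m w = l w :=
  exists_extend_of_injective hV W.subtype W.subtype_injective l

/-- functionals separate points from subgroups -/
theorem exists_separating {V : Type*} [AddCommGroup V] (hV : ∀ v : V, p • v = 0)
    (W : AddSubgroup V) {v : V} (hv : v ∉ W) :
    ∃ m : V →+ ZMod p, (∀ w ∈ W, m w = 0) ∧ m v ≠ 0 := by
  have hQ : ∀ x : V ⧸ W, p • x = 0 := by
    intro x
    obtain ⟨x, rfl⟩ := QuotientAddGroup.mk_surjective x
    rw [← QuotientAddGroup.mk_nsmul, hV, QuotientAddGroup.mk_zero]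
  obtain ⟨_⟩ : Nonempty (Module (ZMod p) (V ⧸ W)) := ⟨AddCommGroup.zmodModule hQ⟩
  have hne : (QuotientAddGroup.mk v : V ⧸ W) ≠ 0 := by
    rwa [Ne, QuotientAddGroup.eq_zero_iff]
  have h := (Module.forall_dual_apply_eq_zero_iff (ZMod p) (QuotientAddGroup.mk v : V ⧸ W)).not.2 hne
  obtain ⟨φ, hφ⟩ := not_forall.1 h
  refine ⟨φ.toAddMonoidHom.comp (QuotientAddGroup.mk' W), fun w hw => ?_, hφ⟩
  have : (QuotientAddGroup.mk' W) w = 0 := (QuotientAddGroup.eq_zero_iff w).2 hw
  rw [AddMonoidHom.comp_apply, this, map_zero]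

/-- surjections of groups killed by `p` split -/
theorem exists_section {V W : Type*} [AddCommGroup V] [AddCommGroup W]
    (hV : ∀ v : V, p • v = 0) (hW : ∀ w : W, p • w = 0) (j : V →+ W) (hj : Function.Surjective j) :
    ∃ s : W →+ V, ∀ w, j (s w) = w := by
  obtain ⟨_⟩ : Nonempty (Module (ZMod p) V) := ⟨AddCommGroup.zmodModule hV⟩
  obtain ⟨_⟩ : Nonempty (Module (ZMod p) W) := ⟨AddCommGroup.zmodModule hW⟩
  obtain ⟨g, hg⟩ := LinearMap.exists_rightInverse_of_surjective (j.toZModLinearMap p)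
    (LinearMap.range_eq_top.2 hj)
  exact ⟨g.toAddMonoidHom, fun w => LinearMap.congr_fun hg w⟩

/-- a finite group killed by `p` is `(ZMod p)^n` -/
theorem exists_equiv_fun {V : Type*} [AddCommGroup V] [Finite V] (hV : ∀ v : V, p • v = 0) :
    ∃ n : ℕ, Nonempty (V ≃+ (Fin n → ZMod p)) := by
  obtain ⟨_⟩ : Nonempty (Module (ZMod p) V) := ⟨AddCommGroup.zmodModule hV⟩
  exact ⟨_, ⟨(Module.finBasis (ZMod p) V).equivFun.toAddEquiv⟩⟩

/-- (LA3) the dual has the same cardinality -/
theorem card_dual {V : Type*} [AddCommGroup V] [Finite V] (hV : ∀ v : V, p • v = 0) :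
    Nat.card (V →+ ZMod p) = Nat.card V := by
  obtain ⟨_⟩ : Nonempty (Module (ZMod p) V) := ⟨AddCommGroup.zmodModule hV⟩
  rw [Nat.card_congr (AddMonoidHom.toZModLinearMapEquiv p (M := V) (M₁ := ZMod p)).toEquiv]
  show Nat.card (Module.Dual (ZMod p) V) = _
  rw [Module.natCard_eq_pow_finrank (K := ZMod p) (V := Module.Dual (ZMod p) V),
    Module.natCard_eq_pow_finrank (K := ZMod p) (V := V), Subspace.dual_finrank_eq]

instance finite_dual {V : Type*} [AddCommGroup V] [Finite V] : Finite (V →+ ZMod p) :=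
  Finite.of_injective (fun f : V →+ ZMod p => (f : V → ZMod p)) DFunLike.coe_injective

theorem nsmul_dual {V : Type*} [AddCommGroup V] (f : V →+ ZMod p) : p • f = 0 := by
  ext v
  simp

/-- every functional on the dual is an evaluation -/
theorem exists_eval {V : Type*} [AddCommGroup V] [Finite V] (hV : ∀ v : V, p • v = 0)
    (m : (V →+ ZMod p) →+ ZMod p) : ∃ v : V, ∀ f, m f = f v := by
  let ev : V →+ ((V →+ ZMod p) →+ ZMod p) := (AddMonoidHom.id (V →+ ZMod p)).flip
  have hinj : Function.Injective ev := by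
    rw [injective_iff_map_eq_zero]
    intro v hv
    by_contra hne
    obtain ⟨f, -, hf⟩ := exists_separating hV ⊥ (v := v) (by simpa using hne)
    exact hf (DFunLike.congr_fun hv f)
  have hcard : Nat.card V = Nat.card ((V →+ ZMod p) →+ ZMod p) := by
    rw [card_dual (nsmul_dual), card_dual hV]
  have hsurj := ((Nat.bijective_iff_injective_and_card ev).2 ⟨hinj, hcard⟩).2
  obtain ⟨v, hv⟩ := hsurj m
  exact ⟨v, fun f => by rw [← hv]; rfl⟩

/-- (LA2) double annihilator -/
theorem mem_of_annihilator {V : Type*} [AddCommGroup V] [Finite V] (hV : ∀ v : V, p • v = 0)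
    (F : AddSubgroup (V →+ ZMod p)) (l : V →+ ZMod p)
    (h : ∀ v, (∀ f ∈ F, f v = 0) → l v = 0) : l ∈ F := by
  by_contra hl
  obtain ⟨m, hm0, hml⟩ := exists_separating nsmul_dual F hl
  obtain ⟨v, hv⟩ := exists_eval hV m
  exact hml (by rw [hv]; exact h v fun f hf => by rw [← hv]; exact hm0 f hf)

/-- (LA2') a pairing with trivial right kernel induces a surjection onto the dual -/
theorem exists_of_nondegenerate {Y V : Type*} [AddCommGroup Y] [AddCommGroup V] [Finite V]
    (hV : ∀ v : V, p • v = 0) (B : Y →+ V →+ ZMod p) (h : ∀ v, (∀ y, B y v = 0) → v = 0)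
    (l : V →+ ZMod p) : ∃ y, B y = l := by
  have := mem_of_annihilator hV B.range l (fun v hv => by
    rw [h v fun y => hv _ ⟨y, rfl⟩, map_zero])
  exact this

/-- (LA5) the counting lemma behind every perfect pairing: `S2 = Y / (left kernel)`,
`S1 = V / (right kernel)` -/
theorem card_eq_of_pairing {Y V S2 S1 : Type*} [AddCommGroup Y] [AddCommGroup V] [AddCommGroup S2]
    [AddCommGroup S1] [Finite V] (hV : ∀ v : V, p • v = 0) (B : Y →+ V →+ ZMod p)
    (f : Y →+ S2) (hf : Function.Surjective f) (hfk : ∀ y, f y = 0 ↔ B y = 0)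
    (g : V →+ S1) (hg : Function.Surjective g) (hgk : ∀ v, g v = 0 ↔ ∀ y, B y v = 0) :
    Finite S2 ∧ Finite S1 ∧ Nat.card S2 = Nat.card S1 := by
  have hS1 : Finite S1 := Finite.of_surjective g hg
  have hS1p : ∀ s : S1, p • s = 0 := by
    intro s
    obtain ⟨v, rfl⟩ := hg s
    rw [← map_nsmul, hV, map_zero]
  -- the induced map `S2 → dual of S1`
  have hex : ∀ y : Y, ∃ l : S1 →+ ZMod p, ∀ v, l (g v) = B y v := by
    intro y
    have hker : g.ker ≤ (B y).ker := fun v hv => (hgk v).1 hv y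
    refine ⟨(QuotientAddGroup.lift g.ker (B y) hker).comp
      (QuotientAddGroup.quotientKerEquivOfSurjective g hg).symm.toAddMonoidHom, fun v => ?_⟩
    have : (QuotientAddGroup.quotientKerEquivOfSurjective g hg).symm (g v) =
        (QuotientAddGroup.mk v : V ⧸ g.ker) := by
      rw [AddEquiv.symm_apply_eq]; rfl
    simp only [AddMonoidHom.comp_apply, AddEquiv.toAddMonoidHom_eq_coe, AddMonoidHom.coe_coe, this]
    rfl
  choose Φ hΦ using hex
  have hΦext : ∀ {l l' : S1 →+ ZMod p}, (∀ v, l (g v) = l' (g v)) → l = l' := by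
    intro l l' h
    ext s
    obtain ⟨v, rfl⟩ := hg s
    exact h v
  let Ψ : Y →+ (S1 →+ ZMod p) :=
    { toFun := Φ
      map_zero' := hΦext fun v => by rw [hΦ, map_zero]; rfl
      map_add' := fun y y' => hΦext fun v => by
        rw [hΦ, map_add, AddMonoidHom.add_apply, AddMonoidHom.add_apply, hΦ, hΦ] }
  have hΨ : ∀ y v, Ψ y (g v) = B y v := hΦ
  have hΨsurj : Function.Surjective Ψ := by
    intro l
    refine exists_of_nondegenerate hS1p Ψ (fun s hs => ?_) l
    obtain ⟨v, rfl⟩ := hg s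
    exact (hgk v).2 fun y => by rw [← hΨ]; exact hs y
  have hΨker : ∀ y, Ψ y = 0 ↔ f y = 0 := by
    intro y
    rw [hfk]
    constructor
    · intro h
      ext v
      rw [← hΨ, h]; rfl
    · intro h
      exact hΦext fun v => by rw [hΨ, h]; rfl
  -- `S2 ≃ dual of S1`
  have hker : f.ker = Ψ.ker := by
    ext y
    rw [AddMonoidHom.mem_ker, AddMonoidHom.mem_ker, hΨker]
  let e : S2 ≃+ (S1 →+ ZMod p) :=
    (QuotientAddGroup.quotientKerEquivOfSurjective f hf).symm.trans
      ((QuotientAddGroup.quotientAddEquivOfEq hker).trans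
        (QuotientAddGroup.quotientKerEquivOfSurjective Ψ hΨsurj))
  refine ⟨Finite.of_equiv _ e.symm.toEquiv, hS1, ?_⟩
  rw [Nat.card_congr e.toEquiv, card_dual hS1p]

/-- a nontrivial finite group killed by `p` on which a group acts through a finite `p`-group has a
nonzero fixed vector. -/
theorem exists_fixed_ne_zero {H B : Type*} [Group H] [AddCommGroup B] [Finite B] [Nontrivial B]
    (hB : ∀ b : B, p • b = 0) (β : H →* AddMonoid.End B) (N : Subgroup H) [N.Normal]
    (hN : ∀ n ∈ N, ∀ b, β n b = b) (hp : IsPGroup p (H ⧸ N)) :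
    ∃ b : B, b ≠ 0 ∧ ∀ h, β h b = b := by
  classical
  -- the action of `H ⧸ N`
  let γ : (H ⧸ N) →* AddMonoid.End B := QuotientGroup.lift N β (fun n hn => by
    ext b; exact hN n hn b)
  have hγ : ∀ h : H, γ (QuotientGroup.mk h) = β h := fun h => rfl
  let act : MulAction (H ⧸ N) B :=
    { smul := fun q b => γ q b
      one_smul := fun b => by show γ 1 b = b; rw [map_one]; rfl
      mul_smul := fun q q' b => by show γ (q * q') b = γ q (γ q' b); rw [map_mul]; rfl }
  have hsm : ∀ (q : H ⧸ N) (b : B), q • b = γ q b := fun _ _ => rfl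
  have hcard : p ∣ Nat.card B := by
    obtain ⟨n, ⟨e⟩⟩ := exists_equiv_fun hB
    have hn : n ≠ 0 := by
      rintro rfl
      obtain ⟨x, y, hxy⟩ := exists_pair_ne B
      exact hxy (e.injective (Subsingleton.elim _ _))
    rw [Nat.card_congr e.toEquiv, Nat.card_fun, Nat.card_zmod, Nat.card_fin]
    exact dvd_pow_self p hn
  have h0 : (0 : B) ∈ MulAction.fixedPoints (H ⧸ N) B := fun q => by rw [hsm, map_zero]
  obtain ⟨b, hb, hne⟩ := hp.exists_fixed_point_of_prime_dvd_card_of_fixed_point B hcard h0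
  exact ⟨b, hne.symm, fun h => by rw [← hγ, ← hsm]; exact hb _⟩

end Fermat.Agent.S55.LA
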