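import Fermat.Agent.S55.A.Sylow
import Fermat.Agent.S55.A.DualMod

/-!
# S55 / A4 : local duality `H²(D, X) ≅ Hom_D(X, T)^∨` for all finite modules
(keys `S55/A-LOC1` = section `Base`, `S55/A-LOC2` = section `All`)

`Ld : LocDatum p 𝓛 χ` : `t : H²(D, T) → 𝔽_p` such that `t ∘ eps_*` is bijective on `H²(D, Fn π T)` for all transitive `π`.
`Ld.pair ρ y φ = t (φ_* y)`, `y ∈ H²(D, X)`, `φ ∈ H0 (dualRho χ ρ) = Hom_D(X, T)`.

## LOC1
* `push_bijective` : `eps ∘ push u = eps` (`eps_push`), two out of three.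
* `cs0` : `x = ∑_o pushO (pullO x)` (`H2_orb_decomp`).  For an orbit `o = orbOf π (u s')` (every orbit is of this form, `u` onto)
  `pullO x = (push (orbMap hu s'))_* x'_o` (`push_bijective`), and `incl ∘ orbMap = u ∘ incl` (`push_comp`) gives
  `pushO (pullO x) = (push u)_* (pushO' x'_o)`.
* `inj_Fn` : test with `φ_o = eps ∘ pull incl_o`; `lb` injective gives `pullO y = 0`; `H2_ext_orb`.
* `nondeg_Fn` : `φ ≠ 0`, `f = ∑_o push (pull f)` so `φ ∘ push incl_o ≠ 0` for some `o`; it is `c • eps`, `c ≢ 0`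
  (`exists_eq_nsmul_eps`); `lb` surjective: `y_o` with `t (eps_* y_o) = 1`; `y = pushO y_o`.
* `inj_ind`, `nondeg_ind` : `X --a--> Fn π T --b--> X`, `b a = 1`: `φ' ∘ a` is a test functional for `y` if `φ'` is one for `a_* y`;
  `φ ∘ b ≠ 0` if `φ ≠ 0`.
## LOC2
`P = Fn(D/U, X)`, `U` from `exists_trivOn`, `IsInd` by `isInd_Fn_coset`, `eps : P ↠ X` (onto: `eps (Pi.single 1 x) = x`), `K = ker eps` (`ses_ker`).
* `nondeg` : `φ ∘ eps ≠ 0`, `nondeg_ind`, `y = eps_* w`.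
* `exists_pair_eq` : `LA.exists_of_nondegenerate` for `Ld.pair ρ`.
* `inj` : `y = eps_* w` (`re`).  `λ_w = Ld.pair P w` kills `{φ ∘ eps}` = kernel of the restriction `R = H0c (isHom_dualMap incl) : Hom_D(P,T) → Hom_D(K,T)`
  (`SES.exists_factor`); so `λ_w = μ ∘ R` (`LA.exists_factor_through`); `μ = Ld.pair K k` (`exists_pair_eq`); then
  `Ld.pair P (i_* k) = Ld.pair P w`, `i_* k = w` (`inj_ind`), `y = eps_* i_* k = 0`.
* `extend` : if `ψ ∉ range R` choose `μ` killing `range R`, `μ ψ ≠ 0` (`LA.exists_separating`), `μ = Ld.pair K n`;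
  `Ld.pair P (i_* n) = 0`, so `i_* n = 0` (`inj`), so `μ ψ = t (ψ_* n) = 0`.
-/

set_option autoImplicit false

noncomputable section

namespace Fermat.Agent.S55

/-- (LA6) a functional killing `ker R` factors through `R` -/
theorem LA.exists_factor_through {p : ℕ} [Fact p.Prime] {V V' : Type*} [AddCommGroup V]
    [AddCommGroup V'] (hV' : ∀ v : V', p • v = 0) (R : V →+ V') (l : V →+ ZMod p)
    (h : ∀ v, R v = 0 → l v = 0) : ∃ m : V' →+ ZMod p, ∀ v, m (R v) = l v := by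
  let e := QuotientAddGroup.quotientKerEquivRange R
  let l' : V ⧸ R.ker →+ ZMod p := QuotientAddGroup.lift R.ker l (fun v hv => h v hv)
  obtain ⟨m, hm⟩ := LA.exists_extend hV' R.range (l'.comp e.symm.toAddMonoidHom)
  refine ⟨m, fun v => ?_⟩
  have h1 := hm ⟨R v, v, rfl⟩
  have h2 : e.symm ⟨R v, v, rfl⟩ = (v : V ⧸ R.ker) := by
    rw [AddEquiv.symm_apply_eq]
    rfl
  rw [h1]
  change l' (e.symm ⟨R v, v, rfl⟩) = l v
  rw [h2]
  rfl

variable {D : Type} [Group D] (p : ℕ) [Fact p.Prime] (𝓛 : Lvl D) (χ : D →* (ZMod p)ˣ)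

/-- the local arithmetic input -/
structure LocDatum where
  t : H2 𝓛 (rhoChi χ) →+ ZMod p
  lb : ∀ {Sg : Type} [Fintype Sg] (π : D →* Equiv.Perm Sg), SmoothSet π 𝓛 → IsTrans π →
    Function.Bijective fun x : H2 𝓛 (Fn π (rhoChi χ)) => t (H2c 𝓛 (isHom_eps π (rhoChi χ)) x)

variable {p 𝓛 χ} (Ld : LocDatum p 𝓛 χ)

namespace LocDatum

/-- the pairing `H²(D, X) × Hom_D(X, T) → 𝔽_p` -/
def pair {X : Type*} [AddCommGroup X] (ρ : D →* AddMonoid.End X) :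
    H2 𝓛 ρ →+ ↥(H0 (dualRho χ ρ)) →+ ZMod p :=
  AddMonoidHom.mk' (fun y => AddMonoidHom.mk' (fun φ => Ld.t (H2c 𝓛 (isHom_of_mem φ.2) y))
    (fun φ ψ => by
      rw [← map_add, ← H2c_add]))
    (fun y y' => by
      ext φ
      simp)

theorem pair_apply {X : Type*} [AddCommGroup X] (ρ : D →* AddMonoid.End X) (y : H2 𝓛 ρ)
    (φ : ↥(H0 (dualRho χ ρ))) : Ld.pair ρ y φ = Ld.t (H2c 𝓛 (isHom_of_mem φ.2) y) := rfl

/-- naturality of the pairing -/
theorem pair_H2c {X Y : Type*} [AddCommGroup X] [AddCommGroup Y] {ρX : D →* AddMonoid.End X}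
    {ρY : D →* AddMonoid.End Y} {u : X →+ Y} (hu : IsHom ρX ρY u) (x : H2 𝓛 ρX)
    (φ : ↥(H0 (dualRho χ ρY))) :
    Ld.pair ρY (H2c 𝓛 hu x) φ = Ld.pair ρX x (H0c (isHom_dualMap (χ := χ) hu) φ) := by
  rw [pair_apply, pair_apply]
  congr 1
  exact H2c_H2c 𝓛 _ _ _ (fun _ => rfl) x

section Base

include Ld in
theorem push_bijective {Sg Sg' : Type} [Fintype Sg] [Fintype Sg'] {π : D →* Equiv.Perm Sg}
    {π' : D →* Equiv.Perm Sg'} (hπ : SmoothSet π 𝓛) (hπ' : SmoothSet π' 𝓛) (ht : IsTrans π)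
    (ht' : IsTrans π') {u : Sg' → Sg} (hu : IsSetMap π π' u) :
    Function.Bijective (H2c 𝓛 (isHom_push (rhoChi χ) hu)) := by
  have he := Ld.lb π hπ ht
  have he' := Ld.lb π' hπ' ht'
  have hcomp : ∀ x, Ld.t (H2c 𝓛 (isHom_eps π (rhoChi χ)) (H2c 𝓛 (isHom_push (rhoChi χ) hu) x)) =
      Ld.t (H2c 𝓛 (isHom_eps π' (rhoChi χ)) x) := fun x => by
    rw [H2c_H2c 𝓛 _ _ (isHom_eps π' (rhoChi χ)) (fun f => eps_push u f)]
  constructor
  · intro x y hxy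
    apply he'.1
    change Ld.t _ = Ld.t _
    rw [← hcomp, ← hcomp, hxy]
  · intro x
    obtain ⟨y, hy⟩ := he'.2 (Ld.t (H2c 𝓛 (isHom_eps π (rhoChi χ)) x))
    refine ⟨y, he.1 ?_⟩
    change Ld.t _ = Ld.t _
    rw [hcomp]
    exact hy

include Ld in
theorem cs0 : CS0 p 𝓛 χ := by
  intro Sg Sg' _ _ π π' u hu hπ hπ' hsurj x
  have key : ∀ o : Orb π, ∃ w : H2 𝓛 (Fn π' (rhoChi χ)),
      H2c 𝓛 (isHom_push (rhoChi χ) hu) w =
        H2pushO π 𝓛 (rhoChi χ) o (H2pullO π 𝓛 (rhoChi χ) o x) := by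
    intro o
    obtain ⟨s, rfl⟩ := orbOf_surjective π o
    obtain ⟨s', rfl⟩ := hsurj s
    obtain ⟨x', hx'⟩ := (Ld.push_bijective (smoothSet_orbPerm π hπ _) (smoothSet_orbPerm π' hπ' _)
      (isTrans_orbPerm π _) (isTrans_orbPerm π' _) (isSetMap_orbMap hu s')).2
      (H2pullO π 𝓛 (rhoChi χ) _ x)
    refine ⟨H2pushO π' 𝓛 (rhoChi χ) _ x', ?_⟩
    rw [← hx']
    have hset : IsSetMap π (orbPerm π' (orbOf π' s')) (u ∘ OrbPts.incl) :=
      fun g y => hu g y.incl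
    rw [H2pushO, H2pushO, H2c_H2c 𝓛 _ _ (isHom_push (rhoChi χ) hset)
      (fun f => push_comp u OrbPts.incl f),
      H2c_H2c 𝓛 _ _ (isHom_push (rhoChi χ) hset)
      (fun f => push_comp OrbPts.incl (orbMap hu s') f)]
  choose w hw using key
  refine ⟨∑ o, w o, ?_⟩
  rw [map_sum]
  simp only [hw]
  exact H2_orb_decomp π 𝓛 _ x

theorem inj_Fn {Sg : Type} [Fintype Sg] {π : D →* Equiv.Perm Sg} (hπ : SmoothSet π 𝓛)
    (y : H2 𝓛 (Fn π (rhoChi χ))) (h : Ld.pair _ y = 0) : y = 0 := by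
  apply H2_ext_orb π 𝓛 _
  intro o
  apply (Ld.lb (orbPerm π o) (smoothSet_orbPerm π hπ o) (isTrans_orbPerm π o)).1
  change Ld.t _ = Ld.t _
  rw [map_zero, map_zero]
  have hφ : IsHom (Fn π (rhoChi χ)) (rhoChi χ)
      ((eps (OrbPts π o) (ZMod p)).comp (pull (ZMod p) OrbPts.incl)) :=
    (isHom_eps (orbPerm π o) (rhoChi χ)).comp (isHom_pull (rhoChi χ) (isSetMap_incl π o))
  have h1 : Ld.pair _ y ⟨_, mem_H0_dualRho.2 hφ⟩ = 0 := by rw [h]; rfl
  rw [pair_apply] at h1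
  rw [H2pullO, ← H2c_comp]
  exact h1

theorem nondeg_Fn {Sg : Type} [Fintype Sg] {π : D →* Equiv.Perm Sg} (hπ : SmoothSet π 𝓛)
    (φ : ↥(H0 (dualRho χ (Fn π (rhoChi χ))))) (h : ∀ y, Ld.pair _ y φ = 0) : φ = 0 := by
  have key : ∀ (o : Orb π) (f : OrbPts π o → ZMod p), φ.1 (push (ZMod p) OrbPts.incl f) = 0 := by
    intro o
    have hφo : IsHom (Fn (orbPerm π o) (rhoChi χ)) (rhoChi χ)
        (φ.1.comp (push (ZMod p) OrbPts.incl)) :=
      (isHom_of_mem φ.2).comp (isHom_push (rhoChi χ) (isSetMap_incl π o))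
    obtain ⟨c, hc⟩ := exists_eq_nsmul_eps χ (orbPerm π o) (isTrans_orbPerm π o) hφo
    obtain ⟨y, hy⟩ := (Ld.lb (orbPerm π o) (smoothSet_orbPerm π hπ o) (isTrans_orbPerm π o)).2 1
    have h1 := h (H2pushO π 𝓛 (rhoChi χ) o y)
    rw [pair_apply, H2pushO, ← H2c_comp,
      H2c_congr 𝓛 _ ((isHom_eps (orbPerm π o) (rhoChi χ)).nsmul c) hc,
      H2c_nsmul 𝓛 (isHom_eps (orbPerm π o) (rhoChi χ)), map_nsmul] at h1
    have hy' : Ld.t (H2c 𝓛 (isHom_eps (orbPerm π o) (rhoChi χ)) y) = 1 := hy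
    rw [hy', nsmul_eq_mul, mul_one] at h1
    intro f
    have h2 : φ.1 (push (ZMod p) OrbPts.incl f) = (c • eps (OrbPts π o) (ZMod p)) f := by
      rw [← hc]; rfl
    rw [h2, AddMonoidHom.nsmul_apply, nsmul_eq_mul, h1, zero_mul]
  apply Subtype.ext
  ext f
  change φ.1 f = 0
  rw [← sum_push_pull_orb π f, map_sum]
  exact Finset.sum_eq_zero fun o _ => key o _

theorem inj_ind {X : Type} [AddCommGroup X] {ρ : D →* AddMonoid.End X} (hX : IsInd 𝓛 χ ρ)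
    (y : H2 𝓛 ρ) (h : Ld.pair ρ y = 0) : y = 0 := by
  obtain ⟨Sg, _, π, a, b, hπ, ha, hb, hab⟩ := hX
  rw [← H2c_retract 𝓛 ha hb hab y]
  have : H2c 𝓛 ha y = 0 := by
    apply Ld.inj_Fn hπ
    ext φ
    rw [pair_H2c, h]
    rfl
  rw [this, map_zero]

theorem nondeg_ind {X : Type} [AddCommGroup X] {ρ : D →* AddMonoid.End X} (hX : IsInd 𝓛 χ ρ)
    (φ : ↥(H0 (dualRho χ ρ))) (h : ∀ y, Ld.pair ρ y φ = 0) : φ = 0 := by
  obtain ⟨Sg, _, π, a, b, hπ, ha, hb, hab⟩ := hX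
  have h1 : H0c (isHom_dualMap (χ := χ) hb) φ = 0 := by
    apply Ld.nondeg_Fn hπ
    intro w
    rw [← pair_H2c Ld hb]
    exact h _
  apply Subtype.ext
  ext x
  have h2 : (H0c (isHom_dualMap (χ := χ) hb) φ).1 (a x) = 0 := by rw [h1]; rfl
  change φ.1 x = 0
  rw [← hab x]
  exact h2

end Base

section All

variable (hχ : Smooth 𝓛 (rhoChi χ))
include hχ

include Ld in
/-- local right exactness -/
theorem re {X : Type} [AddCommGroup X] {ρ : D →* AddMonoid.End X} (hX : FinMod p 𝓛 ρ) :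
    RE p 𝓛 ρ := RE_of_CS0 hχ (cs0 Ld) hX

omit Ld in
/-- every finite module is an equivariant quotient of an induced finite module -/
theorem exists_cover {X : Type} [AddCommGroup X] {ρ : D →* AddMonoid.End X} (hX : FinMod p 𝓛 ρ) :
    ∃ (P : Type) (_ : AddCommGroup P) (ρP : D →* AddMonoid.End P) (e : P →+ X),
      FinMod p 𝓛 ρP ∧ IsInd 𝓛 χ ρP ∧ IsHom ρP ρ e ∧ Function.Surjective e := by
  classical
  obtain ⟨U, hU, -, h1, h2⟩ := exists_trivOn hχ hX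
  have := 𝓛.fin U hU
  let _ : Fintype (D ⧸ U) := Fintype.ofFinite _
  refine ⟨D ⧸ U → X, inferInstance, Fn (cosetPerm U) ρ, eps (D ⧸ U) X,
    hX.fn (smoothSet_cosetPerm hU), isInd_Fn_coset hX hU h1 h2, isHom_eps _ _, fun x => ?_⟩
  refine ⟨Pi.single ((1 : D) : D ⧸ U) x, ?_⟩
  rw [eps_apply, Finset.sum_pi_single']
  simp

omit Ld hχ in
theorem nsmul_H0_dual_eq_zero {X : Type*} [AddCommGroup X] (ρ : D →* AddMonoid.End X)
    (φ : ↥(H0 (dualRho χ ρ))) : p • φ = 0 :=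
  Subtype.ext (by
    rw [AddSubgroup.coe_nsmul, nsmul_dual_eq_zero]
    rfl)

theorem nondeg {X : Type} [AddCommGroup X] {ρ : D →* AddMonoid.End X} (hX : FinMod p 𝓛 ρ)
    (φ : ↥(H0 (dualRho χ ρ))) (h : ∀ y, Ld.pair ρ y φ = 0) : φ = 0 := by
  obtain ⟨P, _, ρP, e, hP, hind, he, hes⟩ := exists_cover hχ hX
  have h1 : H0c (isHom_dualMap (χ := χ) he) φ = 0 := by
    apply Ld.nondeg_ind hind
    intro w
    rw [← Ld.pair_H2c he]
    exact h _
  apply Subtype.ext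
  ext x
  obtain ⟨y, rfl⟩ := hes x
  exact DFunLike.congr_fun (congrArg Subtype.val h1) y

theorem exists_pair_eq {X : Type} [AddCommGroup X] {ρ : D →* AddMonoid.End X}
    (hX : FinMod p 𝓛 ρ) (m : ↥(H0 (dualRho χ ρ)) →+ ZMod p) : ∃ y, Ld.pair ρ y = m := by
  have := hX.fin
  have : Finite (X →+ ZMod p) := LA.finite_dual
  exact LA.exists_of_nondegenerate (nsmul_H0_dual_eq_zero ρ) (Ld.pair ρ)
    (fun φ h => Ld.nondeg hχ hX φ h) m

theorem inj {X : Type} [AddCommGroup X] {ρ : D →* AddMonoid.End X} (hX : FinMod p 𝓛 ρ)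
    (y : H2 𝓛 ρ) (h : Ld.pair ρ y = 0) : y = 0 := by
  obtain ⟨P, _, ρP, e, hP, hind, he, hes⟩ := exists_cover hχ hX
  obtain ⟨w, rfl⟩ := Ld.re hχ hX P ρP hP e he hes y
  have hst : Stable ρP e.ker := stable_ker he
  have S := ses_ker he hes
  have hK : FinMod p 𝓛 (subRho hst) := hP.sub hst
  have hi : IsHom (subRho hst) ρP e.ker.subtype := isHom_subtype hst
  obtain ⟨μ, hμ⟩ := LA.exists_factor_through (nsmul_H0_dual_eq_zero (χ := χ) (subRho hst))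
    (H0c (isHom_dualMap (χ := χ) hi)) (Ld.pair ρP w) (by
      intro φ' hφ'
      obtain ⟨ψ, hψ, hψ'⟩ := S.exists_factor (isHom_of_mem φ'.2)
        (fun a => DFunLike.congr_fun (congrArg Subtype.val hφ') a)
      have h1 : φ' = H0c (isHom_dualMap (χ := χ) he) ⟨ψ, mem_H0_dualRho.2 hψ⟩ := by
        apply Subtype.ext
        ext b
        exact (hψ' b).symm
      rw [h1, ← Ld.pair_H2c he, h]
      rfl)
  obtain ⟨k, hk⟩ := Ld.exists_pair_eq hχ hK μ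
  have h2 : H2c 𝓛 hi k - w = 0 := by
    apply Ld.inj_ind hind
    ext φ'
    rw [map_sub, AddMonoidHom.sub_apply, pair_H2c, hk, hμ, sub_self]
    rfl
  rw [← sub_eq_zero.1 h2, H2c_H2c 𝓛 he hi (IsHom.zero _ _) (fun a => a.2), H2c_zero]

/-- **Loc-2** -/
theorem pair_bijective {X : Type} [AddCommGroup X] {ρ : D →* AddMonoid.End X}
    (hX : FinMod p 𝓛 ρ) : Function.Bijective (Ld.pair ρ) :=
  ⟨(injective_iff_map_eq_zero _).2 (Ld.inj hχ hX), Ld.exists_pair_eq hχ hX⟩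

/-- an equivariant functional on a submodule `K ⊂ P` extends to `P` iff it kills `ker (H²(K) → H²(P))` -/
theorem extend {K P : Type} [AddCommGroup K] [AddCommGroup P] {ρK : D →* AddMonoid.End K}
    {ρP : D →* AddMonoid.End P} (hP : FinMod p 𝓛 ρP) {i : K →+ P} (hi : IsHom ρK ρP i)
    (hinj : Function.Injective i) (ψ : ↥(H0 (dualRho χ ρK)))
    (h : ∀ n : H2 𝓛 ρK, H2c 𝓛 hi n = 0 → Ld.pair ρK n ψ = 0) :
    ∃ ψ' : ↥(H0 (dualRho χ ρP)), H0c (isHom_dualMap (χ := χ) hi) ψ' = ψ := by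
  have hK : FinMod p 𝓛 ρK :=
    { fin := by have := hP.fin; exact Finite.of_injective i hinj
      tors := fun a => hinj (by rw [map_nsmul, hP.tors, map_zero])
      smooth := fun a => by
        obtain ⟨U, hU, hu⟩ := hP.smooth (i a)
        exact ⟨U, hU, fun u hu' => hinj (by rw [hi, hu u hu'])⟩ }
  by_contra hne
  have hψ : ψ ∉ (H0c (isHom_dualMap (χ := χ) hi)).range := fun ⟨ψ', h'⟩ => hne ⟨ψ', h'⟩
  obtain ⟨μ, hμ0, hμψ⟩ := LA.exists_separating (nsmul_H0_dual_eq_zero (χ := χ) ρK) _ hψ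
  obtain ⟨n, hn⟩ := Ld.exists_pair_eq hχ hK μ
  have h1 : H2c 𝓛 hi n = 0 := by
    apply Ld.inj hχ hP
    ext φ'
    rw [pair_H2c, hn, hμ0 _ ⟨φ', rfl⟩]
    rfl
  apply hμψ
  rw [← hn]
  exact h n h1

end All

end LocDatum

end Fermat.Agent.S55
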