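import Fermat.Agent.S55.A.Global

/-!
# S55 / A4 : `card Ш²(M) = card Ш¹(M')`
(keys `S55/A-MAIN1` … `S55/A-MAIN4`; the assembly `dual_of_ses`, `dual_all'` is proved from them)

`S : 0 → K --i--> P --ε--> M → 0`, `P` finite and `IsInd`.  Notation: `Hom_G(X,T) = H0 (dualRho χ ρX)`, `resK S : Hom_G(P,T) → Hom_G(K,T)`,
`resKv S v` the same over `D_v`, `locF ρ v : Hom_G(X,T) → Hom_{D_v}(X,T)`.
* `VV2 S = {ψ ∈ Hom_G(K,T) | ∀ v, ψ extends to P over D_v}`,  `YY S = {y ∈ H²(G,P) | ε_* y ∈ Ш²(M)}`.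
* pairing `B y ψ = ∑ᶠ v, t_v ((ψ̃_v)_* res_v y)`, `ψ̃_v` ANY extension of `ψ` over `D_v`.

## MAIN1 (`exists_g`)  `Ш¹(M') = VV2 / resK(Hom_G(P,T))`
Dual sequence `S' = S.dual : 0 → M' → P' → K' → 0`, `δ = delta0 S'`.  `sha1_ind` : `P'` is a retract of `(Fn π T)'` (`dualMap b`, `dualMap a`), which is a
retract of `Fn π 𝔽_p` (`dualToFn`, `fnToDual`); `H1_ext_orb`, `res1_H1c`, `dat.sha1`.  `g ψ = δ ψ`.  `res_v (δ ψ) = δ_v (res_v ψ)` (`res1_delta0`), which vanishes iff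
`res_v ψ` comes from `H0(D_v, P')` (`delta0_eq_zero_iff`), so `δ ψ ∈ Ш¹ ↔ ψ ∈ VV2`.  Onto: `x ∈ Ш¹(M')` maps to `Ш¹(P') = 0`, `H1c_i_eq_zero_iff`.  Kernel: `delta0_eq_zero_iff`.
## MAIN2 (`pair_indep`, `exists_B`)
`pair_indep` : `ψ₁ - ψ₂` kills `i(K)`, so `= φ ∘ ε` (`SES.exists_factor` for `S.res`), and `t ((φ ε)_* r) = t (φ_* ε_* r) = 0`.
`exists_B` : choose extensions; additivity in `y` : `finsum_add_distrib` (supports finite by `dat.fin_ind`); additivity in `ψ` : `pair_indep`.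
## MAIN3 (`left_kernel`)
`⟹` : `y = i_* k` (`H2c_j_eq_zero_iff`), `B y ψ = ∑ t_v (ψ_* res_v k) = 0` (`recip'`).
`⟸` : `res_v y = i_* z_v` (`H2c_j_eq_zero_iff` over `D_v`), `z_v = 0` if `res_v y = 0`.  `F = {gp K n | n a finitely supported family with i_* n_v = 0}` is a subgroup of the dual of
`Hom_G(K,T)`; its annihilator is `VV2` (`LocDatum.extend` + `gp_single`); `gp K z` kills `VV2` (it is `B y`); `LA.mem_of_annihilator` : `gp K z = gp K n`; `dat.glob` : `z - n = locAll k`;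
`i_* k - y` is locally trivial; `hasse_ind`; so `ε_* y = 0`.
## MAIN4 (`right_kernel`)
`⟹` : `ψ = ψ̃ ∘ i`, use the extensions `res_v ψ̃` : `B y ψ = gp P (locAll y) ψ̃ = 0` (`recip'`).
`⟸` : if `ψ ∉ range (resK S)` choose `μ` on `Hom_G(K,T)` killing the range with `μ ψ ≠ 0` (`LA.exists_separating`); `μ = gp K z` (`exists_fam`); `i_* z` is orthogonal to `Hom_G(P,T)`;
`ex_ind` : `i_* z = locAll y`; `ε_* y` is locally trivial, so `y ∈ YY`; `B y ψ = gp K z ψ = μ ψ ≠ 0`.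
-/

set_option autoImplicit false

noncomputable section

namespace Fermat.Agent.S55

variable {p : ℕ} [Fact p.Prime] {G : Type} [Group G] {𝓛 : Lvl G} {χ : G →* (ZMod p)ˣ}
  {Q : Type} {D : Q → Subgroup G}

/-- restriction of equivariant functionals to `D_v` -/
def locF (χ : G →* (ZMod p)ˣ) (D : Q → Subgroup G) {X : Type*} [AddCommGroup X]
    (ρ : G →* AddMonoid.End X) (v : Q) :
    ↥(H0 (dualRho χ ρ)) →+ ↥(H0 (dualRho (χ.comp (D v).subtype) (rv D ρ v))) :=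
  res0 (dualRho χ ρ) (D v).subtype

@[simp] theorem coe_locF {X : Type*} [AddCommGroup X] (ρ : G →* AddMonoid.End X) (v : Q)
    (φ : ↥(H0 (dualRho χ ρ))) : ((locF χ D ρ v φ : _) : X →+ ZMod p) = φ := rfl

section SESsec

variable {K P M : Type} [AddCommGroup K] [AddCommGroup P] [AddCommGroup M]
  {ρK : G →* AddMonoid.End K} {ρP : G →* AddMonoid.End P} {ρM : G →* AddMonoid.End M}
  {i : K →+ P} {ε : P →+ M}

/-- restriction of functionals from `P` to `K` -/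
def resK (χ : G →* (ZMod p)ˣ) (S : SES ρK ρP ρM i ε) :
    ↥(H0 (dualRho χ ρP)) →+ ↥(H0 (dualRho χ ρK)) :=
  H0c (isHom_dualMap (χ := χ) S.hi)

/-- the same over `D_v` -/
def resKv (χ : G →* (ZMod p)ˣ) (D : Q → Subgroup G) (S : SES ρK ρP ρM i ε) (v : Q) :
    ↥(H0 (dualRho (χ.comp (D v).subtype) (rv D ρP v))) →+
      ↥(H0 (dualRho (χ.comp (D v).subtype) (rv D ρK v))) :=
  H0c (isHom_dualMap (χ := χ.comp (D v).subtype) (S.hi.res (D v).subtype))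

/-- functionals on `K` which extend to `P` locally everywhere -/
def VV2 (χ : G →* (ZMod p)ˣ) (D : Q → Subgroup G) (S : SES ρK ρP ρM i ε) :
    AddSubgroup ↥(H0 (dualRho χ ρK)) where
  carrier := {ψ | ∀ v, ∃ ψ', resKv χ D S v ψ' = locF χ D ρK v ψ}
  add_mem' := by
    intro a b ha hb v
    obtain ⟨a', ha'⟩ := ha v
    obtain ⟨b', hb'⟩ := hb v
    exact ⟨a' + b', by rw [map_add, map_add, ha', hb']⟩
  zero_mem' := fun v => ⟨0, by rw [map_zero, map_zero]⟩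
  neg_mem' := by
    intro a ha v
    obtain ⟨a', ha'⟩ := ha v
    exact ⟨-a', by rw [map_neg, map_neg, ha']⟩

/-- classes of `H²(G, P)` whose image in `H²(G, M)` is locally trivial -/
def YY (𝓛 : Lvl G) (D : Q → Subgroup G) (S : SES ρK ρP ρM i ε) : AddSubgroup (H2 𝓛 ρP) :=
  (ShaA2 𝓛 D ρM).comap (H2c 𝓛 S.hj)

variable (dat : Datum p 𝓛 χ D) (hχ : Smooth 𝓛 (rhoChi χ)) (S : SES ρK ρP ρM i ε)
  (hP : FinMod p 𝓛 ρP) (hInd : IsInd 𝓛 χ ρP)

/-! ### MAIN1 -/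

include dat in
theorem sha1_ind {X : Type} [AddCommGroup X] {ρ : G →* AddMonoid.End X} (hX : IsInd 𝓛 χ ρ)
    (x : H1 𝓛 (dualRho χ ρ)) (h : x ∈ ShaA1 𝓛 D (dualRho χ ρ)) : x = 0 := by
  obtain ⟨Sg, _, π, a, b, hπ, ha, hb, hab⟩ := hX
  have hA : IsHom (dualRho χ ρ) (Fn π (rhoTriv G (ZMod p)))
      ((dualToFn Sg p).comp (dualMap p b)) := (isHom_dualToFn χ π).comp (isHom_dualMap hb)
  have hB : IsHom (Fn π (rhoTriv G (ZMod p))) (dualRho χ ρ)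
      ((dualMap p a).comp (fnToDual Sg p)) := (isHom_dualMap ha).comp (isHom_fnToDual χ π)
  have hBA : ∀ φ, ((dualMap p a).comp (fnToDual Sg p)) (((dualToFn Sg p).comp (dualMap p b)) φ)
      = φ := fun φ => by
    change dualMap p a (fnToDual Sg p (dualToFn Sg p (dualMap p b φ))) = φ
    rw [fnToDual_dualToFn]
    ext x
    change φ (b (a x)) = φ x
    rw [hab]
  rw [← H1c_retract 𝓛 hA hB hBA x]
  have hw : H1c 𝓛 hA x = 0 := by
    apply H1_ext_orb π 𝓛 _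
    intro o
    apply dat.sha1 (orbPerm π o) (smoothSet_orbPerm π hπ o) (isTrans_orbPerm π o)
    intro v
    rw [H1pullO, res1_H1c, res1_H1c, h v, map_zero, map_zero]
  rw [hw, map_zero]

include dat hχ hP hInd in
theorem exists_g : ∃ g : ↥(VV2 χ D S) →+ ↥(ShaA1 𝓛 D (dualRho χ ρM)), Function.Surjective g ∧
    ∀ ψ, g ψ = 0 ↔ ∃ ψ', resK χ S ψ' = ψ.1 := by
  have S' : SES (dualRho χ ρM) (dualRho χ ρP) (dualRho χ ρK) (dualMap p ε) (dualMap p i) :=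
    S.dual hP.tors
  have hP' : Smooth 𝓛 (dualRho χ ρP) := smooth_dualRho hχ hP
  have hmem : ∀ ψ : ↥(H0 (dualRho χ ρK)),
      delta0 S' hP' ψ ∈ ShaA1 𝓛 D (dualRho χ ρM) ↔ ψ ∈ VV2 χ D S := by
    intro ψ
    refine forall_congr' fun v => ?_
    rw [res1_delta0, delta0_eq_zero_iff]
    rfl
  refine ⟨((delta0 S' hP').comp (VV2 χ D S).subtype).codRestrict _
    (fun ψ => (hmem ψ.1).2 ψ.2), ?_, ?_⟩
  · intro x
    have h1 : H1c 𝓛 S'.hi x.1 = 0 := by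
      apply sha1_ind dat hInd
      intro v
      rw [res1_H1c, x.2 v, map_zero]
    obtain ⟨c, hc⟩ := (H1c_i_eq_zero_iff S' hP' x.1).1 h1
    exact ⟨⟨c, (hmem c).1 (by rw [hc]; exact x.2)⟩, Subtype.ext hc⟩
  · intro ψ
    rw [Subtype.ext_iff]
    change delta0 S' hP' ψ.1 = 0 ↔ _
    rw [delta0_eq_zero_iff]
    rfl

/-! ### MAIN2 -/

theorem pair_indep (v : Q) (r : H2 (lv 𝓛 D v) (rv D ρP v))
    (hr : H2c (lv 𝓛 D v) (S.hj.res (D v).subtype) r = 0)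
    (ψ₁ ψ₂ : ↥(H0 (dualRho (χ.comp (D v).subtype) (rv D ρP v))))
    (h : resKv χ D S v ψ₁ = resKv χ D S v ψ₂) :
    (dat.loc v).pair (rv D ρP v) r ψ₁ = (dat.loc v).pair (rv D ρP v) r ψ₂ := by
  rw [← sub_eq_zero, ← map_sub]
  have h0 : ∀ a, (ψ₁ - ψ₂).1 (i a) = 0 := fun a => by
    have h1 : resKv χ D S v (ψ₁ - ψ₂) = 0 := by rw [map_sub, h, sub_self]
    have h2 := congrArg (fun f : ↥(H0 (dualRho (χ.comp (D v).subtype) (rv D ρK v))) => f.1 a) h1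
    exact h2
  obtain ⟨ψ, hψ, hψe⟩ := (S.res (D v).subtype).exists_factor (isHom_of_mem (ψ₁ - ψ₂).2) h0
  rw [LocDatum.pair_apply, ← H2c_H2c (lv 𝓛 D v) hψ (S.hj.res (D v).subtype) _ hψe, hr, map_zero,
    map_zero]

include hInd in
theorem exists_B : ∃ B : ↥(YY 𝓛 D S) →+ ↥(VV2 χ D S) →+ ZMod p,
    ∀ (y : ↥(YY 𝓛 D S)) (ψ : ↥(VV2 χ D S))
      (e : ∀ v, ↥(H0 (dualRho (χ.comp (D v).subtype) (rv D ρP v)))),
      (∀ v, resKv χ D S v (e v) = locF χ D ρK v ψ.1) →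
        B y ψ = ∑ᶠ v, (dat.loc v).pair (rv D ρP v) (locAll 𝓛 D ρP y.1 v) (e v) := by
  classical
  -- vanishing of `ε_* res_v y`
  have hr : ∀ (y : ↥(YY 𝓛 D S)) (v : Q),
      H2c (lv 𝓛 D v) (S.hj.res (D v).subtype) (locAll 𝓛 D ρP y.1 v) = 0 := fun y v => by
    have h1 : H2c 𝓛 S.hj y.1 ∈ ShaA2 𝓛 D ρM := y.2
    have h2 := h1 v
    rw [res2_H2c] at h2
    exact h2
  have hfs : ∀ (y : ↥(YY 𝓛 D S))
      (e : ∀ v, ↥(H0 (dualRho (χ.comp (D v).subtype) (rv D ρP v)))),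
      (Function.support fun v =>
        (dat.loc v).pair (rv D ρP v) (locAll 𝓛 D ρP y.1 v) (e v)).Finite := fun y e => by
    refine (dat.fin_ind hInd y.1).subset fun v hv => ?_
    intro h0
    apply hv
    change (dat.loc v).pair (rv D ρP v) (locAll 𝓛 D ρP y.1 v) (e v) = 0
    rw [h0, map_zero]
    rfl
  let ext : ∀ (ψ : ↥(VV2 χ D S)) (v : Q), ↥(H0 (dualRho (χ.comp (D v).subtype) (rv D ρP v))) :=
    fun ψ v => (ψ.2 v).choose
  have hext : ∀ ψ v, resKv χ D S v (ext ψ v) = locF χ D ρK v ψ.1 := fun ψ v => (ψ.2 v).choose_spec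
  let B₀ : ↥(YY 𝓛 D S) → ↥(VV2 χ D S) → ZMod p := fun y ψ =>
    ∑ᶠ v, (dat.loc v).pair (rv D ρP v) (locAll 𝓛 D ρP y.1 v) (ext ψ v)
  have hform : ∀ (y : ↥(YY 𝓛 D S)) (ψ : ↥(VV2 χ D S))
      (e : ∀ v, ↥(H0 (dualRho (χ.comp (D v).subtype) (rv D ρP v)))),
      (∀ v, resKv χ D S v (e v) = locF χ D ρK v ψ.1) →
        B₀ y ψ = ∑ᶠ v, (dat.loc v).pair (rv D ρP v) (locAll 𝓛 D ρP y.1 v) (e v) := by
    intro y ψ e he
    refine finsum_congr fun v => ?_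
    exact pair_indep dat S v _ (hr y v) _ _ (by rw [hext, he])
  have hadd2 : ∀ y ψ ψ', B₀ y (ψ + ψ') = B₀ y ψ + B₀ y ψ' := by
    intro y ψ ψ'
    rw [hform y (ψ + ψ') (fun v => ext ψ v + ext ψ' v) (fun v => by
      rw [map_add, hext, hext, ← map_add]; rfl)]
    simp only [map_add]
    exact finsum_add_distrib (hfs y _) (hfs y _)
  have hadd1 : ∀ y y' ψ, B₀ (y + y') ψ = B₀ y ψ + B₀ y' ψ := by
    intro y y' ψ
    have h1 : ∀ v, locAll 𝓛 D ρP (y + y').1 v = locAll 𝓛 D ρP y.1 v + locAll 𝓛 D ρP y'.1 v :=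
      fun v => map_add _ _ _
    change ∑ᶠ v, (dat.loc v).pair (rv D ρP v) (locAll 𝓛 D ρP (y + y').1 v) (ext ψ v) = _
    simp only [h1, map_add, AddMonoidHom.add_apply]
    exact finsum_add_distrib (hfs y _) (hfs y' _)
  refine ⟨AddMonoidHom.mk' (fun y => AddMonoidHom.mk' (B₀ y) (hadd2 y)) (fun y y' => ?_), hform⟩
  ext ψ
  exact hadd1 y y' ψ

/-! ### MAIN3, MAIN4 -/

theorem MAIN34_pair_i (v : Q) (n : H2 (lv 𝓛 D v) (rv D ρK v))
    (e : ↥(H0 (dualRho (χ.comp (D v).subtype) (rv D ρP v)))) (ψ : ↥(H0 (dualRho χ ρK)))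
    (he : resKv χ D S v e = locF χ D ρK v ψ) :
    (dat.loc v).pair (rv D ρP v) (H2c (lv 𝓛 D v) (S.hi.res (D v).subtype) n) e =
      dat.lp ρK v n ψ := by
  rw [LocDatum.pair_H2c]
  change (dat.loc v).pair _ n (resKv χ D S v e) = _
  rw [he]
  rfl

/-- if `locAll y = i_* z` then `B y ψ = gp K z ψ` -/
theorem MAIN34_B_eq (B : ↥(YY 𝓛 D S) →+ ↥(VV2 χ D S) →+ ZMod p)
    (hB : ∀ (y : ↥(YY 𝓛 D S)) (ψ : ↥(VV2 χ D S))
      (e : ∀ v, ↥(H0 (dualRho (χ.comp (D v).subtype) (rv D ρP v)))),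
      (∀ v, resKv χ D S v (e v) = locF χ D ρK v ψ.1) →
        B y ψ = ∑ᶠ v, (dat.loc v).pair (rv D ρP v) (locAll 𝓛 D ρP y.1 v) (e v))
    (y : ↥(YY 𝓛 D S)) (ψ : ↥(VV2 χ D S)) (z : ∀ v, H2 (lv 𝓛 D v) (rv D ρK v))
    (hz : locAll 𝓛 D ρP y.1 = famMap S.hi z) : B y ψ = dat.gp ρK z ψ.1 := by
  choose e he using ψ.2
  rw [hB y ψ e he, Datum.gp]
  refine finsum_congr fun v => ?_
  rw [hz]
  exact MAIN34_pair_i dat S v (z v) (e v) ψ.1 (he v)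

theorem MAIN34_famMap_j_i (z : ∀ v, H2 (lv 𝓛 D v) (rv D ρK v)) (hP : Smooth 𝓛 ρP) :
    famMap S.hj (famMap S.hi z) = 0 := by
  funext v
  exact (H2c_j_eq_zero_iff (S.res (D v).subtype) (hP.res 𝓛 (D v).subtype) _).2 ⟨z v, rfl⟩

theorem MAIN34_mem_YY (y : H2 𝓛 ρP) (z : ∀ v, H2 (lv 𝓛 D v) (rv D ρK v)) (hP : Smooth 𝓛 ρP)
    (hz : locAll 𝓛 D ρP y = famMap S.hi z) : y ∈ YY 𝓛 D S := by
  intro v
  have h := Datum.locAll_H2c (D := D) S.hj y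
  rw [hz, MAIN34_famMap_j_i S z hP] at h
  exact congrFun h v

theorem MAIN34_gp_zero {X : Type*} [AddCommGroup X] (ρ : G →* AddMonoid.End X)
    (φ : ↥(H0 (dualRho χ ρ))) : dat.gp ρ 0 φ = 0 := by
  simp [Datum.gp]

theorem MAIN34_gp_neg {X : Type*} [AddCommGroup X] (ρ : G →* AddMonoid.End X)
    (z : ∀ v, H2 (lv 𝓛 D v) (rv D ρ v)) (φ : ↥(H0 (dualRho χ ρ))) :
    dat.gp ρ (-z) φ = -dat.gp ρ z φ := by
  simp [Datum.gp, finsum_neg_distrib]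

theorem MAIN34_FS_zero {X : Type*} [AddCommGroup X] (ρ : G →* AddMonoid.End X) :
    FS (𝓛 := 𝓛) (D := D) (ρ := ρ) 0 := by
  simp [FS]

theorem MAIN34_famMap_add {X Y : Type*} [AddCommGroup X] [AddCommGroup Y]
    {ρX : G →* AddMonoid.End X} {ρY : G →* AddMonoid.End Y} {u : X →+ Y} (hu : IsHom ρX ρY u)
    (z z' : ∀ v, H2 (lv 𝓛 D v) (rv D ρX v)) :
    famMap hu (z + z') = famMap hu z + famMap hu z' :=
  funext fun _ => map_add _ _ _

theorem MAIN34_famMap_neg {X Y : Type*} [AddCommGroup X] [AddCommGroup Y]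
    {ρX : G →* AddMonoid.End X} {ρY : G →* AddMonoid.End Y} {u : X →+ Y} (hu : IsHom ρX ρY u)
    (z : ∀ v, H2 (lv 𝓛 D v) (rv D ρX v)) : famMap hu (-z) = -famMap hu z :=
  funext fun _ => map_neg _ _

theorem MAIN34_famMap_sub {X Y : Type*} [AddCommGroup X] [AddCommGroup Y]
    {ρX : G →* AddMonoid.End X} {ρY : G →* AddMonoid.End Y} {u : X →+ Y} (hu : IsHom ρX ρY u)
    (z z' : ∀ v, H2 (lv 𝓛 D v) (rv D ρX v)) :
    famMap hu (z - z') = famMap hu z - famMap hu z' :=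
  funext fun _ => map_sub _ _ _

theorem MAIN34_famMap_zero {X Y : Type*} [AddCommGroup X] [AddCommGroup Y]
    {ρX : G →* AddMonoid.End X} {ρY : G →* AddMonoid.End Y} {u : X →+ Y} (hu : IsHom ρX ρY u) :
    famMap (𝓛 := 𝓛) (D := D) hu 0 = 0 :=
  funext fun _ => map_zero _

open Classical in
theorem MAIN34_famMap_single {X Y : Type*} [AddCommGroup X] [AddCommGroup Y]
    {ρX : G →* AddMonoid.End X} {ρY : G →* AddMonoid.End Y} {u : X →+ Y} (hu : IsHom ρX ρY u)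
    (v₀ : Q) (n : H2 (lv 𝓛 D v₀) (rv D ρX v₀))
    (hn : H2c (lv 𝓛 D v₀) (hu.res (D v₀).subtype) n = 0) :
    famMap hu (Pi.single v₀ n : ∀ v, H2 (lv 𝓛 D v) (rv D ρX v)) = 0 := by
  funext v
  by_cases h : v = v₀
  · subst h
    simp only [famMap, Pi.single_eq_same, hn, Pi.zero_apply]
  · simp only [famMap, Pi.single_eq_of_ne h, map_zero, Pi.zero_apply]

/-- functionals on `Hom_G(K,T)` given by families killed by `i_*` -/
def MAIN3_F : AddSubgroup (↥(H0 (dualRho χ ρK)) →+ ZMod p) where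
  carrier := {l | ∃ n : ∀ v, H2 (lv 𝓛 D v) (rv D ρK v), FS n ∧ famMap S.hi n = 0 ∧
    ∀ φ, dat.gp ρK n φ = l φ}
  add_mem' := by
    rintro a b ⟨n, hn, hn0, hna⟩ ⟨m, hm, hm0, hmb⟩
    refine ⟨n + m, hn.add hm, ?_, fun φ => ?_⟩
    · rw [MAIN34_famMap_add, hn0, hm0, add_zero]
    · rw [dat.gp_add hn hm, hna, hmb]; rfl
  zero_mem' := ⟨0, MAIN34_FS_zero ρK, MAIN34_famMap_zero S.hi, fun φ => MAIN34_gp_zero dat ρK φ⟩
  neg_mem' := by
    rintro a ⟨n, hn, hn0, hna⟩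
    refine ⟨-n, hn.neg, ?_, fun φ => ?_⟩
    · rw [MAIN34_famMap_neg, hn0, neg_zero]
    · rw [MAIN34_gp_neg, hna]; rfl


include hχ hP hInd in
theorem left_kernel [Nonempty Q] (B : ↥(YY 𝓛 D S) →+ ↥(VV2 χ D S) →+ ZMod p)
    (hB : ∀ (y : ↥(YY 𝓛 D S)) (ψ : ↥(VV2 χ D S))
      (e : ∀ v, ↥(H0 (dualRho (χ.comp (D v).subtype) (rv D ρP v)))),
      (∀ v, resKv χ D S v (e v) = locF χ D ρK v ψ.1) →
        B y ψ = ∑ᶠ v, (dat.loc v).pair (rv D ρP v) (locAll 𝓛 D ρP y.1 v) (e v))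
    (y : ↥(YY 𝓛 D S)) : H2c 𝓛 S.hj y.1 = 0 ↔ B y = 0 := by
  classical
  have hK : FinMod p 𝓛 ρK := S.finModA hP
  constructor
  · intro h
    obtain ⟨k, hk⟩ := (H2c_j_eq_zero_iff S hP.smooth y.1).1 h
    ext ψ
    rw [MAIN34_B_eq dat S B hB y ψ (locAll 𝓛 D ρK k) (by rw [← hk, Datum.locAll_H2c]),
      dat.recip']
    rfl
  · intro h
    -- local preimages
    have hloc : ∀ v, ∃ z : H2 (lv 𝓛 D v) (rv D ρK v),
        H2c (lv 𝓛 D v) (S.hi.res (D v).subtype) z = locAll 𝓛 D ρP y.1 v ∧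
          (locAll 𝓛 D ρP y.1 v = 0 → z = 0) := by
      intro v
      by_cases h0 : locAll 𝓛 D ρP y.1 v = 0
      · exact ⟨0, by rw [map_zero, h0], fun _ => rfl⟩
      · have h1 : H2c (lv 𝓛 D v) (S.hj.res (D v).subtype) (locAll 𝓛 D ρP y.1 v) = 0 := by
          have h2 := y.2 v
          rwa [res2_H2c] at h2
        obtain ⟨z, hz⟩ := (H2c_j_eq_zero_iff (S.res (D v).subtype)
          (hP.smooth.res 𝓛 (D v).subtype) _).1 h1
        exact ⟨z, hz, fun h => absurd h h0⟩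
    choose z hz hz0 using hloc
    have hzy : locAll 𝓛 D ρP y.1 = famMap S.hi z := funext fun v => (hz v).symm
    have hzFS : FS z := (dat.fin_ind hInd y.1).subset fun v hv h0 => hv (hz0 v h0)
    have hfinK : Finite (K →+ ZMod p) := by have := hK.fin; exact LA.finite_dual
    have hV : ∀ v : ↥(H0 (dualRho χ ρK)), p • v = 0 := fun v =>
      Subtype.ext (nsmul_dual_eq_zero v.1)
    have hmem : dat.gpHom ρK z hzFS ∈ MAIN3_F dat S := by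
      apply LA.mem_of_annihilator hV
      intro ψ hψ
      have hψV : ψ ∈ VV2 χ D S := by
        intro v
        apply (dat.loc v).extend (hχ.res 𝓛 (D v).subtype) (hP.res (D v).subtype)
          (S.hi.res (D v).subtype) S.inj (locF χ D ρK v ψ)
        intro n hn
        have h1 := hψ (dat.gpHom ρK (Pi.single v n) (FS_single v n))
          ⟨_, FS_single v n, MAIN34_famMap_single S.hi v n hn, fun _ => rfl⟩
        change dat.gp ρK (Pi.single v n) ψ = 0 at h1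
        rw [dat.gp_single] at h1
        exact h1
      change dat.gp ρK z ψ = 0
      rw [← MAIN34_B_eq dat S B hB y ⟨ψ, hψV⟩ z hzy, h]
      rfl
    obtain ⟨n, hn, hn0, hnz⟩ := hmem
    obtain ⟨k, hk⟩ := dat.glob hχ hK (z - n) (hzFS.sub hn) (fun φ => by
      rw [dat.gp_sub hzFS hn, hnz]
      exact sub_self _)
    have h0 : H2c 𝓛 S.hi k - y.1 = 0 := by
      apply dat.hasse_ind hInd
      funext v
      have h1 : locAll 𝓛 D ρP (H2c 𝓛 S.hi k) = locAll 𝓛 D ρP y.1 := by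
        rw [Datum.locAll_H2c, hk, MAIN34_famMap_sub, hn0, sub_zero, hzy]
      change res2 𝓛 ρP (D v).subtype (H2c 𝓛 S.hi k - y.1) = 0
      rw [map_sub, sub_eq_zero]
      exact congrFun h1 v
    exact (H2c_j_eq_zero_iff S hP.smooth y.1).2 ⟨k, sub_eq_zero.1 h0⟩

include hχ hP hInd in
theorem right_kernel [Nonempty Q] (B : ↥(YY 𝓛 D S) →+ ↥(VV2 χ D S) →+ ZMod p)
    (hB : ∀ (y : ↥(YY 𝓛 D S)) (ψ : ↥(VV2 χ D S))
      (e : ∀ v, ↥(H0 (dualRho (χ.comp (D v).subtype) (rv D ρP v)))),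
      (∀ v, resKv χ D S v (e v) = locF χ D ρK v ψ.1) →
        B y ψ = ∑ᶠ v, (dat.loc v).pair (rv D ρP v) (locAll 𝓛 D ρP y.1 v) (e v))
    (ψ : ↥(VV2 χ D S)) : (∃ ψ', resK χ S ψ' = ψ.1) ↔ ∀ y, B y ψ = 0 := by
  have hK : FinMod p 𝓛 ρK := S.finModA hP
  constructor
  · rintro ⟨ψ', hψ'⟩ y
    rw [hB y ψ (fun v => locF χ D ρP v ψ') (fun v => by rw [← hψ']; rfl)]
    exact dat.recip' y.1 ψ'
  · intro h
    by_contra hne
    have hV : ∀ v : ↥(H0 (dualRho χ ρK)), p • v = 0 := fun v =>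
      Subtype.ext (nsmul_dual_eq_zero v.1)
    obtain ⟨μ, hμ0, hμψ⟩ := LA.exists_separating hV (resK χ S).range (v := ψ.1) hne
    obtain ⟨z, hzFS, hz⟩ := dat.exists_fam hχ hK μ
    obtain ⟨y, hy⟩ := dat.ex_ind hInd (famMap S.hi z) (hzFS.famMap S.hi) (fun φ => by
      rw [dat.gp_famMap, hz]
      exact hμ0 _ ⟨φ, rfl⟩)
    apply hμψ
    rw [← hz, ← MAIN34_B_eq dat S B hB ⟨y, MAIN34_mem_YY S y z hP.smooth hy⟩ ψ z hy]
    exact h _

/-! ### assembly -/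

include dat hχ S hP hInd in
theorem dual_of_ses [Nonempty Q] :
    Finite (ShaA2 𝓛 D ρM) ∧ Finite (ShaA1 𝓛 D (dualRho χ ρM)) ∧
      Nat.card (ShaA2 𝓛 D ρM) = Nat.card (ShaA1 𝓛 D (dualRho χ ρM)) := by
  obtain ⟨g, hg, hgk⟩ := exists_g dat hχ S hP hInd
  obtain ⟨B, hB⟩ := exists_B dat S hInd
  have hK : FinMod p 𝓛 ρK := S.finModA hP
  have hM : FinMod p 𝓛 ρM := S.finModC hP
  have hfinK : Finite (K →+ ZMod p) := by have := hK.fin; exact LA.finite_dual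
  have hfinV : Finite ↥(VV2 χ D S) := inferInstance
  have hV : ∀ v : ↥(VV2 χ D S), p • v = 0 := fun v =>
    Subtype.ext (Subtype.ext (nsmul_dual_eq_zero v.1.1))
  let f : ↥(YY 𝓛 D S) →+ ↥(ShaA2 𝓛 D ρM) :=
    ((H2c 𝓛 S.hj).comp (YY 𝓛 D S).subtype).codRestrict (ShaA2 𝓛 D ρM) (fun y => y.2)
  have hf : Function.Surjective f := by
    intro x
    obtain ⟨y, hy⟩ := dat.re hχ hM P ρP hP ε S.hj S.surj x.1
    exact ⟨⟨y, by
      change H2c 𝓛 S.hj y ∈ ShaA2 𝓛 D ρM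
      rw [hy]; exact x.2⟩, Subtype.ext hy⟩
  have hfk : ∀ y, f y = 0 ↔ B y = 0 := fun y => by
    rw [← left_kernel dat hχ S hP hInd B hB y]
    exact Subtype.ext_iff
  have hgk' : ∀ ψ, g ψ = 0 ↔ ∀ y, B y ψ = 0 := fun ψ => by
    rw [hgk ψ, right_kernel dat hχ S hP hInd B hB ψ]
  exact LA.card_eq_of_pairing hV B f hf hfk g hg hgk'

end SESsec

/-- **layer A4** -/
theorem dual_all' [Nonempty Q] (hχ : Smooth 𝓛 (rhoChi χ)) (dat : Datum p 𝓛 χ D)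
    {A : Type} [AddCommGroup A] [Finite A] (hpA : ∀ a : A, p • a = 0)
    (ρ : G →* AddMonoid.End A) (hρ : Smooth 𝓛 ρ) :
    Finite (ShaA2 𝓛 D ρ) ∧ Finite (ShaA1 𝓛 D (dualRho χ ρ)) ∧
      Nat.card (ShaA2 𝓛 D ρ) = Nat.card (ShaA1 𝓛 D (dualRho χ ρ)) := by
  classical
  have hA : FinMod p 𝓛 ρ := ⟨inferInstance, hpA, hρ⟩
  obtain ⟨U, hU, -, h1, h2⟩ := exists_trivOn hχ hA
  have := 𝓛.fin U hU
  have : Fintype (G ⧸ U) := Fintype.ofFinite _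
  have hs : Function.Surjective (eps (G ⧸ U) A) := fun a =>
    ⟨Pi.single ((1 : G) : G ⧸ U) a, by simp⟩
  exact dual_of_ses dat hχ (ses_ker (isHom_eps (cosetPerm U) ρ) hs)
    (hA.fn (smoothSet_cosetPerm hU)) (isInd_Fn_coset hA hU h1 h2)

end Fermat.Agent.S55
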