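import Fermat.Agent.S55.A.Basic

/-!
# S55 / A2 : finite modules; sub-, quotient- and product modules  (helper8)
-/

set_option autoImplicit false

namespace Fermat.Agent.S55

variable {G : Type*} [Group G]

/-- finite smooth modules killed by `p` -/
structure FinMod (p : ℕ) (𝓛 : Lvl G) {A : Type*} [AddCommGroup A] (ρ : G →* AddMonoid.End A) :
    Prop where
  fin : Finite A
  tors : ∀ a : A, p • a = 0
  smooth : Smooth 𝓛 ρ

section Sub

variable {A : Type*} [AddCommGroup A] (ρ : G →* AddMonoid.End A) (S : AddSubgroup A)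

/-- stable subgroups -/
def Stable : Prop := ∀ g, ∀ a ∈ S, ρ g a ∈ S

variable {ρ S}

/-- the action on a stable subgroup -/
def subRho (hS : Stable ρ S) : G →* AddMonoid.End S where
  toFun g := ((ρ g).comp S.subtype).codRestrict S (fun a => hS g a a.2)
  map_one' := by
    ext a
    change ρ 1 (a : A) = a
    simp
  map_mul' g h := by
    ext a
    change ρ (g * h) (a : A) = ρ g (ρ h (a : A))
    simp

@[simp] theorem coe_subRho (hS : Stable ρ S) (g : G) (a : S) : (subRho hS g a : A) = ρ g a := rfl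

theorem isHom_subtype (hS : Stable ρ S) : IsHom (subRho hS) ρ S.subtype := fun _ _ => rfl

/-- the action on the quotient by a stable subgroup -/
def quotRho (hS : Stable ρ S) : G →* AddMonoid.End (A ⧸ S) where
  toFun g := QuotientAddGroup.map S S (ρ g) (fun a ha => hS g a ha)
  map_one' := by
    ext a
    obtain ⟨a, rfl⟩ := QuotientAddGroup.mk'_surjective S a
    change ((ρ 1 a : A) : A ⧸ S) = a
    simp
  map_mul' g h := by
    ext a
    obtain ⟨a, rfl⟩ := QuotientAddGroup.mk'_surjective S a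
    change ((ρ (g * h) a : A) : A ⧸ S) = ((ρ g (ρ h a) : A) : A ⧸ S)
    simp

@[simp] theorem quotRho_mk (hS : Stable ρ S) (g : G) (a : A) :
    quotRho hS g (a : A ⧸ S) = ((ρ g a : A) : A ⧸ S) := rfl

theorem isHom_mk' (hS : Stable ρ S) : IsHom ρ (quotRho hS) (QuotientAddGroup.mk' S) :=
  fun _ _ => rfl

theorem ses_subQuot (hS : Stable ρ S) :
    SES (subRho hS) ρ (quotRho hS) S.subtype (QuotientAddGroup.mk' S) where
  hi := isHom_subtype hS
  hj := isHom_mk' hS
  inj := Subtype.val_injective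
  surj := QuotientAddGroup.mk'_surjective S
  exact b := by
    rw [QuotientAddGroup.mk'_apply, QuotientAddGroup.eq_zero_iff]
    exact ⟨fun h => ⟨⟨b, h⟩, rfl⟩, by rintro ⟨a, rfl⟩; exact a.2⟩

variable {p : ℕ} {𝓛 : Lvl G}

theorem FinMod.sub (h : FinMod p 𝓛 ρ) (hS : Stable ρ S) : FinMod p 𝓛 (subRho hS) where
  fin := by have := h.fin; infer_instance
  tors a := Subtype.ext (by simpa using h.tors a)
  smooth := (ses_subQuot hS).smoothA h.smooth

theorem FinMod.quot (h : FinMod p 𝓛 ρ) (hS : Stable ρ S) : FinMod p 𝓛 (quotRho hS) where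
  fin := by have := h.fin; infer_instance
  tors a := by
    obtain ⟨a, rfl⟩ := QuotientAddGroup.mk'_surjective S a
    rw [← map_nsmul, h.tors, map_zero]
  smooth := (ses_subQuot hS).smoothC h.smooth

end Sub

section Ker

variable {A B : Type*} [AddCommGroup A] [AddCommGroup B]
  {ρA : G →* AddMonoid.End A} {ρB : G →* AddMonoid.End B} {j : A →+ B}

theorem stable_ker (hj : IsHom ρA ρB j) : Stable ρA j.ker := fun g a ha => by
  rw [AddMonoidHom.mem_ker] at ha ⊢
  rw [hj, ha, map_zero]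

theorem stable_range (hj : IsHom ρA ρB j) : Stable ρB j.range := by
  rintro g _ ⟨a, rfl⟩
  exact ⟨ρA g a, hj g a⟩

/-- the kernel sequence of an equivariant surjection -/
theorem ses_ker (hj : IsHom ρA ρB j) (hs : Function.Surjective j) :
    SES (subRho (stable_ker hj)) ρA ρB j.ker.subtype j where
  hi := isHom_subtype _
  hj := hj
  inj := Subtype.val_injective
  surj := hs
  exact b := ⟨fun h => ⟨⟨b, h⟩, rfl⟩, by rintro ⟨a, rfl⟩; exact a.2⟩

end Ker

section Prod

variable {A B : Type*} [AddCommGroup A] [AddCommGroup B]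
  (ρA : G →* AddMonoid.End A) (ρB : G →* AddMonoid.End B)

/-- the product module -/
def prodRho : G →* AddMonoid.End (A × B) where
  toFun g := AddMonoidHom.prodMap (ρA g) (ρB g)
  map_one' := by
    ext x
    · change ρA 1 x.1 = x.1
      simp
    · change ρB 1 x.2 = x.2
      simp
  map_mul' g h := by
    ext x
    · change ρA (g * h) x.1 = ρA g (ρA h x.1)
      simp
    · change ρB (g * h) x.2 = ρB g (ρB h x.2)
      simp

@[simp] theorem prodRho_apply (g : G) (x : A × B) : prodRho ρA ρB g x = (ρA g x.1, ρB g x.2) := rfl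

theorem isHom_fst : IsHom (prodRho ρA ρB) ρA (AddMonoidHom.fst A B) := fun _ _ => rfl
theorem isHom_snd : IsHom (prodRho ρA ρB) ρB (AddMonoidHom.snd A B) := fun _ _ => rfl
theorem isHom_inl : IsHom ρA (prodRho ρA ρB) (AddMonoidHom.inl A B) := fun g a => by
  ext <;> simp
theorem isHom_inr : IsHom ρB (prodRho ρA ρB) (AddMonoidHom.inr A B) := fun g a => by
  ext <;> simp

variable {ρA ρB} {p : ℕ} {𝓛 : Lvl G}

theorem FinMod.prod (hA : FinMod p 𝓛 ρA) (hB : FinMod p 𝓛 ρB) : FinMod p 𝓛 (prodRho ρA ρB) where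
  fin := by have := hA.fin; have := hB.fin; infer_instance
  tors x := by ext <;> simp [hA.tors, hB.tors]
  smooth x := by
    obtain ⟨U, hU, h⟩ := hA.smooth x.1
    obtain ⟨V, hV, h'⟩ := hB.smooth x.2
    obtain ⟨W, hW, hWU⟩ := 𝓛.inter U hU V hV
    exact ⟨W, hW, fun u hu => by
      rw [prodRho_apply, h u (hWU hu).1, h' u (hWU hu).2]⟩

end Prod

section Misc

variable {p : ℕ} {𝓛 : Lvl G} {A B C : Type*} [AddCommGroup A] [AddCommGroup B] [AddCommGroup C]
  {ρA : G →* AddMonoid.End A} {ρB : G →* AddMonoid.End B} {ρC : G →* AddMonoid.End C}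

/-- a finite smooth module is fixed pointwise by a normal level -/
theorem FinMod.exists_trivial (h : FinMod p 𝓛 ρA) :
    ∃ U ∈ 𝓛.sets, U.Normal ∧ ∀ u ∈ U, ∀ a, ρA u a = a := by
  have := h.fin
  obtain ⟨U, hU, hu⟩ := h.smooth.exists_of_finite (Set.finite_univ (α := A))
  obtain ⟨W, hW, hWU, hn⟩ := 𝓛.normal U hU
  exact ⟨W, hW, hn, fun u hu' a => hu u (hWU hu') a (Set.mem_univ a)⟩

theorem FinMod.res {H : Type*} [Group H] (h : FinMod p 𝓛 ρA) (r : H →* G) :
    FinMod p (𝓛.comap r) (ρA.comp r) := ⟨h.fin, h.tors, h.smooth.res 𝓛 r⟩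

theorem SES.finModA {i : A →+ B} {j : B →+ C} (S : SES ρA ρB ρC i j) (h : FinMod p 𝓛 ρB) :
    FinMod p 𝓛 ρA where
  fin := by have := h.fin; exact Finite.of_injective i S.inj
  tors a := S.inj (by rw [map_nsmul, h.tors, map_zero])
  smooth := S.smoothA h.smooth

theorem SES.finModC {i : A →+ B} {j : B →+ C} (S : SES ρA ρB ρC i j) (h : FinMod p 𝓛 ρB) :
    FinMod p 𝓛 ρC where
  fin := by have := h.fin; exact Finite.of_surjective j S.surj
  tors c := by
    obtain ⟨b, rfl⟩ := S.surj c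
    rw [← map_nsmul, h.tors, map_zero]
  smooth := S.smoothC h.smooth

/-- `Fn π ρ` is a finite module -/
theorem FinMod.fn {Sg : Type*} [Finite Sg] {π : G →* Equiv.Perm Sg} (hπ : SmoothSet π 𝓛)
    (h : FinMod p 𝓛 ρA) : FinMod p 𝓛 (Fn π ρA) where
  fin := by have := h.fin; infer_instance
  tors f := by ext s; simp [h.tors]
  smooth f := by
    obtain ⟨U, hU, -, hu⟩ := h.exists_trivial
    obtain ⟨V, hV, hv⟩ := hπ
    obtain ⟨W, hW, hWU⟩ := 𝓛.inter U hU V hV
    refine ⟨W, hW, fun u hu' => ?_⟩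
    ext s
    rw [Fn_apply, hv u (hWU hu').2, hu u (hWU hu').1]
    rfl

end Misc

end Fermat.Agent.S55
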