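import Fermat.Agent.S55.A.Mod

/-!
# S55 / A2 : `push` / `pull` calculus and the orbit decomposition of `Fn π ρ`  (key `S55/A-ORB`)

`Orb π` = set of orbits of the finite `G`-set `(Sg, π)`, `OrbPts π o` = the points of the orbit `o`
(a transitive `G`-set via `orbPerm π o`), `OrbPts.incl : OrbPts π o → Sg`.
`Fn π ρ = ⨁_o Fn (orbPerm π o) ρ` via `pull incl` (restriction) and `push incl` (extension by zero).
All proofs are elementary manipulations of finite sums.
-/

set_option autoImplicit false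

noncomputable section

namespace Fermat.Agent.S55

variable {G : Type*} [Group G]

/-! ### `push`, `pull`, `eps`, `eta`, `post` -/

section Calc

variable {Sg Sg' Sg'' : Type*} {A B : Type*} [AddCommGroup A] [AddCommGroup B]

theorem push_comp [Fintype Sg'] [Fintype Sg''] (u : Sg' → Sg) (u' : Sg'' → Sg') (f : Sg'' → A) :
    push A u (push A u' f) = push A (u ∘ u') f := by
  classical
  ext s
  simp only [push_apply, Function.comp_apply]
  rw [← Finset.sum_fiberwise_of_maps_to (s := Finset.univ.filter (fun s'' => u (u' s'') = s))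
    (t := Finset.univ.filter (fun s' => u s' = s)) (g := u') (fun x hx => by simpa using hx)]
  refine Finset.sum_congr rfl fun a ha => ?_
  refine Finset.sum_congr ?_ fun _ _ => rfl
  ext x
  simp only [Finset.mem_filter, Finset.mem_univ, true_and] at ha ⊢
  constructor
  · rintro rfl; exact ⟨ha, rfl⟩
  · exact fun h => h.2

theorem eps_push [Fintype Sg] [Fintype Sg'] (u : Sg' → Sg) (f : Sg' → A) :
    eps Sg A (push A u f) = eps Sg' A f := by
  classical
  simp only [eps_apply, push_apply]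
  exact Finset.sum_fiberwise _ u f

theorem pull_push_of_injective [Fintype Sg'] {u : Sg' → Sg} (hu : Function.Injective u)
    (f : Sg' → A) : pull A u (push A u f) = f := by
  classical
  ext s
  simp only [pull_apply, push_apply]
  rw [Finset.sum_eq_single_of_mem s (by simp)]
  intro b hb hne
  exact absurd (hu (Finset.mem_filter.1 hb).2) hne

theorem post_push [Fintype Sg'] (u : Sg' → Sg) (φ : A →+ B) (f : Sg' → A) :
    post Sg φ (push A u f) = push B u (post Sg' φ f) := by
  classical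
  ext s
  simp only [post_apply, push_apply, map_sum]

theorem post_pull (u : Sg' → Sg) (φ : A →+ B) (f : Sg → A) :
    post Sg' φ (pull A u f) = pull B u (post Sg φ f) := rfl

theorem eps_post [Fintype Sg] (φ : A →+ B) (f : Sg → A) :
    eps Sg B (post Sg φ f) = φ (eps Sg A f) := by
  simp

theorem eps_eta [Fintype Sg] (a : A) : eps Sg A (eta Sg A a) = Fintype.card Sg • a := by
  simp

/-- push forward along an equivariant bijection is inverse to pull back -/
theorem push_pull_of_bijective [Fintype Sg'] {u : Sg' → Sg} (hu : Function.Bijective u)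
    (f : Sg → A) : push A u (pull A u f) = f := by
  classical
  ext s
  obtain ⟨s', rfl⟩ := hu.2 s
  exact congrFun (pull_push_of_injective hu.1 (pull A u f)) s'

end Calc

/-! ### orbits -/

section Orbits

variable {Sg : Type*} (π : G →* Equiv.Perm Sg)

/-- the orbit relation -/
def orbSetoid : Setoid Sg where
  r s s' := ∃ g, π g s = s'
  iseqv :=
    { refl := fun s => ⟨1, by simp⟩
      symm := by
        rintro s _ ⟨g, rfl⟩
        exact ⟨g⁻¹, by simp⟩
      trans := by
        rintro s _ _ ⟨g, rfl⟩ ⟨h, rfl⟩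
        exact ⟨h * g, by simp⟩ }

/-- the set of orbits -/
def Orb : Type _ := Quotient (orbSetoid π)

/-- the orbit of a point -/
def orbOf (s : Sg) : Orb π := Quotient.mk (orbSetoid π) s

theorem orbOf_eq_iff {s s' : Sg} : orbOf π s = orbOf π s' ↔ ∃ g, π g s = s' :=
  Quotient.eq (r := orbSetoid π)

theorem orbOf_smul (g : G) (s : Sg) : orbOf π (π g s) = orbOf π s :=
  ((orbOf_eq_iff π).2 ⟨g, rfl⟩).symm

theorem orbOf_surjective : Function.Surjective (orbOf π) := Quotient.mk_surjective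

instance [Finite Sg] : Finite (Orb π) := Finite.of_surjective _ (orbOf_surjective π)

instance [Finite Sg] : Fintype (Orb π) := Fintype.ofFinite _

/-- the points of an orbit -/
def OrbPts (o : Orb π) : Type _ := {s : Sg // orbOf π s = o}

variable {π}

/-- the inclusion of an orbit -/
def OrbPts.incl {o : Orb π} (s : OrbPts π o) : Sg := s.1

theorem OrbPts.incl_injective (o : Orb π) : Function.Injective (OrbPts.incl (o := o)) :=
  Subtype.val_injective

theorem OrbPts.orbOf_incl {o : Orb π} (s : OrbPts π o) : orbOf π s.incl = o := s.2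

instance [Finite Sg] (o : Orb π) : Finite (OrbPts π o) :=
  Finite.of_injective _ (OrbPts.incl_injective o)

instance [Finite Sg] (o : Orb π) : Fintype (OrbPts π o) := Fintype.ofFinite _

variable (π)

/-- the action on an orbit -/
def orbPerm (o : Orb π) : G →* Equiv.Perm (OrbPts π o) where
  toFun g :=
    { toFun := fun s => ⟨π g s.1, by rw [orbOf_smul]; exact s.2⟩
      invFun := fun s => ⟨(π g)⁻¹ s.1, by
        have := orbOf_smul π g⁻¹ s.1
        rw [map_inv] at this
        rw [this]; exact s.2⟩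
      left_inv := fun s => Subtype.ext (by simp)
      right_inv := fun s => Subtype.ext (by simp) }
  map_one' := by
    ext s
    apply Subtype.ext
    change π 1 s.1 = s.1
    simp
  map_mul' g h := by
    ext s
    apply Subtype.ext
    change π (g * h) s.1 = π g (π h s.1)
    simp

@[simp] theorem incl_orbPerm (o : Orb π) (g : G) (s : OrbPts π o) :
    (orbPerm π o g s).incl = π g s.incl := rfl

theorem isSetMap_incl (o : Orb π) : IsSetMap π (orbPerm π o) OrbPts.incl := fun _ _ => rfl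

theorem isTrans_orbPerm (o : Orb π) : IsTrans (orbPerm π o) := by
  obtain ⟨s, rfl⟩ := orbOf_surjective π o
  refine ⟨⟨⟨s, rfl⟩⟩, fun a b => ?_⟩
  obtain ⟨g, hg⟩ := (orbOf_eq_iff π).1 (a.2.trans b.2.symm)
  exact ⟨g, Subtype.ext hg⟩

theorem smoothSet_orbPerm {𝓛 : Lvl G} (h : SmoothSet π 𝓛) (o : Orb π) :
    SmoothSet (orbPerm π o) 𝓛 := by
  obtain ⟨U, hU, hu⟩ := h
  refine ⟨U, hU, fun u hu' => ?_⟩
  ext s
  apply Subtype.ext
  change π u s.1 = s.1
  rw [hu u hu']
  rfl

variable {A : Type*} [AddCommGroup A] [Fintype Sg]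

theorem pull_push_orb (o : Orb π) (f : OrbPts π o → A) :
    pull A OrbPts.incl (push A OrbPts.incl f) = f :=
  pull_push_of_injective (OrbPts.incl_injective o) f

theorem pull_push_orb_ne {o o' : Orb π} (h : o ≠ o') (f : OrbPts π o → A) :
    pull A (OrbPts.incl (o := o')) (push A OrbPts.incl f) = 0 := by
  classical
  ext s
  simp only [pull_apply, push_apply, Pi.zero_apply]
  refine Finset.sum_eq_zero fun b hb => ?_
  have h1 : b.incl = s.incl := (Finset.mem_filter.1 hb).2
  exact absurd (by rw [← b.orbOf_incl, h1, s.orbOf_incl]) h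

theorem sum_push_pull_orb (f : Sg → A) :
    ∑ o : Orb π, push A OrbPts.incl (pull A (OrbPts.incl (o := o)) f) = f := by
  classical
  ext s
  rw [Finset.sum_apply, Finset.sum_eq_single_of_mem (orbOf π s) (Finset.mem_univ _)]
  · have h1 := congrFun (pull_push_orb π (orbOf π s) (pull A OrbPts.incl f)) ⟨s, rfl⟩
    exact h1
  · intro o _ ho
    rw [push_apply]
    refine Finset.sum_eq_zero fun b hb => ?_
    have h1 : b.incl = s := (Finset.mem_filter.1 hb).2
    exact absurd (by rw [← b.orbOf_incl, h1]) ho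

variable (𝓛 : Lvl G) (ρ : G →* AddMonoid.End A)

/-- restriction to an orbit, on `H²` -/
def H2pullO (o : Orb π) : H2 𝓛 (Fn π ρ) →+ H2 𝓛 (Fn (orbPerm π o) ρ) :=
  H2c 𝓛 (isHom_pull ρ (isSetMap_incl π o))

/-- extension by zero from an orbit, on `H²` -/
def H2pushO (o : Orb π) : H2 𝓛 (Fn (orbPerm π o) ρ) →+ H2 𝓛 (Fn π ρ) :=
  H2c 𝓛 (isHom_push ρ (isSetMap_incl π o))

/-- restriction to an orbit, on `H¹` -/
def H1pullO (o : Orb π) : H1 𝓛 (Fn π ρ) →+ H1 𝓛 (Fn (orbPerm π o) ρ) :=
  H1c 𝓛 (isHom_pull ρ (isSetMap_incl π o))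

/-- extension by zero from an orbit, on `H¹` -/
def H1pushO (o : Orb π) : H1 𝓛 (Fn (orbPerm π o) ρ) →+ H1 𝓛 (Fn π ρ) :=
  H1c 𝓛 (isHom_push ρ (isSetMap_incl π o))

theorem H2_orb_decomp (x : H2 𝓛 (Fn π ρ)) :
    ∑ o : Orb π, H2pushO π 𝓛 ρ o (H2pullO π 𝓛 ρ o x) = x := by
  have h1 : ∀ o : Orb π, H2pushO π 𝓛 ρ o (H2pullO π 𝓛 ρ o x) =
      H2c 𝓛 ((isHom_push ρ (isSetMap_incl π o)).comp (isHom_pull ρ (isSetMap_incl π o))) x :=
    fun o => (H2c_comp 𝓛 _ _ x).symm
  simp only [h1]
  rw [← H2c_sum 𝓛 Finset.univ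
    (fun o => (isHom_push ρ (isSetMap_incl π o)).comp (isHom_pull ρ (isSetMap_incl π o))) x]
  refine H2c_of_id 𝓛 _ (fun f => ?_) x
  rw [AddMonoidHom.finsetSum_apply]
  exact sum_push_pull_orb π f

theorem H1_orb_decomp (x : H1 𝓛 (Fn π ρ)) :
    ∑ o : Orb π, H1pushO π 𝓛 ρ o (H1pullO π 𝓛 ρ o x) = x := by
  have h1 : ∀ o : Orb π, H1pushO π 𝓛 ρ o (H1pullO π 𝓛 ρ o x) =
      H1c 𝓛 ((isHom_push ρ (isSetMap_incl π o)).comp (isHom_pull ρ (isSetMap_incl π o))) x :=
    fun o => (H1c_comp 𝓛 _ _ x).symm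
  simp only [h1]
  rw [← H1c_sum 𝓛 Finset.univ
    (fun o => (isHom_push ρ (isSetMap_incl π o)).comp (isHom_pull ρ (isSetMap_incl π o))) x]
  refine H1c_of_id 𝓛 _ (fun f => ?_) x
  rw [AddMonoidHom.finsetSum_apply]
  exact sum_push_pull_orb π f

theorem H2pullO_pushO (o : Orb π) (x : H2 𝓛 (Fn (orbPerm π o) ρ)) :
    H2pullO π 𝓛 ρ o (H2pushO π 𝓛 ρ o x) = x :=
  H2c_retract 𝓛 _ _ (pull_push_orb π o) x

theorem H2pullO_pushO_ne {o o' : Orb π} (h : o ≠ o') (x : H2 𝓛 (Fn (orbPerm π o) ρ)) :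
    H2pullO π 𝓛 ρ o' (H2pushO π 𝓛 ρ o x) = 0 := by
  rw [H2pullO, H2pushO, H2c_H2c 𝓛 _ _ (IsHom.zero _ _) (pull_push_orb_ne π h), H2c_zero]

/-- a class is determined by its restrictions to the orbits -/
theorem H2_ext_orb {x : H2 𝓛 (Fn π ρ)} (h : ∀ o, H2pullO π 𝓛 ρ o x = 0) : x = 0 := by
  rw [← H2_orb_decomp π 𝓛 ρ x]
  exact Finset.sum_eq_zero fun o _ => by rw [h o, map_zero]

theorem H1_ext_orb {x : H1 𝓛 (Fn π ρ)} (h : ∀ o, H1pullO π 𝓛 ρ o x = 0) : x = 0 := by
  rw [← H1_orb_decomp π 𝓛 ρ x]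
  exact Finset.sum_eq_zero fun o _ => by rw [h o, map_zero]

end Orbits

/-! ### maps of `G`-sets and orbits -/

section Maps

variable {Sg Sg' : Type*} {π : G →* Equiv.Perm Sg} {π' : G →* Equiv.Perm Sg'}

/-- the restriction of a map of `G`-sets to an orbit -/
def orbMap {u : Sg' → Sg} (hu : IsSetMap π π' u) (s' : Sg') :
    OrbPts π' (orbOf π' s') → OrbPts π (orbOf π (u s')) :=
  fun x => ⟨u x.1, by
    obtain ⟨g, hg⟩ := (orbOf_eq_iff π').1 x.2
    rw [orbOf_eq_iff]
    exact ⟨g, by rw [← hu, hg]⟩⟩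

theorem incl_orbMap {u : Sg' → Sg} (hu : IsSetMap π π' u) (s' : Sg')
    (x : OrbPts π' (orbOf π' s')) : (orbMap hu s' x).incl = u x.incl := rfl

theorem isSetMap_orbMap {u : Sg' → Sg} (hu : IsSetMap π π' u) (s' : Sg') :
    IsSetMap (orbPerm π _) (orbPerm π' _) (orbMap hu s') :=
  fun g x => Subtype.ext (hu g x.1)

end Maps

end Fermat.Agent.S55
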