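import Fermat.Agent.S55.A.Tw

/-!
# S55 / A3 : right exactness of `H²`, formal part  (key `S55/A-RE`)

`RE p 𝓛 ρC` : every equivariant surjection `B ↠ C` from a finite module induces a surjection on `H²`.
`CS0 p 𝓛 χ` : `push_* : H²(Fn Σ' T) → H²(Fn Σ T)` is onto for every surjective map `Σ' → Σ` of finite smooth `G`-sets.

* `RE.of_retract` : `X --a--> Y --b--> X`, `b a = 1`, `RE Y`.  Given `j : B ↠ X` put
  `J : B × Y → Y`, `J (β, y) = a (j β) + (y - a (b y))` (equivariant, onto).  For `x ∈ H²(X)`: `a_* x = J_* w`, and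
  `b ∘ J = j ∘ fst`, so `x = b_* a_* x = j_* (fst_* w)`.
* `RE.of_ses` : `0 → X₁ → X → X₂ → 0`, `j : B ↠ X`.  `x ∈ H²(X)`; `q_* x = (q j)_* b` (`RE X₂`); `x - j_* b = i_* x₁`
  (`H2c_j_eq_zero_iff`); `B₁ = ker (q j)` (`subRho (stable_ker _)`), `j₁ : B₁ ↠ X₁` with `i j₁ = j ∘ incl`
  (`(AddMonoidHom.ofInjective S.inj).symm`); `x₁ = j₁_* b₁` (`RE X₁`); `x = j_* (b + incl_* b₁)`.
* `RE_Fn` : `X = Fn π T`, `j : B ↠ X`, `U` normal level acting trivially on `B` and `X`.  `CS0` for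
  `snd : G/U × Σ → Σ`: `x = push_* x'`; `x'' = curry_* x' ∈ H²(Fn(G/U, X))`, `eps_* x'' = x` (`eps_curryFn`);
  `S` the section of `post j` (`exists_section_post`); `x = eps_* (post j)_* S_* x'' = j_* (eps_* S_* x'')` (`eps_post`).
-/

set_option autoImplicit false

noncomputable section

namespace Fermat.Agent.S55

variable {G : Type} [Group G] (p : ℕ) [Fact p.Prime] (𝓛 : Lvl G)

/-- right exactness of `H²` at `C` -/
def RE {C : Type} [AddCommGroup C] (ρC : G →* AddMonoid.End C) : Prop :=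
  ∀ (B : Type) [AddCommGroup B] (ρB : G →* AddMonoid.End B), FinMod p 𝓛 ρB →
    ∀ (j : B →+ C) (hj : IsHom ρB ρC j), Function.Surjective j → Function.Surjective (H2c 𝓛 hj)

/-- corestriction is onto on `H²(·, μ_p)` -/
def CS0 (χ : G →* (ZMod p)ˣ) : Prop :=
  ∀ (Sg Sg' : Type) [Fintype Sg] [Fintype Sg'] (π : G →* Equiv.Perm Sg) (π' : G →* Equiv.Perm Sg')
    (u : Sg' → Sg) (hu : IsSetMap π π' u), SmoothSet π 𝓛 → SmoothSet π' 𝓛 →
      Function.Surjective u → Function.Surjective (H2c 𝓛 (isHom_push (rhoChi χ) hu))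

variable {p 𝓛}

theorem subsingleton_H2 {C : Type*} [AddCommGroup C] [Subsingleton C] (ρC : G →* AddMonoid.End C) :
    Subsingleton (H2 𝓛 ρC) := by
  refine ⟨fun x y => ?_⟩
  obtain ⟨f, rfl⟩ := H2.mk_surjective 𝓛 ρC x
  obtain ⟨g, rfl⟩ := H2.mk_surjective 𝓛 ρC y
  congr 1
  ext a b
  exact Subsingleton.elim _ _

theorem RE.of_subsingleton {C : Type} [AddCommGroup C] [Subsingleton C]
    (ρC : G →* AddMonoid.End C) : RE p 𝓛 ρC := by
  intro B _ ρB _ j hj _ x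
  have := subsingleton_H2 (𝓛 := 𝓛) ρC
  exact ⟨0, Subsingleton.elim _ _⟩

theorem RE.of_retract {X Y : Type} [AddCommGroup X] [AddCommGroup Y] {ρX : G →* AddMonoid.End X}
    {ρY : G →* AddMonoid.End Y} (hY : FinMod p 𝓛 ρY) {a : X →+ Y} {b : Y →+ X}
    (ha : IsHom ρX ρY a) (hb : IsHom ρY ρX b) (hba : ∀ x, b (a x) = x) (h : RE p 𝓛 ρY) :
    RE p 𝓛 ρX := by
  intro B _ ρB hB j hj hs x
  have hfst := isHom_fst ρB ρY
  have hsnd := isHom_snd ρB ρY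
  have hJ : IsHom (prodRho ρB ρY) ρY
      (a.comp (j.comp (AddMonoidHom.fst B Y)) +
        (AddMonoidHom.snd B Y - a.comp (b.comp (AddMonoidHom.snd B Y)))) :=
    (ha.comp (hj.comp hfst)).add (hsnd.sub (ha.comp (hb.comp hsnd)))
  have hJs : Function.Surjective (a.comp (j.comp (AddMonoidHom.fst B Y)) +
        (AddMonoidHom.snd B Y - a.comp (b.comp (AddMonoidHom.snd B Y)))) := by
    intro y
    obtain ⟨β, hβ⟩ := hs (b y)
    refine ⟨(β, y), ?_⟩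
    simp only [AddMonoidHom.add_apply, AddMonoidHom.sub_apply, AddMonoidHom.comp_apply,
      AddMonoidHom.coe_fst, AddMonoidHom.coe_snd, hβ]
    abel
  obtain ⟨w, hw⟩ := h (B × Y) (prodRho ρB ρY) (hB.prod hY) _ hJ hJs (H2c 𝓛 ha x)
  refine ⟨H2c 𝓛 hfst w, ?_⟩
  rw [← H2c_retract 𝓛 ha hb hba x, ← hw]
  rw [H2c_H2c 𝓛 hj hfst (hj.comp hfst) (fun _ => rfl)]
  rw [H2c_H2c 𝓛 hb hJ (hj.comp hfst)]
  intro z
  simp only [AddMonoidHom.add_apply, AddMonoidHom.sub_apply, AddMonoidHom.comp_apply,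
    AddMonoidHom.coe_fst, AddMonoidHom.coe_snd, map_add, map_sub, hba]
  abel

theorem RE.of_ses {X₁ X X₂ : Type} [AddCommGroup X₁] [AddCommGroup X] [AddCommGroup X₂]
    {ρ₁ : G →* AddMonoid.End X₁} {ρ : G →* AddMonoid.End X} {ρ₂ : G →* AddMonoid.End X₂}
    {i : X₁ →+ X} {q : X →+ X₂} (S : SES ρ₁ ρ ρ₂ i q) (hρ : Smooth 𝓛 ρ)
    (h₁ : RE p 𝓛 ρ₁) (h₂ : RE p 𝓛 ρ₂) : RE p 𝓛 ρ := by
  intro B _ ρB hB j hj hs x
  have hqj : IsHom ρB ρ₂ (q.comp j) := S.hj.comp hj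
  have hqjs : Function.Surjective (q.comp j) := S.surj.comp hs
  obtain ⟨b, hb⟩ := h₂ B ρB hB (q.comp j) hqj hqjs (H2c 𝓛 S.hj x)
  have h0 : H2c 𝓛 S.hj (x - H2c 𝓛 hj b) = 0 := by
    rw [map_sub, H2c_H2c 𝓛 S.hj hj hqj (fun _ => rfl), hb, sub_self]
  obtain ⟨x₁, hx₁⟩ := (H2c_j_eq_zero_iff S hρ _).1 h0
  -- the kernel of `q ∘ j`
  have hst : Stable ρB (q.comp j).ker := stable_ker hqj
  have hmem : ∀ β : (q.comp j).ker, (j.comp (q.comp j).ker.subtype) β ∈ i.range := by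
    intro β
    obtain ⟨y, hy⟩ := (S.exact (j β)).1 β.2
    exact ⟨y, hy⟩
  set j₁ : (q.comp j).ker →+ X₁ :=
    ((AddMonoidHom.ofInjective S.inj).symm : i.range →+ X₁).comp
      ((j.comp (q.comp j).ker.subtype).codRestrict i.range hmem) with hj₁def
  have hij₁ : ∀ β : (q.comp j).ker, i (j₁ β) = j β := by
    intro β
    have := AddMonoidHom.apply_ofInjective_symm S.inj
      (((j.comp (q.comp j).ker.subtype).codRestrict i.range hmem) β)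
    exact this
  have hj₁ : IsHom (subRho hst) ρ₁ j₁ := by
    intro g β
    apply S.inj
    rw [hij₁, S.hi, hij₁, coe_subRho, hj]
  have hj₁s : Function.Surjective j₁ := by
    intro y
    obtain ⟨β, hβ⟩ := hs (i y)
    have hβk : β ∈ (q.comp j).ker := by
      rw [AddMonoidHom.mem_ker, AddMonoidHom.comp_apply, hβ, S.comp_eq_zero]
    refine ⟨⟨β, hβk⟩, S.inj ?_⟩
    rw [hij₁, hβ]
  obtain ⟨b₁, hb₁⟩ := h₁ _ (subRho hst) (hB.sub hst) j₁ hj₁ hj₁s x₁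
  refine ⟨b + H2c 𝓛 (isHom_subtype hst) b₁, ?_⟩
  rw [map_add, H2c_H2c 𝓛 hj (isHom_subtype hst) (S.hi.comp hj₁) (fun β => (hij₁ β).symm),
    H2c_comp 𝓛 S.hi hj₁, hb₁, hx₁]
  abel

theorem RE_Fn {χ : G →* (ZMod p)ˣ} (hχ : Smooth 𝓛 (rhoChi χ)) (h : CS0 p 𝓛 χ)
    {Sg : Type} [Fintype Sg] {π : G →* Equiv.Perm Sg} (hπ : SmoothSet π 𝓛) :
    RE p 𝓛 (Fn π (rhoChi χ)) := by
  intro B _ ρB hB j hj hs x
  have hX : FinMod p 𝓛 (Fn π (rhoChi χ)) := (finMod_rhoChi hχ).fn hπ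
  obtain ⟨U₁, hU₁, -, ht₁⟩ := hB.exists_trivial
  obtain ⟨U₂, hU₂, -, ht₂⟩ := hX.exists_trivial
  obtain ⟨U, hU, hUle⟩ := 𝓛.inter U₁ hU₁ U₂ hU₂
  have hTB : TrivOn U ρB := fun u hu a => ht₁ u (hUle hu).1 a
  have hTX : TrivOn U (Fn π (rhoChi χ)) := fun u hu a => ht₂ u (hUle hu).2 a
  have := 𝓛.fin U hU
  letI : Fintype (G ⧸ U) := Fintype.ofFinite _
  have hsm : SmoothSet (prodPerm (cosetPerm U) π) 𝓛 :=
    smoothSet_prodPerm (smoothSet_cosetPerm hU) hπ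
  have hsnd : IsSetMap π (prodPerm (cosetPerm U) π) Prod.snd := isSetMap_snd _ _
  have hsurj : Function.Surjective (Prod.snd : (G ⧸ U) × Sg → Sg) :=
    fun s => ⟨(((1 : G) : G ⧸ U), s), rfl⟩
  obtain ⟨x', hx'⟩ := h Sg ((G ⧸ U) × Sg) π (prodPerm (cosetPerm U) π) Prod.snd hsnd hπ hsm hsurj x
  obtain ⟨Sc, hSc, hSc'⟩ := exists_section_post (p := p) hTB hTX hB.tors hX.tors hj hs
  have hcur := isHom_curryFn (cosetPerm U) π (rhoChi χ)
  have hepsX := isHom_eps (cosetPerm U) (Fn π (rhoChi χ))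
  have hepsB := isHom_eps (cosetPerm U) ρB
  refine ⟨H2c 𝓛 hepsB (H2c 𝓛 hSc (H2c 𝓛 hcur x')), ?_⟩
  rw [← hx']
  rw [H2c_H2c 𝓛 hj hepsB (hepsX.comp (isHom_post (cosetPerm U) ρB (Fn π (rhoChi χ)) hj))
    (fun f => (eps_post j f).symm)]
  rw [H2c_H2c 𝓛 _ hSc hepsX (fun f => by
    rw [AddMonoidHom.comp_apply, hSc' f])]
  rw [H2c_H2c 𝓛 hepsX hcur (isHom_push (rhoChi χ) hsnd) (fun f => eps_curryFn f)]

end Fermat.Agent.S55
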