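import Fermat.Agent.S55.A.CoInd

/-!
# S55 / A3 : `CS0 ⟹ RE` for all finite modules, by Sylow dévissage  (key `S55/A-SYL`)

* `exists_sylow_level` : `Ḡ = G ⧸ N` finite, `P̄` a Sylow `p`-subgroup, `H = P̄.comap (mk' N)`.  `[G : H] = [Ḡ : P̄]` is prime to `p`
  (`Sylow.not_dvd_index`-type lemmas, `Subgroup.index_comap_of_surjective`).  `H ⧸ N ≅ P̄` is a `p`-group.  `χ` is trivial on `N`,
  `χ(h)^(p^k) = 1` for `h ∈ H` and `χ(h)^(p-1) = 1` (`ZMod.units_pow_card_sub_one_eq_one`), so `χ(h) = 1`.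
* `RE_coind` : induction on `n ≥ card B`.  `B` trivial: `RE.of_subsingleton`.  Otherwise `b₀ ≠ 0` fixed by `H`
  (`LA.exists_fixed_ne_zero`); `i₀ : ZMod p →+ B`, `c ↦ c.val • b₀` (or `ZMod.lift`/`zmultiplesHom`), injective, equivariant for
  `rhoTriv H (ZMod p)`; `S = i₀.range` is stable; `SES (rhoTriv) β (quotRho) i₀ mk'`; `card (B ⧸ S) < card B`;
  `ses_coind`, `RE.of_ses`; `RE (coindRho H (rhoTriv H (ZMod p)))` by `RE.of_retract` (`coindToFn`, `fnToCoind`) from `RE_Fn`.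
* `RE_of_CS0` : `N` normal level trivial on `C` and `T` (`exists_trivOn`), `H` as above; `C` is a retract of
  `CoInd H (Res C)` : `a = coindUnit`, `b = m • coindTr` with `m * [G : H] ≡ 1 mod p`.
-/

set_option autoImplicit false

noncomputable section

namespace Fermat.Agent.S55

variable {G : Type} [Group G] {p : ℕ} [Fact p.Prime] {𝓛 : Lvl G} {χ : G →* (ZMod p)ˣ}

theorem smoothSet_cosetPerm_of_le {N H : Subgroup G} (hN : N ∈ 𝓛.sets) (hn : N.Normal)
    (hNH : N ≤ H) : SmoothSet (cosetPerm H) 𝓛 := by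
  refine ⟨N, hN, fun n hn' => ?_⟩
  ext s
  obtain ⟨g, rfl⟩ := QuotientGroup.mk_surjective s
  rw [cosetPerm_mk, Equiv.Perm.one_apply, QuotientGroup.eq]
  apply hNH
  have := hn.conj_mem n⁻¹ (N.inv_mem hn') g⁻¹
  simpa [mul_assoc] using this

theorem exists_sylow_level {N : Subgroup G} (hN : N ∈ 𝓛.sets) [hn : N.Normal]
    (hT : TrivOn N (rhoChi χ)) :
    ∃ H : Subgroup G, N ≤ H ∧ IsPGroup p (H ⧸ N.subgroupOf H) ∧ H.index ≠ 0 ∧ ¬ p ∣ H.index ∧
      ∀ h ∈ H, χ h = 1 := by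
  have hfi := 𝓛.fin N hN
  have : Finite (G ⧸ N) := Subgroup.finite_quotient_of_finiteIndex
  obtain ⟨P⟩ : Nonempty (Sylow p (G ⧸ N)) := inferInstance
  have hχN : ∀ n ∈ N, χ n = 1 := by
    intro n hn'
    have := hT n hn' 1
    rw [rhoChi_apply, mul_one] at this
    exact Units.ext this
  have hpow : ∀ h ∈ (P : Subgroup (G ⧸ N)).comap (QuotientGroup.mk' N), ∃ k : ℕ, h ^ p ^ k ∈ N := by
    intro h hh
    obtain ⟨k, hk⟩ := P.2 ⟨QuotientGroup.mk' N h, hh⟩
    refine ⟨k, ?_⟩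
    have h1 := congrArg Subtype.val hk
    rw [← QuotientGroup.eq_one_iff]
    simpa using h1
  have hidx : ((P : Subgroup (G ⧸ N)).comap (QuotientGroup.mk' N)).index
      = (P : Subgroup (G ⧸ N)).index :=
    Subgroup.index_comap_of_surjective _ (QuotientGroup.mk'_surjective N)
  refine ⟨(P : Subgroup (G ⧸ N)).comap (QuotientGroup.mk' N), ?_, ?_, ?_, ?_, ?_⟩
  · intro n hn'
    rw [Subgroup.mem_comap, QuotientGroup.mk'_apply, (QuotientGroup.eq_one_iff n).2 hn']
    exact Subgroup.one_mem _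
  · intro x
    obtain ⟨h, rfl⟩ := QuotientGroup.mk_surjective x
    obtain ⟨k, hk⟩ := hpow h h.2
    refine ⟨k, ?_⟩
    rw [← QuotientGroup.mk_pow, QuotientGroup.eq_one_iff, Subgroup.mem_subgroupOf]
    simpa using hk
  · rw [hidx]
    exact Subgroup.FiniteIndex.index_ne_zero
  · rw [hidx]
    exact P.not_dvd_index
  · intro h hh
    obtain ⟨k, hk⟩ := hpow h hh
    have h1 : (χ h) ^ p ^ k = 1 := by rw [← map_pow, hχN _ hk]
    have h2 : (χ h) ^ (p - 1) = 1 := ZMod.units_pow_card_sub_one_eq_one p (χ h)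
    have h3 : orderOf (χ h) ∣ Nat.gcd (p ^ k) (p - 1) :=
      Nat.dvd_gcd (orderOf_dvd_of_pow_eq_one h1) (orderOf_dvd_of_pow_eq_one h2)
    have hp1 : 1 ≤ p := (Fact.out : p.Prime).one_lt.le
    have h4 : Nat.Coprime (p ^ k) (p - 1) := by
      apply Nat.Coprime.pow_left
      have := (Nat.coprime_self_sub_right hp1).2 (Nat.coprime_one_right p)
      exact this
    rw [h4, Nat.dvd_one, orderOf_eq_one_iff] at h3
    exact h3

theorem RE_coind_triv (hχ : Smooth 𝓛 (rhoChi χ)) (h : CS0 p 𝓛 χ) {N H : Subgroup G}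
    (hN : N ∈ 𝓛.sets) [hn : N.Normal] (hNH : N ≤ H) (hχH : ∀ h ∈ H, χ h = 1) :
    RE p 𝓛 (coindRho H (rhoTriv H (ZMod p))) := by
  have := 𝓛.fin N hN
  have hfi : H.FiniteIndex := Subgroup.finiteIndex_of_le hNH
  have : Finite (G ⧸ H) := Subgroup.finite_quotient_of_finiteIndex
  let _ : Fintype (G ⧸ H) := Fintype.ofFinite _
  have hπ : SmoothSet (cosetPerm H) 𝓛 := smoothSet_cosetPerm_of_le hN hn hNH
  exact RE.of_retract ((finMod_rhoChi hχ).fn hπ) (isHom_coindToFn H hχH) (isHom_fnToCoind H hχH)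
    (fnToCoind_coindToFn H hχH) (RE_Fn hχ h hπ)

theorem RE_coind (hχ : Smooth 𝓛 (rhoChi χ)) (h : CS0 p 𝓛 χ) {N H : Subgroup G} (hN : N ∈ 𝓛.sets)
    [hn : N.Normal] (hNH : N ≤ H) (hpg : IsPGroup p (H ⧸ N.subgroupOf H))
    (hχH : ∀ h ∈ H, χ h = 1) :
    ∀ (n : ℕ) (B : Type) [AddCommGroup B] [Finite B] (β : H →* AddMonoid.End B), Nat.card B ≤ n →
      (∀ b : B, p • b = 0) → (∀ h : H, (h : G) ∈ N → ∀ b, β h b = b) →
        RE p 𝓛 (coindRho H β) := by
  intro n
  induction n with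
  | zero =>
    intro B _ _ β hcard _ _
    exact absurd hcard (by have := Nat.card_pos (α := B); omega)
  | succ n ih =>
    intro B _ _ β hcard hB htriv
    rcases subsingleton_or_nontrivial B with hsub | hnt
    · have := subsingleton_coind H (β := β)
      exact RE.of_subsingleton _
    obtain ⟨b₀, hb₀, hfix⟩ := LA.exists_fixed_ne_zero hB β (N.subgroupOf H)
      (fun x hx b => htriv x (Subgroup.mem_subgroupOf.1 hx) b) hpg
    letI := AddCommGroup.zmodModule hB
    set i₀ : ZMod p →+ B := (LinearMap.toSpanSingleton (ZMod p) B b₀).toAddMonoidHom with hi₀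
    have hi₀a : ∀ c, i₀ c = c • b₀ := fun c => rfl
    have hinj : Function.Injective i₀ := by
      rw [injective_iff_map_eq_zero]
      intro c hc
      rw [hi₀a] at hc
      by_contra hc0
      apply hb₀
      have h1 : c⁻¹ • (c • b₀) = b₀ := by
        rw [smul_smul, inv_mul_cancel₀ hc0, one_smul]
      rw [← h1, hc, smul_zero]
    have hi₀h : IsHom (rhoTriv H (ZMod p)) β i₀ := by
      intro x c
      change i₀ c = β x (i₀ c)
      rw [hi₀a, ZMod.map_smul, hfix]
    have hst : Stable β i₀.range := stable_range hi₀h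
    have S : SES (rhoTriv H (ZMod p)) β (quotRho hst) i₀ (QuotientAddGroup.mk' i₀.range) :=
      { hi := hi₀h
        hj := isHom_mk' hst
        inj := hinj
        surj := QuotientAddGroup.mk'_surjective _
        exact := fun b => by
          rw [QuotientAddGroup.mk'_apply, QuotientAddGroup.eq_zero_iff]
          rfl }
    have hlt : Nat.card (B ⧸ i₀.range) ≤ n := by
      have h1 := AddSubgroup.card_eq_card_quotient_mul_card_addSubgroup i₀.range
      have h2 : 1 < Nat.card i₀.range := by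
        have : Nontrivial i₀.range :=
          ⟨⟨⟨b₀, ⟨1, by rw [hi₀a, one_smul]⟩⟩, 0, fun e => hb₀ (congrArg Subtype.val e)⟩⟩
        exact Finite.one_lt_card
      have h3 : 0 < Nat.card (B ⧸ i₀.range) := Nat.card_pos
      nlinarith
    have hq : RE p 𝓛 (coindRho H (quotRho hst)) := by
      refine ih (B ⧸ i₀.range) (quotRho hst) hlt ?_ ?_
      · intro b
        obtain ⟨b, rfl⟩ := QuotientAddGroup.mk'_surjective _ b
        rw [← map_nsmul, hB, map_zero]
      · intro x hx b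
        obtain ⟨b, rfl⟩ := QuotientAddGroup.mk'_surjective _ b
        change quotRho hst x (b : B ⧸ i₀.range) = _
        rw [quotRho_mk, htriv x hx]
        rfl
    exact RE.of_ses (ses_coind H S) (finMod_coind (p := p) H hB hN hn hNH htriv).smooth
      (RE_coind_triv hχ h hN hNH hχH) hq

/-- **`H²` is right exact** -/
theorem RE_of_CS0 (hχ : Smooth 𝓛 (rhoChi χ)) (h : CS0 p 𝓛 χ) {C : Type} [AddCommGroup C]
    {ρC : G →* AddMonoid.End C} (hC : FinMod p 𝓛 ρC) : RE p 𝓛 ρC := by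
  obtain ⟨N, hN, hn, hNC, hNT⟩ := exists_trivOn hχ hC
  obtain ⟨H, hNH, hpg, hidx, hndvd, hχH⟩ := exists_sylow_level hN hNT
  have := hC.fin
  have hfi : H.FiniteIndex := ⟨hidx⟩
  have : Finite (G ⧸ H) := Subgroup.finite_quotient_of_finiteIndex
  let _ : Fintype (G ⧸ H) := Fintype.ofFinite _
  have htriv : ∀ x : H, (x : G) ∈ N → ∀ b, (ρC.comp H.subtype) x b = b := fun x hx b => hNC x hx b
  have hRE : RE p 𝓛 (coindRho H (ρC.comp H.subtype)) :=
    RE_coind hχ h hN hNH hpg hχH (Nat.card C) C (ρC.comp H.subtype) le_rfl hC.tors htriv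
  have hcop : Nat.Coprime H.index p :=
    ((Nat.Prime.coprime_iff_not_dvd (Fact.out : p.Prime)).2 hndvd).symm
  obtain ⟨m, -, hm⟩ := Nat.exists_mul_mod_eq_one_of_coprime hcop (Fact.out : p.Prime).one_lt
  refine RE.of_retract (finMod_coind (p := p) H hC.tors hN hn hNH htriv) (isHom_coindUnit H ρC)
    ((isHom_coindTr H ρC).nsmul m) ?_ hRE
  intro x
  rw [AddMonoidHom.nsmul_apply, coindTr_coindUnit, ← mul_nsmul']
  have hcard : Fintype.card (G ⧸ H) = H.index := by
    rw [Subgroup.index, Nat.card_eq_fintype_card]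
  rw [hcard, mul_comm, ← Nat.div_add_mod (H.index * m) p, hm, add_nsmul, mul_nsmul', one_nsmul]
  rw [hC.tors, zero_add]

end Fermat.Agent.S55
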