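import Fermat.Agent.S55.A.Tw
import Fermat.Agent.S55.T.Torsor

/-!
# S55 / SYL : Sylow towers and the `ℤ/p`-torsors `G ⧸ H → G ⧸ K`   (helper7)

Everything is stated for subgroups of an arbitrary group `G` (no passage to a finite quotient needed).

* `PStep p H K` : `H ≤ K`, `H` normal in `K`, `[K : H] = p`.
* `rightMul H k hk : Equiv.Perm (G ⧸ H)`, `gH ↦ g k H` for `k` normalising `H`.
* `PStep.exists_cycTorsor` : `G ⧸ H → G ⧸ K` is a `T.CycTorsor p`.
* `T.CycTorsor.prod` : `X × Σ' → X × Σ` is a torsor if `Σ' → Σ` is.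
* `PStep.exists_cycTorsor_prod` : `X × G ⧸ H → X × G ⧸ K` is a `T.CycTorsor p`.
* `exists_sylow_chain` : `U` normal of finite index: `U = P 0 ≤ P 1 ≤ ... ≤ P k`, `PStep p (P i) (P (i+1))`,
  `p ∤ [G : P k]`.
* `sylow_induction` : the same as an induction principle.
* `smoothSet_cosetPerm_of_le`, `finiteIndex` facts.
-/

set_option autoImplicit false

noncomputable section

namespace Fermat.Agent.S55

variable {G : Type*} [Group G]

/-- `H ≤ K`, `H` normal in `K`, of index `p` -/
structure PStep (p : ℕ) (H K : Subgroup G) : Prop where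
  le : H ≤ K
  conj : ∀ k ∈ K, ∀ h ∈ H, k * h * k⁻¹ ∈ H
  index : H.relIndex K = p

/-- right multiplication by an element normalising `H` -/
def rightMul (H : Subgroup G) (k : G) (hk : ∀ h ∈ H, k * h * k⁻¹ ∈ H)
    (hk' : ∀ h ∈ H, k⁻¹ * h * k ∈ H) : Equiv.Perm (G ⧸ H) where
  toFun := Quotient.map' (fun g => g * k) (fun a b hab => by
    rw [QuotientGroup.leftRel_apply] at hab ⊢
    have := hk' _ hab
    have e : (a * k)⁻¹ * (b * k) = k⁻¹ * (a⁻¹ * b) * k := by group
    rw [e]; exact this)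
  invFun := Quotient.map' (fun g => g * k⁻¹) (fun a b hab => by
    rw [QuotientGroup.leftRel_apply] at hab ⊢
    have := hk _ hab
    have e : (a * k⁻¹)⁻¹ * (b * k⁻¹) = k * (a⁻¹ * b) * k⁻¹ := by group
    rw [e]; exact this)
  left_inv := by
    intro x
    induction x using QuotientGroup.induction_on with
    | H g => 
      change ((g * k * k⁻¹ : G) : G ⧸ H) = g
      simp
  right_inv := by
    intro x
    induction x using QuotientGroup.induction_on with
    | H g => 
      change ((g * k⁻¹ * k : G) : G ⧸ H) = g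
      simp

@[simp] theorem rightMul_mk (H : Subgroup G) (k : G) (hk : ∀ h ∈ H, k * h * k⁻¹ ∈ H)
    (hk' : ∀ h ∈ H, k⁻¹ * h * k ∈ H) (g : G) :
    rightMul H k hk hk' (g : G ⧸ H) = ((g * k : G) : G ⧸ H) := rfl

theorem rightMul_pow_mk (H : Subgroup G) (k : G) (hk : ∀ h ∈ H, k * h * k⁻¹ ∈ H)
    (hk' : ∀ h ∈ H, k⁻¹ * h * k ∈ H) (n : ℕ) (g : G) :
    (rightMul H k hk hk' ^ n) (g : G ⧸ H) = ((g * k ^ n : G) : G ⧸ H) := by
  induction n generalizing g with
  | zero => simp
  | succ n ih =>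
    rw [pow_succ, Equiv.Perm.mul_apply, rightMul_mk, ih, pow_succ', mul_assoc]

namespace PStep

variable {p : ℕ} {H K : Subgroup G}

theorem conj' (h : PStep p H K) : ∀ k ∈ K, ∀ x ∈ H, k⁻¹ * x * k ∈ H := by
  intro k hk x hx
  have := h.conj k⁻¹ (K.inv_mem hk) x hx
  rwa [inv_inv] at this

theorem normal (h : PStep p H K) : (H.subgroupOf K).Normal :=
  ⟨fun x hx k => by
    rw [Subgroup.mem_subgroupOf] at hx ⊢
    exact h.conj k k.2 x hx⟩

theorem card_quot (h : PStep p H K) : Nat.card (K ⧸ H.subgroupOf K) = p := h.index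

variable [Fact p.Prime]

theorem exists_gen (h : PStep p H K) : ∃ k ∈ K, k ∉ H := by
  by_contra hcon
  push_neg at hcon
  have h1 : H.relIndex K = 1 := Subgroup.relIndex_eq_one.2 hcon
  rw [h.index] at h1
  exact (Fact.out : p.Prime).one_lt.ne' h1

theorem exists_pow_mul_mem (h : PStep p H K) {k : G} (hk : k ∈ K) (hkH : k ∉ H) {x : G}
    (hx : x ∈ K) : ∃ n : ℕ, (k ^ n)⁻¹ * x ∈ H := by
  haveI := h.normal
  have hne : ((⟨k, hk⟩ : K) : K ⧸ H.subgroupOf K) ≠ 1 := by
    rw [Ne, QuotientGroup.eq_one_iff, Subgroup.mem_subgroupOf]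
    exact hkH
  obtain ⟨n, hn⟩ := mem_powers_of_prime_card (g' := ((⟨x, hx⟩ : K) : K ⧸ H.subgroupOf K))
    h.card_quot hne
  refine ⟨n, ?_⟩
  have hn' : (((⟨k, hk⟩ : K) ^ n : K) : K ⧸ H.subgroupOf K) = ((⟨x, hx⟩ : K) : K ⧸ H.subgroupOf K) := by
    rw [QuotientGroup.mk_pow]; exact hn
  rw [QuotientGroup.eq, Subgroup.mem_subgroupOf] at hn'
  simpa using hn'

theorem pow_mem_iff (h : PStep p H K) {k : G} (hk : k ∈ K) (hkH : k ∉ H) (n : ℕ) :
    k ^ n ∈ H ↔ p ∣ n := by
  haveI := h.normal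
  have hne : ((⟨k, hk⟩ : K) : K ⧸ H.subgroupOf K) ≠ 1 := by
    rw [Ne, QuotientGroup.eq_one_iff, Subgroup.mem_subgroupOf]
    exact hkH
  have hp : ((⟨k, hk⟩ : K) : K ⧸ H.subgroupOf K) ^ p = 1 := by
    have := pow_card_eq_one' (G := K ⧸ H.subgroupOf K) (x := ((⟨k, hk⟩ : K) : K ⧸ H.subgroupOf K))
    rwa [h.card_quot] at this
  have ho := orderOf_eq_prime hp hne
  rw [← ho, orderOf_dvd_iff_pow_eq_one, ← QuotientGroup.mk_pow, QuotientGroup.eq_one_iff,
    Subgroup.mem_subgroupOf]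
  simp

/-- `G ⧸ H → G ⧸ K` is a `ℤ/p`-torsor, with `σ` = right multiplication by any `k ∈ K ∖ H` -/
theorem cycTorsor (h : PStep p H K) {k : G} (hk : k ∈ K) (hkH : k ∉ H) :
    T.CycTorsor p (cosetPerm K) (cosetPerm H) (cosetMap h.le)
      (rightMul H k (h.conj k hk) (h.conj' k hk)) where
  pos := (Fact.out : p.Prime).pos
  map := by
    intro g s
    induction s using QuotientGroup.induction_on with
    | H x => rfl
  comm := by
    intro g s
    induction s using QuotientGroup.induction_on with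
    | H x =>
      change (((g * x) * k : G) : G ⧸ H) = ((g * (x * k) : G) : G ⧸ H)
      rw [mul_assoc]
  surj := by
    intro s
    induction s using QuotientGroup.induction_on with
    | H x => exact ⟨(x : G ⧸ H), rfl⟩
  fib := by
    intro s t
    induction s using QuotientGroup.induction_on with
    | H x =>
    induction t using QuotientGroup.induction_on with
    | H y =>
      rw [cosetMap_mk, cosetMap_mk, QuotientGroup.eq]
      constructor
      · intro hxy
        obtain ⟨n, hn⟩ := h.exists_pow_mul_mem hk hkH hxy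
        refine ⟨n, ?_⟩
        rw [rightMul_pow_mk, QuotientGroup.eq]
        have e : (x * k ^ n)⁻¹ * y = (k ^ n)⁻¹ * (x⁻¹ * y) := by group
        rw [e]; exact hn
      · rintro ⟨n, hn⟩
        rw [rightMul_pow_mk, QuotientGroup.eq] at hn
        have e : x⁻¹ * y = k ^ n * ((x * k ^ n)⁻¹ * y) := by group
        rw [e]
        exact K.mul_mem (K.pow_mem hk n) (h.le hn)
  pow := by
    ext s
    induction s using QuotientGroup.induction_on with
    | H x =>
      rw [rightMul_pow_mk, Equiv.Perm.one_apply, QuotientGroup.eq]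
      have e : (x * k ^ p)⁻¹ * x = (k ^ p)⁻¹ := by group
      rw [e]
      exact H.inv_mem ((h.pow_mem_iff hk hkH p).2 dvd_rfl)
  free := by
    intro s n hn
    induction s using QuotientGroup.induction_on with
    | H x =>
      rw [rightMul_pow_mk, QuotientGroup.eq] at hn
      have e : (x * k ^ n)⁻¹ * x = (k ^ n)⁻¹ := by group
      rw [e, H.inv_mem_iff] at hn
      exact (h.pow_mem_iff hk hkH n).1 hn

theorem exists_cycTorsor (h : PStep p H K) :
    ∃ σ : Equiv.Perm (G ⧸ H), T.CycTorsor p (cosetPerm K) (cosetPerm H) (cosetMap h.le) σ := by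
  obtain ⟨k, hk, hkH⟩ := h.exists_gen
  exact ⟨_, h.cycTorsor hk hkH⟩

end PStep

/-- the product of a torsor with a `G`-set -/
theorem T.CycTorsor.prod {X Sg Sg' : Type*} {n : ℕ} {π : G →* Equiv.Perm Sg}
    {π' : G →* Equiv.Perm Sg'} {u : Sg' → Sg} {σ : Equiv.Perm Sg'} (h : T.CycTorsor n π π' u σ)
    (π₀ : G →* Equiv.Perm X) :
    T.CycTorsor n (prodPerm π₀ π) (prodPerm π₀ π') (Prod.map id u)
      (Equiv.prodCongr (Equiv.refl X) σ) := by
  have hpow : ∀ (k : ℕ) (x : X × Sg'),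
      ((Equiv.prodCongr (Equiv.refl X) σ : Equiv.Perm (X × Sg')) ^ k) x = (x.1, (σ ^ k) x.2) := by
    intro k
    induction k with
    | zero => intro x; simp
    | succ k ih =>
      intro x
      rw [pow_succ, Equiv.Perm.mul_apply, ih, pow_succ, Equiv.Perm.mul_apply]
      rfl
  refine ⟨h.pos, ?_, ?_, ?_, ?_, ?_, ?_⟩
  · intro g s
    exact Prod.ext rfl (h.map g s.2)
  · intro g s
    exact Prod.ext rfl (h.comm g s.2)
  · rintro ⟨x, s⟩
    obtain ⟨s', rfl⟩ := h.surj s
    exact ⟨(x, s'), rfl⟩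
  · rintro ⟨x, s⟩ ⟨y, t⟩
    simp only [Prod.map_apply, id_eq, Prod.mk.injEq, hpow]
    constructor
    · rintro ⟨rfl, hst⟩
      obtain ⟨k, hk⟩ := (h.fib s t).1 hst
      exact ⟨k, rfl, hk⟩
    · rintro ⟨k, rfl, hk⟩
      exact ⟨rfl, (h.fib s t).2 ⟨k, hk⟩⟩
  · ext x
    · rw [hpow]; rfl
    · rw [hpow, h.pow]; rfl
  · intro s k hk
    rw [hpow] at hk
    exact h.free s.2 k (congrArg Prod.snd hk)

theorem PStep.exists_cycTorsor_prod {p : ℕ} [Fact p.Prime] {H K : Subgroup G} (h : PStep p H K)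
    {X : Type*} (π₀ : G →* Equiv.Perm X) :
    ∃ σ : Equiv.Perm (X × G ⧸ H), T.CycTorsor p (prodPerm π₀ (cosetPerm K))
      (prodPerm π₀ (cosetPerm H)) (Prod.map id (cosetMap h.le)) σ := by
  obtain ⟨σ, hσ⟩ := h.exists_cycTorsor
  exact ⟨_, hσ.prod π₀⟩

/-! ### Sylow towers -/

/-- in a finite group: a subgroup of order `p ^ n` inside one of order `p ^ (n+1)` -/
theorem pStep_of_card {Gb : Type*} [Group Gb] {p : ℕ} [Fact p.Prime] {n : ℕ} {H K : Subgroup Gb}
    (hH : Nat.card H = p ^ n) (hK : Nat.card K = p ^ (n + 1)) (hHK : H ≤ K) : PStep p H K := by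
  have hp : p.Prime := Fact.out
  have hidx : H.relIndex K = p := by
    have h1 := Subgroup.relIndex_mul_relIndex ⊥ H K bot_le hHK
    rw [Subgroup.relIndex_bot_left, Subgroup.relIndex_bot_left, hH, hK, pow_succ] at h1
    exact Nat.eq_of_mul_eq_mul_left (pow_pos hp.pos n) h1
  have hn : (H.subgroupOf K).Normal := by
    apply Subgroup.normal_of_index_eq_minFac_card
    rw [hK, Nat.Prime.pow_minFac hp (Nat.succ_ne_zero n)]
    exact hidx
  refine ⟨hHK, ?_, hidx⟩
  intro k hk x hx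
  have := hn.conj_mem ⟨x, hHK hx⟩ (by rw [Subgroup.mem_subgroupOf]; exact hx) ⟨k, hk⟩
  rw [Subgroup.mem_subgroupOf] at this
  exact this

/-- pull back of a step along a surjection -/
theorem PStep.comap {Gb : Type*} [Group Gb] {p : ℕ} {H K : Subgroup Gb} (h : PStep p H K)
    (f : G →* Gb) (hf : Function.Surjective f) : PStep p (H.comap f) (K.comap f) := by
  refine ⟨Subgroup.comap_mono h.le, ?_, ?_⟩
  · intro k hk x hx
    rw [Subgroup.mem_comap] at hk hx ⊢
    rw [map_mul, map_mul, map_inv]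
    exact h.conj _ hk _ hx
  · rw [Subgroup.relIndex_comap, Subgroup.map_comap_eq_self_of_surjective hf]
    exact h.index

/-- finite group version of the tower -/
theorem exists_chain_finite (Gb : Type*) [Group Gb] [Finite Gb] (p : ℕ) [Fact p.Prime] (k : ℕ)
    (hk : p ^ k ∣ Nat.card Gb) :
    ∃ P : ℕ → Subgroup Gb, P 0 = ⊥ ∧ (∀ i < k, PStep p (P i) (P (i + 1))) ∧
      Nat.card (P k) = p ^ k := by
  induction k with
  | zero => exact ⟨fun _ => ⊥, rfl, fun i hi => absurd hi (Nat.not_lt_zero i), by simp⟩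
  | succ k ih =>
    obtain ⟨P, h0, hs, hc⟩ := ih ((pow_dvd_pow p (Nat.le_succ k)).trans hk)
    obtain ⟨K, hK, hle⟩ := Sylow.exists_subgroup_card_pow_succ hk hc
    refine ⟨fun i => if i ≤ k then P i else K, by simp [h0], ?_, by simp [hK]⟩
    intro i hi
    rcases Nat.lt_succ_iff_lt_or_eq.1 hi with hi' | rfl
    · have h1 : i ≤ k := hi'.le
      have h2 : i + 1 ≤ k := hi'
      simp only [h1, h2, if_true]
      exact hs i hi'
    · simp only [le_refl, if_true, Nat.succ_le_iff, lt_irrefl, if_false]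
      exact pStep_of_card hc hK hle

/-- **Sylow tower** above a normal subgroup of finite index -/
theorem exists_sylow_chain (p : ℕ) [Fact p.Prime] (U : Subgroup G) [U.Normal] [U.FiniteIndex] :
    ∃ (k : ℕ) (P : ℕ → Subgroup G), P 0 = U ∧ (∀ i < k, PStep p (P i) (P (i + 1))) ∧
      (∀ i ≤ k, U ≤ P i) ∧ ¬ p ∣ (P k).index := by
  have hp : p.Prime := Fact.out
  haveI : Finite (G ⧸ U) := Subgroup.finite_quotient_of_finiteIndex
  have hcard : Nat.card (G ⧸ U) ≠ 0 := Nat.card_pos.ne'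
  obtain ⟨P, h0, hs, hc⟩ := exists_chain_finite (G ⧸ U) p ((Nat.card (G ⧸ U)).factorization p)
    (Nat.ordProj_dvd _ _)
  refine ⟨(Nat.card (G ⧸ U)).factorization p, fun i => (P i).comap (QuotientGroup.mk' U),
    ?_, ?_, ?_, ?_⟩
  · simp only [h0]
    exact QuotientGroup.ker_mk' U
  · intro i hi
    exact (hs i hi).comap _ (QuotientGroup.mk'_surjective U)
  · intro i _ x hx
    rw [Subgroup.mem_comap]
    have : QuotientGroup.mk' U x = 1 := by
      rw [QuotientGroup.mk'_apply, QuotientGroup.eq_one_iff]; exact hx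
    rw [this]; exact one_mem _
  · rw [Subgroup.index_comap_of_surjective _ (QuotientGroup.mk'_surjective U)]
    intro hdvd
    have h1 := Subgroup.card_mul_index (P ((Nat.card (G ⧸ U)).factorization p))
    rw [hc] at h1
    have h2 : p ^ ((Nat.card (G ⧸ U)).factorization p + 1) ∣ Nat.card (G ⧸ U) := by
      rw [pow_succ]
      exact (Nat.mul_dvd_mul_left _ hdvd).trans h1.dvd
    exact Nat.pow_succ_factorization_not_dvd hcard hp h2

/-- the Sylow tower as an induction principle -/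
theorem sylow_induction (p : ℕ) [Fact p.Prime] (U : Subgroup G) [U.Normal] [U.FiniteIndex]
    (C : Subgroup G → Prop) (h0 : C U)
    (hstep : ∀ H K : Subgroup G, U ≤ H → PStep p H K → C H → C K) :
    ∃ P : Subgroup G, U ≤ P ∧ ¬ p ∣ P.index ∧ C P := by
  obtain ⟨k, P, hP0, hs, hU, hk⟩ := exists_sylow_chain p U
  refine ⟨P k, hU k le_rfl, hk, ?_⟩
  have : ∀ i ≤ k, C (P i) := by
    intro i
    induction i with
    | zero => intro _; rw [hP0]; exact h0
    | succ i ih =>
      intro hi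
      exact hstep _ _ (hU i (Nat.le_of_succ_le hi)) (hs i hi) (ih (Nat.le_of_succ_le hi))
  exact this k le_rfl

/-- descending form: a property true for a subgroup of index prime to `p`... : if `C` descends along
`p`-steps, from `C P` for all `P ⊇ U` of index prime to `p` one gets `C U`. -/
theorem sylow_descent (p : ℕ) [Fact p.Prime] (U : Subgroup G) [U.Normal] [U.FiniteIndex]
    (C : Subgroup G → Prop) (h0 : ∀ P : Subgroup G, U ≤ P → ¬ p ∣ P.index → C P)
    (hstep : ∀ H K : Subgroup G, U ≤ H → PStep p H K → C K → C H) : C U := by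
  obtain ⟨k, P, hP0, hs, hU, hk⟩ := exists_sylow_chain p U
  have : ∀ j ≤ k, C (P (k - j)) := by
    intro j
    induction j with
    | zero => intro _; exact h0 _ (hU k le_rfl) hk
    | succ j ih =>
      intro hj
      have e : k - j = (k - (j + 1)) + 1 := by omega
      have h1 := ih (Nat.le_of_succ_le hj)
      rw [e] at h1
      exact hstep _ _ (hU _ (Nat.sub_le _ _)) (hs _ (by omega)) h1
  have h2 := this k le_rfl
  rwa [Nat.sub_self, hP0] at h2

/-! ### smoothness and finiteness of `G ⧸ H` for `H ⊇ U` -/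

theorem cosetPerm_eq_one_of_le {U H : Subgroup G} [U.Normal] (h : U ≤ H) {u : G} (hu : u ∈ U) :
    cosetPerm H u = 1 := by
  ext s
  induction s using QuotientGroup.induction_on with
  | H x =>
    rw [cosetPerm_mk, Equiv.Perm.one_apply, QuotientGroup.eq]
    have e : (u * x)⁻¹ * x = x⁻¹ * u⁻¹ * x⁻¹⁻¹ := by group
    rw [e]
    exact h (Subgroup.Normal.conj_mem inferInstance _ (U.inv_mem hu) _)

theorem smoothSet_cosetPerm_of_isOpen {𝓛 : Lvl G} {H : Subgroup G} (h : 𝓛.IsOpen H) :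
    SmoothSet (cosetPerm H) 𝓛 := by
  obtain ⟨V, hV, hVH⟩ := h
  obtain ⟨W, hW, hWV, hn⟩ := 𝓛.normal V hV
  exact ⟨W, hW, fun u hu => cosetPerm_eq_one_of_le (hWV.trans hVH) hu⟩

theorem finite_quot_of_isOpen {𝓛 : Lvl G} {H : Subgroup G} (h : 𝓛.IsOpen H) : Finite (G ⧸ H) := by
  obtain ⟨V, hV, hVH⟩ := h
  haveI := 𝓛.fin V hV
  haveI := Subgroup.finiteIndex_of_le hVH
  exact Subgroup.finite_quotient_of_finiteIndex

end Fermat.Agent.S55
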