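import Fermat.Agent.S55.A.Orbit
import Fermat.Agent.S55.A.LinAlg
import Fermat.Agent.S55.Coh.Arith
import Fermat.Agent.S55.A.Eff

/-!
# S55 / A2 : the `G`-sets `G ⧸ U`, untwisting, induced modules, effaceability
(keys `S55/A-TW` = sections `Coset`, `Tw`, `Curry`, `Ind`;  `S55/A-EFF` = section `Eff`)

* `tw U ρA ρB σ` : for ANY additive `σ : A →+ B` between modules on which `U` acts trivially,
  `f ↦ (gU ↦ g σ (g⁻¹ f(gU)))` is an equivariant map `Fn(G/U, A) → Fn(G/U, B)`; functorial in `σ`.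
* `IsInd 𝓛 χ ρ` : `ρ` is a retract of some `Fn π (rhoChi χ)`, `π` finite smooth.
  `Fn(G/U, X)` is of this kind if `U` acts trivially on `X` and on `T = rhoChi χ`:
  `X ≃+ (Fin n → ZMod p)` (`LA.exists_equiv_fun`), `tw` of it, then currying
  `Fn(G/U, Fn(Fin n, T)) = Fn(G/U × Fin n, T)` (`Fin n` with the trivial action).
* effaceability: `z ∈ Z²`, `b(g)(sU) = s z(s⁻¹, g)` satisfies `d¹ b = η ∘ z` (cocycle identity for `(s⁻¹, g, h)`);
  `f ∈ Z¹`, `b(sU) = - f(s)` satisfies `d⁰ b = η ∘ f`.  `U` normal, `z` (resp. `f`) `U`-invariant, `U` fixing the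
  (finitely many) values.
-/

set_option autoImplicit false

noncomputable section

namespace Fermat.Agent.S55

variable {G : Type*} [Group G]

/-- `U` acts trivially -/
def TrivOn {A : Type*} [AddCommGroup A] (U : Subgroup G) (ρ : G →* AddMonoid.End A) : Prop :=
  ∀ u ∈ U, ∀ a, ρ u a = a

theorem TrivOn.mono {A : Type*} [AddCommGroup A] {U V : Subgroup G} {ρ : G →* AddMonoid.End A}
    (h : TrivOn U ρ) (hVU : V ≤ U) : TrivOn V ρ := fun u hu a => h u (hVU hu) a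

section Coset

variable {𝓛 : Lvl G} {U : Subgroup G}

@[simp] theorem cosetPerm_mk (U : Subgroup G) (g h : G) :
    cosetPerm U g (h : G ⧸ U) = ((g * h : G) : G ⧸ U) := rfl

theorem cosetPerm_inv_mk (U : Subgroup G) (g h : G) :
    (cosetPerm U g)⁻¹ (h : G ⧸ U) = ((g⁻¹ * h : G) : G ⧸ U) := by
  rw [← map_inv, cosetPerm_mk]

theorem isTrans_cosetPerm (U : Subgroup G) : IsTrans (cosetPerm U) := by
  refine ⟨⟨((1 : G) : G ⧸ U)⟩, fun s s' => ?_⟩
  induction s using QuotientGroup.induction_on with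
  | H a =>
    induction s' using QuotientGroup.induction_on with
    | H b => exact ⟨b * a⁻¹, by rw [cosetPerm_mk, inv_mul_cancel_right]⟩

theorem smoothSet_cosetPerm (hU : U ∈ 𝓛.sets) : SmoothSet (cosetPerm U) 𝓛 := by
  obtain ⟨W, hW, hWU, hn⟩ := 𝓛.normal U hU
  refine ⟨W, hW, fun u hu => ?_⟩
  ext s
  induction s using QuotientGroup.induction_on with
  | H h =>
    rw [cosetPerm_mk, Equiv.Perm.one_apply, QuotientGroup.eq]
    have h1 := hn.conj_mem u⁻¹ (W.inv_mem hu) h⁻¹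
    have h2 : (u * h)⁻¹ * h = h⁻¹ * u⁻¹ * h⁻¹⁻¹ := by group
    rw [h2]
    exact hWU h1

/-- the projection `G ⧸ V → G ⧸ U` -/
def cosetMap {U V : Subgroup G} (h : V ≤ U) : G ⧸ V → G ⧸ U :=
  Quotient.map' id (fun a b hab => by
    rw [QuotientGroup.leftRel_apply] at hab ⊢
    exact h hab)

@[simp] theorem cosetMap_mk {U V : Subgroup G} (h : V ≤ U) (g : G) :
    cosetMap h (g : G ⧸ V) = (g : G ⧸ U) := rfl

theorem isSetMap_cosetMap {U V : Subgroup G} (h : V ≤ U) :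
    IsSetMap (cosetPerm U) (cosetPerm V) (cosetMap h) := by
  intro g s
  induction s using QuotientGroup.induction_on with
  | H a => rfl

/-- a point `s₀` fixed by `U` gives a map of `G`-sets `G ⧸ U → Sg` -/
def orbitMap {Sg : Type*} (π : G →* Equiv.Perm Sg) (s₀ : Sg) (h : ∀ u ∈ U, π u s₀ = s₀) :
    G ⧸ U → Sg :=
  Quotient.lift (s := QuotientGroup.leftRel U) (fun g => π g s₀) (fun a b hab => by
    have hab' : a⁻¹ * b ∈ U := QuotientGroup.leftRel_apply.1 hab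
    have := h _ hab'
    rw [map_mul, map_inv, Equiv.Perm.mul_apply, Equiv.Perm.inv_eq_iff_eq] at this
    exact this.symm)

@[simp] theorem orbitMap_mk {Sg : Type*} (π : G →* Equiv.Perm Sg) (s₀ : Sg)
    (h : ∀ u ∈ U, π u s₀ = s₀) (g : G) : orbitMap π s₀ h (g : G ⧸ U) = π g s₀ := rfl

theorem isSetMap_orbitMap {Sg : Type*} (π : G →* Equiv.Perm Sg) (s₀ : Sg)
    (h : ∀ u ∈ U, π u s₀ = s₀) : IsSetMap π (cosetPerm U) (orbitMap π s₀ h) := by
  intro g s
  induction s using QuotientGroup.induction_on with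
  | H a => rw [cosetPerm_mk, orbitMap_mk, orbitMap_mk, map_mul, Equiv.Perm.mul_apply]

end Coset

section Tw

variable {A B C : Type*} [AddCommGroup A] [AddCommGroup B] [AddCommGroup C]
  (U : Subgroup G) (ρA : G →* AddMonoid.End A) (ρB : G →* AddMonoid.End B)
  (ρC : G →* AddMonoid.End C)

/-- the twisted form of an arbitrary additive map -/
def tw (σ : A →+ B) : (G ⧸ U → A) →+ (G ⧸ U → B) where
  toFun f s := ρB s.out (σ (ρA s.out⁻¹ (f s)))
  map_zero' := by ext; simp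
  map_add' a b := by ext; simp

variable {U ρA ρB ρC}

theorem rho_inv_apply_aux (ρ : G →* AddMonoid.End A) (g : G) (a : A) : ρ g⁻¹ (ρ g a) = a := by
  rw [← End_mul_apply, ← map_mul, inv_mul_cancel, map_one]
  rfl

theorem rho_apply_inv_aux (ρ : G →* AddMonoid.End A) (g : G) (a : A) : ρ g (ρ g⁻¹ a) = a := by
  rw [← End_mul_apply, ← map_mul, mul_inv_cancel, map_one]
  rfl

theorem tw_apply (σ : A →+ B) (f : G ⧸ U → A) (s : G ⧸ U) :
    tw U ρA ρB σ f s = ρB s.out (σ (ρA s.out⁻¹ (f s))) := rfl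

theorem tw_apply_mk (hA : TrivOn U ρA) (hB : TrivOn U ρB) (σ : A →+ B) (f : G ⧸ U → A) (g : G) :
    tw U ρA ρB σ f (g : G ⧸ U) = ρB g (σ (ρA g⁻¹ (f g))) := by
  obtain ⟨u, hu⟩ := QuotientGroup.mk_out_eq_mul U g
  rw [tw_apply, hu, mul_inv_rev, map_mul, map_mul, End_mul_apply,
    End_mul_apply, hA _ (U.inv_mem u.2), hB _ u.2]

theorem isHom_tw (hA : TrivOn U ρA) (hB : TrivOn U ρB) (σ : A →+ B) :
    IsHom (Fn (cosetPerm U) ρA) (Fn (cosetPerm U) ρB) (tw U ρA ρB σ) := by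
  intro g f
  ext s
  induction s using QuotientGroup.induction_on with
  | H h =>
    rw [tw_apply_mk hA hB, Fn_apply, Fn_apply, cosetPerm_inv_mk, tw_apply_mk hA hB,
      ← End_mul_apply, ← map_mul, ← End_mul_apply, ← map_mul]
    congr 3 <;> group

theorem tw_tw (σ : A →+ B) (τ : B →+ C) (f : G ⧸ U → A) :
    tw U ρB ρC τ (tw U ρA ρB σ f) = tw U ρA ρC (τ.comp σ) f := by
  ext s
  rw [tw_apply, tw_apply, tw_apply, rho_inv_apply_aux]
  rfl

theorem tw_id (f : G ⧸ U → A) : tw U ρA ρA (AddMonoidHom.id A) f = f := by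
  ext s
  rw [tw_apply, AddMonoidHom.id_apply, rho_apply_inv_aux]

theorem tw_of_isHom {σ : A →+ B} (h : IsHom ρA ρB σ) (f : G ⧸ U → A) :
    tw U ρA ρB σ f = post (G ⧸ U) σ f := by
  ext s
  rw [tw_apply, h, rho_apply_inv_aux, post_apply]

/-- after `Fn(G/U, ·)` every equivariant surjection of modules killed by `p` splits -/
theorem exists_section_post {p : ℕ} [Fact p.Prime] (hB : TrivOn U ρB) (hC : TrivOn U ρC)
    (hpB : ∀ b : B, p • b = 0) (hpC : ∀ c : C, p • c = 0) {j : B →+ C} (hj : IsHom ρB ρC j)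
    (hs : Function.Surjective j) :
    ∃ S : (G ⧸ U → C) →+ (G ⧸ U → B), IsHom (Fn (cosetPerm U) ρC) (Fn (cosetPerm U) ρB) S ∧
      ∀ f, post (G ⧸ U) j (S f) = f := by
  obtain ⟨s, hs'⟩ := LA.exists_section hpB hpC j hs
  refine ⟨tw U ρC ρB s, isHom_tw hC hB s, fun f => ?_⟩
  rw [← tw_of_isHom hj, tw_tw]
  have : j.comp s = AddMonoidHom.id C := by
    ext c; exact hs' c
  rw [this, tw_id]

end Tw

section Curry

variable {Sg Sg' : Type*} (π : G →* Equiv.Perm Sg) (π' : G →* Equiv.Perm Sg')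
  {A : Type*} [AddCommGroup A] (ρ : G →* AddMonoid.End A)

/-- the product of two `G`-sets -/
def prodPerm : G →* Equiv.Perm (Sg × Sg') where
  toFun g := Equiv.prodCongr (π g) (π' g)
  map_one' := by ext x <;> simp
  map_mul' g h := by ext x <;> simp

@[simp] theorem prodPerm_apply (g : G) (x : Sg × Sg') :
    prodPerm π π' g x = (π g x.1, π' g x.2) := rfl

theorem isSetMap_fst : IsSetMap π (prodPerm π π') Prod.fst := fun _ _ => rfl
theorem isSetMap_snd : IsSetMap π' (prodPerm π π') Prod.snd := fun _ _ => rfl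

theorem smoothSet_prodPerm {𝓛 : Lvl G} {π : G →* Equiv.Perm Sg} {π' : G →* Equiv.Perm Sg'}
    (h : SmoothSet π 𝓛) (h' : SmoothSet π' 𝓛) : SmoothSet (prodPerm π π') 𝓛 := by
  obtain ⟨U, hU, hu⟩ := h
  obtain ⟨V, hV, hv⟩ := h'
  obtain ⟨W, hW, hWU⟩ := 𝓛.inter U hU V hV
  refine ⟨W, hW, fun u hu' => ?_⟩
  ext x
  · rw [prodPerm_apply, hu u (hWU hu').1]; rfl
  · rw [prodPerm_apply, hv u (hWU hu').2]; rfl

theorem smoothSet_one {𝓛 : Lvl G} : SmoothSet (1 : G →* Equiv.Perm Sg) 𝓛 := by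
  obtain ⟨U, hU⟩ := 𝓛.nonempty
  exact ⟨U, hU, fun _ _ => rfl⟩

/-- currying -/
def curryFn (Sg Sg' A : Type*) [AddCommGroup A] : (Sg × Sg' → A) →+ (Sg → Sg' → A) where
  toFun f s s' := f (s, s')
  map_zero' := rfl
  map_add' _ _ := rfl

/-- uncurrying -/
def uncurryFn (Sg Sg' A : Type*) [AddCommGroup A] : (Sg → Sg' → A) →+ (Sg × Sg' → A) where
  toFun f x := f x.1 x.2
  map_zero' := rfl
  map_add' _ _ := rfl

theorem prodPerm_inv_apply (g : G) (x : Sg × Sg') :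
    (prodPerm π π' g)⁻¹ x = ((π g)⁻¹ x.1, (π' g)⁻¹ x.2) := by
  rw [← map_inv, prodPerm_apply, map_inv, map_inv]

@[simp] theorem curryFn_apply (f : Sg × Sg' → A) (s : Sg) (s' : Sg') :
    curryFn Sg Sg' A f s s' = f (s, s') := rfl

@[simp] theorem uncurryFn_apply (f : Sg → Sg' → A) (x : Sg × Sg') :
    uncurryFn Sg Sg' A f x = f x.1 x.2 := rfl

theorem curryFn_uncurryFn (f : Sg → Sg' → A) : curryFn Sg Sg' A (uncurryFn Sg Sg' A f) = f := rfl

theorem uncurryFn_curryFn (f : Sg × Sg' → A) : uncurryFn Sg Sg' A (curryFn Sg Sg' A f) = f := rfl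

theorem isHom_curryFn : IsHom (Fn (prodPerm π π') ρ) (Fn π (Fn π' ρ)) (curryFn Sg Sg' A) := by
  intro g f
  ext s s'
  rw [curryFn_apply, Fn_apply, Fn_apply, Fn_apply, curryFn_apply, prodPerm_inv_apply]

theorem isHom_uncurryFn : IsHom (Fn π (Fn π' ρ)) (Fn (prodPerm π π') ρ) (uncurryFn Sg Sg' A) := by
  intro g f
  ext x
  rw [uncurryFn_apply, Fn_apply, Fn_apply, Fn_apply, uncurryFn_apply, prodPerm_inv_apply]

/-- `eps` on the outer variable is `push` along the second projection -/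
theorem eps_curryFn [Fintype Sg] [Fintype (Sg × Sg')] (f : Sg × Sg' → A) :
    eps Sg (Sg' → A) (curryFn Sg Sg' A f) = push A Prod.snd f := by
  classical
  ext s'
  rw [eps_apply, Finset.sum_apply, push_apply]
  refine Finset.sum_bij (fun s _ => (s, s')) (fun s _ => by simp) (fun a _ b _ h => (Prod.ext_iff.mp h).1)
    (fun x hx => ⟨x.1, Finset.mem_univ _, ?_⟩) (fun s _ => rfl)
  rw [Finset.mem_filter] at hx
  exact Prod.ext rfl hx.2.symm

end Curry

section Ind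

variable {G : Type} [Group G] {p : ℕ} [Fact p.Prime] (𝓛 : Lvl G) (χ : G →* (ZMod p)ˣ)

/-- `ρ` is a retract of some `Fn π (rhoChi χ)` with `π` finite and smooth -/
def IsInd {X : Type} [AddCommGroup X] (ρ : G →* AddMonoid.End X) : Prop :=
  ∃ (Sg : Type) (_ : Fintype Sg) (π : G →* Equiv.Perm Sg) (a : X →+ (Sg → ZMod p))
    (b : (Sg → ZMod p) →+ X), SmoothSet π 𝓛 ∧ IsHom ρ (Fn π (rhoChi χ)) a ∧
      IsHom (Fn π (rhoChi χ)) ρ b ∧ ∀ x, b (a x) = x

variable {𝓛 χ}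

theorem isInd_Fn {Sg : Type} [Fintype Sg] {π : G →* Equiv.Perm Sg} (h : SmoothSet π 𝓛) :
    IsInd 𝓛 χ (Fn π (rhoChi χ)) :=
  ⟨Sg, inferInstance, π, AddMonoidHom.id _, AddMonoidHom.id _, h, IsHom.id _, IsHom.id _,
    fun _ => rfl⟩

theorem IsInd.res {X : Type} [AddCommGroup X] {ρ : G →* AddMonoid.End X} (h : IsInd 𝓛 χ ρ)
    {H : Type} [Group H] (r : H →* G) : IsInd (𝓛.comap r) (χ.comp r) (ρ.comp r) := by
  obtain ⟨Sg, i, π, a, b, hπ, ha, hb, hab⟩ := h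
  exact ⟨Sg, i, π.comp r, a, b, hπ.res 𝓛 r, ha.res r, hb.res r, hab⟩

/-- **untwisting** -/
theorem isInd_Fn_coset {X : Type} [AddCommGroup X] {ρ : G →* AddMonoid.End X}
    (hX : FinMod p 𝓛 ρ) {U : Subgroup G} (hU : U ∈ 𝓛.sets) (h1 : TrivOn U ρ)
    (h2 : TrivOn U (rhoChi χ)) : IsInd 𝓛 χ (Fn (cosetPerm U) ρ) := by
  have := hX.fin
  obtain ⟨n, ⟨e⟩⟩ := LA.exists_equiv_fun (p := p) hX.tors
  have := 𝓛.fin U hU
  have : Fintype (G ⧸ U) := Fintype.ofFinite _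
  have h3 : TrivOn U (Fn (1 : G →* Equiv.Perm (Fin n)) (rhoChi χ)) := by
    intro u hu f
    ext i
    rw [Fn_apply, h2 u hu]
    rfl
  refine ⟨(G ⧸ U) × Fin n, inferInstance, prodPerm (cosetPerm U) 1,
    (uncurryFn (G ⧸ U) (Fin n) (ZMod p)).comp (tw U ρ (Fn 1 (rhoChi χ)) e.toAddMonoidHom),
    (tw U (Fn 1 (rhoChi χ)) ρ e.symm.toAddMonoidHom).comp (curryFn (G ⧸ U) (Fin n) (ZMod p)),
    smoothSet_prodPerm (smoothSet_cosetPerm hU) smoothSet_one,
    (isHom_uncurryFn _ _ _).comp (isHom_tw h1 h3 _), (isHom_tw h3 h1 _).comp (isHom_curryFn _ _ _),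
    fun x => ?_⟩
  rw [AddMonoidHom.comp_apply, AddMonoidHom.comp_apply, curryFn_uncurryFn, tw_tw]
  have : e.symm.toAddMonoidHom.comp e.toAddMonoidHom = AddMonoidHom.id X := by
    ext c; simp
  rw [this, tw_id]

theorem finMod_rhoChi (hχ : Smooth 𝓛 (rhoChi χ)) : FinMod p 𝓛 (rhoChi χ) :=
  ⟨inferInstance, fun a => by
    rw [nsmul_eq_mul, ZMod.natCast_self, zero_mul], hχ⟩

/-- a common trivialising level -/
theorem exists_trivOn (hχ : Smooth 𝓛 (rhoChi χ)) {X : Type} [AddCommGroup X]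
    {ρ : G →* AddMonoid.End X} (hX : FinMod p 𝓛 ρ) :
    ∃ U ∈ 𝓛.sets, U.Normal ∧ TrivOn U ρ ∧ TrivOn U (rhoChi χ) := by
  obtain ⟨U, hU, -, hu⟩ := hX.exists_trivial
  obtain ⟨V, hV, -, hv⟩ := (finMod_rhoChi hχ).exists_trivial
  obtain ⟨W, hW, hWU⟩ := 𝓛.inter U hU V hV
  obtain ⟨W', hW', hWW, hn⟩ := 𝓛.normal W hW
  exact ⟨W', hW', hn, fun u hu' a => hu u (hWU (hWW hu')).1 a,
    fun u hu' a => hv u (hWU (hWW hu')).2 a⟩

end Ind

section Eff

variable {𝓛 : Lvl G} {A : Type*} [AddCommGroup A] {ρ : G →* AddMonoid.End A}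

/-- effaceability of `H¹` -/
theorem exists_eta_H1_eq_zero (hρ : Smooth 𝓛 ρ) (x : H1 𝓛 ρ) :
    ∃ U ∈ 𝓛.sets, ∀ V : Subgroup G, V ≤ U → H1c 𝓛 (isHom_eta (cosetPerm V) ρ) x = 0 :=
  Eff.exists_eta_H1_eq_zero x

/-- effaceability of `H²` -/
theorem exists_eta_H2_eq_zero (hρ : Smooth 𝓛 ρ) (x : H2 𝓛 ρ) :
    ∃ U ∈ 𝓛.sets, ∀ V : Subgroup G, V ≤ U → H2c 𝓛 (isHom_eta (cosetPerm V) ρ) x = 0 :=
  Eff.exists_eta_H2_eq_zero hρ x

end Eff

end Fermat.Agent.S55
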